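import Mathlib
import Fermat.Agent.S29.Cyc
import Fermat.Prelude.Def_GaloisRep_ComplexConjugation

/-!
# S30, leaf T8: the `p`-adic cyclotomic character of `Gal(ℚ̄/ℚ)`

* `FA_S30_CY_chi p : Γ →* ℤ_[p]ˣ`, with `σ ζ = ζ ^ (χ σ mod p ^ n)` on `μ_{p^n}`
  (`FA_S30_CY_spec`);
* `FA_S30_CY_chi_frob` : `χ (Frob_ℓ) = ℓ` for `ℓ ≠ p`;
* `FA_S30_CY_chi_inertia` : `χ` is trivial on inertia at `ℓ ≠ p`;
* `FA_S30_CY_chi_level` : `χ σ ≡ 1 mod p ^ n` for `σ` fixing `ℚ(ζ_{p^n})`;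
* `FA_S30_CY_exists_conj` : there is `c` with `c * c = 1` and `χ c = -1`;
* `FA_S30_CY_d φ : Γ →* Rˣ` for `φ : ℤ_[p] →+* R`, with the same properties.
-/

set_option autoImplicit false
set_option linter.unusedSectionVars false
set_option linter.unusedVariables false
set_option linter.style.haveILetI false
set_option maxHeartbeats 1000000

open scoped Pointwise

namespace Fermat.Agent.S30

noncomputable section

local notation "Qb" => AlgebraicClosure ℚ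
local notation "Γ" => (AlgebraicClosure ℚ ≃ₐ[ℚ] AlgebraicClosure ℚ)

open Fermat.Agent.Lib Fermat.Agent.S14 Fermat.Agent.S37 Fermat.Agent.S29

/-! ### Roots of unity of `p`-power order modulo a place over `ℓ ≠ p` -/

/-- A nonunit times an element of `A` is a nonunit. -/
theorem FA_S30_CY_mul_mem (A : ValuationSubring Qb) {x y : Qb} (hx : x ∈ A.nonunits)
    (hy : y ∈ A) : x * y ∈ A.nonunits := by
  rw [ValuationSubring.mem_nonunits_iff] at hx ⊢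
  rw [map_mul]
  have h2 : A.valuation y ≤ 1 := (A.valuation_le_one_iff _).mpr hy
  calc A.valuation x * A.valuation y ≤ A.valuation x * 1 := by gcongr
    _ = A.valuation x := mul_one _
    _ < 1 := hx

/-- A root of unity of `p`-power order congruent to `1` modulo a place over `ℓ ≠ p` is `1`. -/
theorem FA_S30_CY_one (A : ValuationSubring Qb) {p ℓ : ℕ} (hp : p.Prime) (hℓ : ℓ.Prime)
    (hne : ℓ ≠ p) (hA : A.LiesOverPrime ℓ) (n : ℕ) :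
    ∀ {ω : Qb}, ω ^ p ^ n = 1 → ω - 1 ∈ A.nonunits → ω = 1 := by
  induction n with
  | zero =>
      intro ω hω _
      simpa using hω
  | succ n ih =>
      intro ω hω h
      have hωA : ω ∈ A := FA_S29_CY_mem A (pow_ne_zero _ hp.ne_zero) hω
      have h1 : (ω ^ p) ^ p ^ n = 1 := by rw [← pow_mul, ← pow_succ']; exact hω
      have h2 : ω ^ p - 1 ∈ A.nonunits := by
        rw [← mul_geom_sum ω p]
        exact FA_S30_CY_mul_mem A h (sum_mem fun k _ => A.pow_mem hωA k)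
      have h3 : ω ^ p = 1 := ih h1 h2
      have h4 : ω ^ 1 - ω ^ 0 ∈ A.nonunits := by simpa using h
      have h5 := FA_S29_CY_inj A hp hℓ hne hA h3 1 0 h4
      simpa using h5

/-- Reduction modulo a valuation subring over `ℓ ≠ p` is injective on `p ^ n`-th roots of
unity. -/
theorem FA_S30_CY_inj (A : ValuationSubring Qb) {p ℓ : ℕ} (hp : p.Prime) (hℓ : ℓ.Prime)
    (hne : ℓ ≠ p) (hA : A.LiesOverPrime ℓ) (n : ℕ) {ζ : Qb} (hζ : ζ ^ p ^ n = 1) (a b : ℕ)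
    (h : ζ ^ a - ζ ^ b ∈ A.nonunits) : ζ ^ a = ζ ^ b := by
  have hζ0 : ζ ≠ 0 := by
    rintro rfl
    rw [zero_pow (pow_ne_zero _ hp.ne_zero)] at hζ
    exact zero_ne_one hζ
  have hb0 : ζ ^ b ≠ 0 := pow_ne_zero _ hζ0
  have hinv : ((ζ ^ b)⁻¹) ^ p ^ n = 1 := by
    rw [inv_pow, ← pow_mul, mul_comm, pow_mul, hζ, one_pow, inv_one]
  have hinvA : (ζ ^ b)⁻¹ ∈ A := FA_S29_CY_mem A (pow_ne_zero _ hp.ne_zero) hinv
  have hω : (ζ ^ a * (ζ ^ b)⁻¹) ^ p ^ n = 1 := by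
    rw [mul_pow, hinv, mul_one, ← pow_mul, mul_comm, pow_mul, hζ, one_pow]
  have h1 : ζ ^ a * (ζ ^ b)⁻¹ - 1 ∈ A.nonunits := by
    have : ζ ^ a * (ζ ^ b)⁻¹ - 1 = (ζ ^ a - ζ ^ b) * (ζ ^ b)⁻¹ := by
      rw [sub_mul, mul_inv_cancel₀ hb0]
    rw [this]
    exact FA_S30_CY_mul_mem A h hinvA
  have h2 := FA_S30_CY_one A hp hℓ hne hA n hω h1
  calc ζ ^ a = ζ ^ a * (ζ ^ b)⁻¹ * ζ ^ b := by
        rw [mul_assoc, inv_mul_cancel₀ hb0, mul_one]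
    _ = ζ ^ b := by rw [h2, one_mul]

/-! ### The character -/

variable (p : ℕ) [hpF : Fact p.Prime]

/-- The `p`-adic cyclotomic character of `Gal(ℚ̄/ℚ)`. -/
def FA_S30_CY_chi : Γ →* ℤ_[p]ˣ :=
  (cyclotomicCharacter Qb p).comp (MulSemiringAction.toRingAut Γ Qb)

/-- `σ ζ = ζ ^ (χ σ mod p ^ n)` for `ζ ∈ μ_{p^n}`. -/
theorem FA_S30_CY_spec (σ : Γ) {n : ℕ} {ζ : Qb} (hζ : ζ ^ p ^ n = 1) :
    σ ζ = ζ ^ (((FA_S30_CY_chi p σ : ℤ_[p]ˣ) : ℤ_[p]).toZModPow n).val :=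
  cyclotomicCharacter.spec p (MulSemiringAction.toRingAut Γ Qb σ) ζ hζ

/-- If `σ ζ = ζ ^ a` for all `ζ ∈ μ_{p^n}`, then `χ σ ≡ a mod p ^ n`. -/
theorem FA_S30_CY_toZModPow_eq (σ : Γ) (n : ℕ) (a : ℕ)
    (h : ∀ ζ : Qb, ζ ^ p ^ n = 1 → σ ζ = ζ ^ a) :
    ((FA_S30_CY_chi p σ : ℤ_[p]ˣ) : ℤ_[p]).toZModPow n = (a : ZMod (p ^ n)) := by
  haveI : NeZero (p ^ n) := ⟨pow_ne_zero _ hpF.out.ne_zero⟩
  obtain ⟨ζ, hζ⟩ := HasEnoughRootsOfUnity.exists_primitiveRoot Qb (p ^ n)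
  have h1 := FA_S30_CY_spec p σ hζ.pow_eq_one
  rw [h ζ hζ.pow_eq_one] at h1
  have hfin : IsOfFinOrder ζ :=
    isOfFinOrder_iff_pow_eq_one.mpr ⟨p ^ n, pow_pos hpF.out.pos n, hζ.pow_eq_one⟩
  have h2 : a ≡ (((FA_S30_CY_chi p σ : ℤ_[p]ˣ) : ℤ_[p]).toZModPow n).val [MOD p ^ n] := by
    have := hfin.pow_eq_pow_iff_modEq.mp h1
    rwa [← hζ.eq_orderOf] at this
  have h3 := (ZMod.natCast_eq_natCast_iff _ _ _).mpr h2
  rw [ZMod.natCast_zmod_val] at h3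
  exact h3.symm

/-- If `σ ζ = ζ ^ a` for all `ζ` of `p`-power order, then `χ σ = a`. -/
theorem FA_S30_CY_chi_eq (σ : Γ) (a : ℕ)
    (h : ∀ (n : ℕ) (ζ : Qb), ζ ^ p ^ n = 1 → σ ζ = ζ ^ a) :
    ((FA_S30_CY_chi p σ : ℤ_[p]ˣ) : ℤ_[p]) = (a : ℤ_[p]) := by
  refine PadicInt.ext_of_toZModPow.mp fun n => ?_
  rw [FA_S30_CY_toZModPow_eq p σ n a (h n), map_natCast]

/-- A Frobenius element at `ℓ ≠ p` raises `p ^ n`-th roots of unity to the `ℓ`-th power. -/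
theorem FA_S30_CY_frob_zeta {ℓ : ℕ} (hℓ : ℓ.Prime) (hne : ℓ ≠ p) (A : ValuationSubring Qb)
    (hA : A.LiesOverPrime ℓ) (τ : Γ) (hτ : A.IsFrobeniusAt τ ℓ) (n : ℕ) {ζ : Qb}
    (hζ : ζ ^ p ^ n = 1) : τ ζ = ζ ^ ℓ := by
  obtain ⟨hτD, hτx⟩ := hτ
  have hζA : ζ ∈ A := FA_S29_CY_mem A (pow_ne_zero _ hpF.out.ne_zero) hζ
  have h1 := hτx (IsLocalRing.residue A ⟨ζ, hζA⟩)
  rw [← IsLocalRing.ResidueField.residue_smul, ← map_pow] at h1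
  have h2 := FA_S29_CY_sub_mem A _ _ h1
  have h3 : (((⟨τ, hτD⟩ : A.decompositionSubgroup ℚ) • (⟨ζ, hζA⟩ : A) : A) : Qb) = τ ζ := rfl
  rw [h3] at h2
  have h4 : (((⟨ζ, hζA⟩ : A) ^ ℓ : A) : Qb) = ζ ^ ℓ := rfl
  rw [h4, FA_S30_CY_spec p τ hζ] at h2
  rw [FA_S30_CY_spec p τ hζ]
  exact FA_S30_CY_inj A hpF.out hℓ hne hA n hζ _ _ h2

/-- **T8 (Frobenius)**: `χ (Frob_ℓ) = ℓ` for `ℓ ≠ p`. -/
theorem FA_S30_CY_chi_frob {ℓ : ℕ} (hℓ : ℓ.Prime) (hne : ℓ ≠ p) (A : ValuationSubring Qb)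
    (hA : A.LiesOverPrime ℓ) (τ : Γ) (hτ : A.IsFrobeniusAt τ ℓ) :
    ((FA_S30_CY_chi p τ : ℤ_[p]ˣ) : ℤ_[p]) = (ℓ : ℤ_[p]) :=
  FA_S30_CY_chi_eq p τ ℓ fun n ζ hζ => FA_S30_CY_frob_zeta p hℓ hne A hA τ hτ n hζ

/-- An inertia element at `ℓ ≠ p` fixes the `p ^ n`-th roots of unity. -/
theorem FA_S30_CY_inertia_zeta {ℓ : ℕ} (hℓ : ℓ.Prime) (hne : ℓ ≠ p) (A : ValuationSubring Qb)
    (hA : A.LiesOverPrime ℓ) (σ : Γ) (hσ : σ ∈ A.inertiaSubgroupIn ℚ) (n : ℕ) {ζ : Qb}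
    (hζ : ζ ^ p ^ n = 1) : σ ζ = ζ := by
  obtain ⟨hσD, hσx⟩ := FA_S37_FR_inertia_iff.mp hσ
  have hζA : ζ ∈ A := FA_S29_CY_mem A (pow_ne_zero _ hpF.out.ne_zero) hζ
  have h1 := hσx (IsLocalRing.residue A ⟨ζ, hζA⟩)
  rw [← IsLocalRing.ResidueField.residue_smul] at h1
  have h2 := FA_S29_CY_sub_mem A _ _ h1
  have h3 : (((⟨σ, hσD⟩ : A.decompositionSubgroup ℚ) • (⟨ζ, hζA⟩ : A) : A) : Qb) = σ ζ := rfl
  rw [h3] at h2
  have h4 : ((⟨ζ, hζA⟩ : A) : Qb) = ζ ^ 1 := (pow_one ζ).symm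
  rw [h4, FA_S30_CY_spec p σ hζ] at h2
  have h5 := FA_S30_CY_inj A hpF.out hℓ hne hA n hζ _ _ h2
  rw [FA_S30_CY_spec p σ hζ, h5, pow_one]

/-- **T8 (inertia)**: `χ` is trivial on inertia at `ℓ ≠ p`. -/
theorem FA_S30_CY_chi_inertia {ℓ : ℕ} (hℓ : ℓ.Prime) (hne : ℓ ≠ p) (A : ValuationSubring Qb)
    (hA : A.LiesOverPrime ℓ) (σ : Γ) (hσ : σ ∈ A.inertiaSubgroupIn ℚ) :
    FA_S30_CY_chi p σ = 1 := by
  apply Units.ext
  rw [FA_S30_CY_chi_eq p σ 1 fun n ζ hζ => by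
    rw [pow_one]; exact FA_S30_CY_inertia_zeta p hℓ hne A hA σ hσ n hζ]
  simp

/-- **T8 (level)**: `χ σ ≡ 1 mod p ^ n` as soon as `σ` fixes the `p ^ n`-th roots of unity. -/
theorem FA_S30_CY_chi_level (σ : Γ) (n : ℕ) (h : ∀ ζ : Qb, ζ ^ p ^ n = 1 → σ ζ = ζ) :
    ((FA_S30_CY_chi p σ : ℤ_[p]ˣ) : ℤ_[p]) - 1 ∈ Ideal.span {(p : ℤ_[p]) ^ n} := by
  have h1 := FA_S30_CY_toZModPow_eq p σ n 1 fun ζ hζ => by rw [pow_one]; exact h ζ hζ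
  rw [← PadicInt.ker_toZModPow, RingHom.mem_ker, map_sub, h1, map_one]
  simp

/-- **T8 (continuity)**: there is a number field `E_n` such that `χ σ ≡ 1 mod p ^ n` for
`σ ∈ Gal(ℚ̄ / E_n)`. -/
theorem FA_S30_CY_chi_cont (n : ℕ) :
    ∃ E : IntermediateField ℚ Qb, FiniteDimensional ℚ E ∧
      ∀ σ : Γ, σ ∈ E.fixingSubgroup →
        ((FA_S30_CY_chi p σ : ℤ_[p]ˣ) : ℤ_[p]) - 1 ∈ Ideal.span {(p : ℤ_[p]) ^ n} := by
  haveI : NeZero (p ^ n) := ⟨pow_ne_zero _ hpF.out.ne_zero⟩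
  obtain ⟨ζ, hζ⟩ := HasEnoughRootsOfUnity.exists_primitiveRoot Qb (p ^ n)
  refine ⟨IntermediateField.adjoin ℚ {ζ}, ?_, fun σ hσ => ?_⟩
  · haveI : Algebra.IsAlgebraic ℚ Qb := AlgebraicClosure.isAlgebraic ℚ
    haveI : Algebra.IsIntegral ℚ Qb := Algebra.IsAlgebraic.isIntegral
    exact IntermediateField.adjoin.finiteDimensional
      (Algebra.IsIntegral.isIntegral (R := ℚ) ζ)
  · refine FA_S30_CY_chi_level p σ n fun ξ hξ => ?_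
    have hσζ : σ ζ = ζ := (IntermediateField.mem_fixingSubgroup_iff _ _).mp hσ ζ
      (IntermediateField.mem_adjoin_simple_self ℚ ζ)
    obtain ⟨i, -, rfl⟩ := hζ.eq_pow_of_pow_eq_one hξ
    rw [map_pow, hσζ]

/-- **T8 (congruence)**: if `σ` and `τ` agree on `μ_{p^n}`, then `χ σ ≡ χ τ mod p ^ n`. -/
theorem FA_S30_CY_chi_congr (σ τ : Γ) (n : ℕ) (h : ∀ ζ : Qb, ζ ^ p ^ n = 1 → σ ζ = τ ζ) :
    ((FA_S30_CY_chi p σ : ℤ_[p]ˣ) : ℤ_[p]) - ((FA_S30_CY_chi p τ : ℤ_[p]ˣ) : ℤ_[p])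
      ∈ Ideal.span {(p : ℤ_[p]) ^ n} := by
  haveI : NeZero (p ^ n) := ⟨pow_ne_zero _ hpF.out.ne_zero⟩
  have h1 := FA_S30_CY_toZModPow_eq p σ n
    (((FA_S30_CY_chi p τ : ℤ_[p]ˣ) : ℤ_[p]).toZModPow n).val fun ζ hζ => by
      rw [h ζ hζ]; exact FA_S30_CY_spec p τ hζ
  rw [ZMod.natCast_zmod_val] at h1
  rw [← PadicInt.ker_toZModPow, RingHom.mem_ker, map_sub, h1, sub_self]

/-- The number field `ℚ(μ_{p^n})`: `χ mod p ^ n` only depends on the restriction to it. -/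
theorem FA_S30_CY_chi_congr_field (n : ℕ) :
    ∃ E : IntermediateField ℚ Qb, FiniteDimensional ℚ E ∧
      ∀ σ τ : Γ, (∀ x ∈ E, σ x = τ x) →
        ((FA_S30_CY_chi p σ : ℤ_[p]ˣ) : ℤ_[p]) - ((FA_S30_CY_chi p τ : ℤ_[p]ˣ) : ℤ_[p])
          ∈ Ideal.span {(p : ℤ_[p]) ^ n} := by
  haveI : NeZero (p ^ n) := ⟨pow_ne_zero _ hpF.out.ne_zero⟩
  obtain ⟨ζ, hζ⟩ := HasEnoughRootsOfUnity.exists_primitiveRoot Qb (p ^ n)
  refine ⟨IntermediateField.adjoin ℚ {ζ}, ?_, fun σ τ hστ => ?_⟩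
  · haveI : Algebra.IsAlgebraic ℚ Qb := AlgebraicClosure.isAlgebraic ℚ
    haveI : Algebra.IsIntegral ℚ Qb := Algebra.IsAlgebraic.isIntegral
    exact IntermediateField.adjoin.finiteDimensional
      (Algebra.IsIntegral.isIntegral (R := ℚ) ζ)
  · refine FA_S30_CY_chi_congr p σ τ n fun ξ hξ => ?_
    have hσζ : σ ζ = τ ζ := hστ ζ (IntermediateField.mem_adjoin_simple_self ℚ ζ)
    obtain ⟨i, -, rfl⟩ := hζ.eq_pow_of_pow_eq_one hξ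
    rw [map_pow, map_pow, hσζ]

/-! ### Complex conjugation -/

/-- Complex conjugation inverts the roots of unity. -/
theorem FA_S30_CY_conj_zeta {m : ℕ} (hm : m ≠ 0) {ζ : Qb} (hζ : ζ ^ m = 1) :
    complexConjugation ζ = ζ⁻¹ := by
  apply (complexEmbedding : Qb →+* ℂ).injective
  show complexEmbedding (complexConjugation ζ) = complexEmbedding ζ⁻¹
  rw [complexEmbedding_complexConjugation, map_inv₀]
  have h1 : (complexEmbedding ζ) ^ m = 1 := by rw [← map_pow, hζ, map_one]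
  exact (Complex.inv_eq_conj (Complex.norm_eq_one_of_pow_eq_one h1 hm)).symm

/-- **T8 (oddness)**: `χ (c) = -1` for the complex conjugation `c`. -/
theorem FA_S30_CY_chi_conj :
    ((FA_S30_CY_chi p complexConjugation : ℤ_[p]ˣ) : ℤ_[p]) = -1 := by
  refine PadicInt.ext_of_toZModPow.mp fun n => ?_
  have hpn : p ^ n ≠ 0 := pow_ne_zero _ hpF.out.ne_zero
  have h1 := FA_S30_CY_toZModPow_eq p complexConjugation n (p ^ n - 1) fun ζ hζ => by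
    rw [FA_S30_CY_conj_zeta hpn hζ]
    have hζ0 : ζ ≠ 0 := by
      rintro rfl
      rw [zero_pow hpn] at hζ
      exact zero_ne_one hζ
    apply mul_left_cancel₀ hζ0
    rw [mul_inv_cancel₀ hζ0, ← pow_succ', Nat.sub_add_cancel (Nat.one_le_iff_ne_zero.mpr hpn), hζ]
  rw [h1, map_neg, map_one, Nat.cast_sub (Nat.one_le_iff_ne_zero.mpr hpn), Nat.cast_one,
    ZMod.natCast_self, zero_sub]

/-- **T8**: there is an involution `c` with `χ c = -1`. -/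
theorem FA_S30_CY_exists_conj :
    ∃ c : Γ, c * c = 1 ∧ ((FA_S30_CY_chi p c : ℤ_[p]ˣ) : ℤ_[p]) = -1 :=
  ⟨complexConjugation, complexConjugation_mul_self, FA_S30_CY_chi_conj p⟩

/-! ### Coefficients in a `ℤ_[p]`-algebra -/

section coeff

variable {R : Type*} [CommRing R] (φ : ℤ_[p] →+* R)

/-- The cyclotomic character with values in `Rˣ`, for a ring homomorphism `φ : ℤ_[p] →+* R`. -/
def FA_S30_CY_d : Γ →* Rˣ :=
  (Units.map (φ : ℤ_[p] →* R)).comp (FA_S30_CY_chi p)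

theorem FA_S30_CY_d_coe (σ : Γ) :
    ((FA_S30_CY_d p φ σ : Rˣ) : R) = φ ((FA_S30_CY_chi p σ : ℤ_[p]ˣ) : ℤ_[p]) := rfl

theorem FA_S30_CY_d_frob {ℓ : ℕ} (hℓ : ℓ.Prime) (hne : ℓ ≠ p) (A : ValuationSubring Qb)
    (hA : A.LiesOverPrime ℓ) (τ : Γ) (hτ : A.IsFrobeniusAt τ ℓ) :
    ((FA_S30_CY_d p φ τ : Rˣ) : R) = (ℓ : R) := by
  rw [FA_S30_CY_d_coe, FA_S30_CY_chi_frob p hℓ hne A hA τ hτ, map_natCast]

theorem FA_S30_CY_d_inertia {ℓ : ℕ} (hℓ : ℓ.Prime) (hne : ℓ ≠ p) (A : ValuationSubring Qb)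
    (hA : A.LiesOverPrime ℓ) (σ : Γ) (hσ : σ ∈ A.inertiaSubgroupIn ℚ) :
    FA_S30_CY_d p φ σ = 1 := by
  show Units.map _ (FA_S30_CY_chi p σ) = 1
  rw [FA_S30_CY_chi_inertia p hℓ hne A hA σ hσ, map_one]

theorem FA_S30_CY_d_conj :
    ((FA_S30_CY_d p φ complexConjugation : Rˣ) : R) = -1 := by
  rw [FA_S30_CY_d_coe, FA_S30_CY_chi_conj p, map_neg, map_one]

theorem FA_S30_CY_d_exists_conj :
    ∃ c : Γ, c * c = 1 ∧ ((FA_S30_CY_d p φ c : Rˣ) : R) = -1 :=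
  ⟨complexConjugation, complexConjugation_mul_self, FA_S30_CY_d_conj p φ⟩

/-- `φ` maps `p ^ n ℤ_[p]` into `p ^ n R`. -/
theorem FA_S30_CY_map_span {x : ℤ_[p]} {n : ℕ} (hx : x ∈ Ideal.span {(p : ℤ_[p]) ^ n}) :
    φ x ∈ Ideal.span {(p : R) ^ n} := by
  obtain ⟨y, rfl⟩ := Ideal.mem_span_singleton'.mp hx
  rw [map_mul, map_pow, map_natCast]
  exact Ideal.mul_mem_left _ _ (Ideal.subset_span rfl)

theorem FA_S30_CY_d_congr (σ τ : Γ) (n : ℕ) (h : ∀ ζ : Qb, ζ ^ p ^ n = 1 → σ ζ = τ ζ) :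
    ((FA_S30_CY_d p φ σ : Rˣ) : R) - ((FA_S30_CY_d p φ τ : Rˣ) : R)
      ∈ Ideal.span {(p : R) ^ n} := by
  rw [FA_S30_CY_d_coe, FA_S30_CY_d_coe, ← map_sub]
  exact FA_S30_CY_map_span p φ (FA_S30_CY_chi_congr p σ τ n h)

theorem FA_S30_CY_d_congr_field (n : ℕ) :
    ∃ E : IntermediateField ℚ Qb, FiniteDimensional ℚ E ∧
      ∀ σ τ : Γ, (∀ x ∈ E, σ x = τ x) →
        ((FA_S30_CY_d p φ σ : Rˣ) : R) - ((FA_S30_CY_d p φ τ : Rˣ) : R)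
          ∈ Ideal.span {(p : R) ^ n} := by
  obtain ⟨E, hE, h⟩ := FA_S30_CY_chi_congr_field p n
  refine ⟨E, hE, fun σ τ hστ => ?_⟩
  rw [FA_S30_CY_d_coe, FA_S30_CY_d_coe, ← map_sub]
  exact FA_S30_CY_map_span p φ (h σ τ hστ)

/-- **T8 (continuity)** with coefficients in `R`. -/
theorem FA_S30_CY_d_cont (n : ℕ) :
    ∃ E : IntermediateField ℚ Qb, FiniteDimensional ℚ E ∧
      ∀ σ : Γ, σ ∈ E.fixingSubgroup →
        ((FA_S30_CY_d p φ σ : Rˣ) : R) - 1 ∈ Ideal.span {(p : R) ^ n} := by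
  obtain ⟨E, hE, h⟩ := FA_S30_CY_chi_cont p n
  refine ⟨E, hE, fun σ hσ => ?_⟩
  have h1 := FA_S30_CY_map_span p φ (h σ hσ)
  rwa [map_sub, map_one] at h1

end coeff

end

end Fermat.Agent.S30
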