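import Fermat.Agent.S30.EigChar

/-!
# S30, leaf T6: the eigenvector of a character of the Hecke algebra, tensor form

`𝕋 = heckeAlgebra N 2 S`, `χ : 𝕋 →+* 𝒪'` a ring homomorphism to a domain,
`H = parabolicHoms ℤ (Gamma0 N) ℤ`.

* `FA_S30_EC_main` : there is `u ≠ 0` in `𝒪' ⊗[ℤ] H` with
  `(FA_S29_EIG_TH N ℓ).baseChange 𝒪' u = χ(T_ℓ) • u` for all primes `ℓ ∤ N`, `ℓ ∉ S`;
* `FA_S30_EC_main'` : the same with `(FA_S29_EIG_TH N ℓ).toAddMonoidHom.toIntLinearMap`.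
-/

set_option autoImplicit false
set_option linter.unusedSectionVars false
set_option linter.unusedVariables false
set_option linter.style.haveILetI false

noncomputable section

namespace Fermat.Agent.S30

open CuspForm ModularFormClass CongruenceSubgroup ModularCurve ModularCurve.Period
  FA_S16 FA_S22 FA_S21 Fermat.Agent.S29
open scoped MatrixGroups TensorProduct

variable (N : ℕ) [NeZero N] (S : Set ℕ)

/-- Abstract form: a nonzero eigenvector of the matrix gives a nonzero eigenvector in the base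
change of a free `ℤ`-module. -/
theorem FA_S30_EC_tensor_abs {H : Type*} [AddCommGroup H] {n : ℕ} (β : Module.Basis (Fin n) ℤ H)
    {𝒪' : Type*} [CommRing 𝒪'] (w : Fin n → 𝒪') (hw : w ≠ 0) :
    (∑ j, w j ⊗ₜ[ℤ] β j : 𝒪' ⊗[ℤ] H) ≠ 0 ∧
    ∀ (T : H →ₗ[ℤ] H) (A : Fin n → Fin n → ℤ) (c : 𝒪'),
      (∀ j, T (β j) = ∑ m, A m j • β m) →
      (∀ m, ∑ j, ((A m j : ℤ) : 𝒪') * w j = c * w m) →
      T.baseChange 𝒪' (∑ j, w j ⊗ₜ[ℤ] β j) = c • (∑ j, w j ⊗ₜ[ℤ] β j : 𝒪' ⊗[ℤ] H) := by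
  classical
  let B := Algebra.TensorProduct.basis 𝒪' β
  have e : (∑ j, w j ⊗ₜ[ℤ] β j : 𝒪' ⊗[ℤ] H) = ∑ j, w j • B j := by
    refine Finset.sum_congr rfl fun j _ => ?_
    rw [Algebra.TensorProduct.basis_apply, TensorProduct.smul_tmul', smul_eq_mul, mul_one]
  refine ⟨?_, ?_⟩
  · intro h0
    apply hw
    funext j
    rw [e] at h0
    have h1 := congrArg (fun z => B.repr z j) h0
    simp only [map_sum, map_smul, Module.Basis.repr_self, Finsupp.coe_finsetSum,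
      Finsupp.coe_smul, Finset.sum_apply, Pi.smul_apply, Finsupp.single_apply, smul_eq_mul,
      map_zero, Finsupp.coe_zero, Pi.zero_apply] at h1
    rw [Finset.sum_eq_single j (fun i _ hij => by simp [hij])
      (fun h => absurd (Finset.mem_univ j) h)] at h1
    simpa using h1
  · intro T A c hT hA
    rw [map_sum, Finset.smul_sum]
    have h1 : ∀ j, T.baseChange 𝒪' (w j ⊗ₜ[ℤ] β j)
        = ∑ m, (((A m j : ℤ) : 𝒪') * w j) ⊗ₜ[ℤ] β m := by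
      intro j
      rw [LinearMap.baseChange_tmul, hT j, TensorProduct.tmul_sum]
      refine Finset.sum_congr rfl fun m _ => ?_
      rw [TensorProduct.tmul_smul, TensorProduct.smul_tmul', zsmul_eq_mul]
    rw [Finset.sum_congr rfl fun j _ => h1 j, Finset.sum_comm]
    refine Finset.sum_congr rfl fun m _ => ?_
    rw [← TensorProduct.sum_tmul, hA m, TensorProduct.smul_tmul', smul_eq_mul]

/-- **T6, tensor form**: the eigenvector of a character `χ` of the Hecke algebra with values in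
a domain, in the base change of the parabolic lattice. -/
theorem FA_S30_EC_main {𝒪' : Type*} [CommRing 𝒪'] [IsDomain 𝒪']
    (χ : heckeAlgebra N 2 S →+* 𝒪') :
    ∃ u : 𝒪' ⊗[ℤ] ↥(parabolicHoms ℤ (Gamma0 N) ℤ), u ≠ 0 ∧
      ∀ (ℓ : ℕ) (hℓ : ℓ.Prime) (hℓN : ¬ ℓ ∣ N) (hℓS : ℓ ∉ S),
        (FA_S29_EIG_TH N ⟨ℓ, hℓ⟩).baseChange 𝒪' u = χ (heckeAlgebra.T hℓ hℓN hℓS) • u := by
  obtain ⟨w, hw, h⟩ := FA_S30_EC_matrix N S χ
  obtain ⟨h1, h2⟩ := FA_S30_EC_tensor_abs (FA_S29_EIG_basis N) w hw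
  refine ⟨_, h1, fun ℓ hℓ hℓN hℓS => ?_⟩
  exact h2 (FA_S29_EIG_TH N ⟨ℓ, hℓ⟩) (fun m j => FA_S29_EIG_A N ⟨ℓ, hℓ⟩ m j) _
    (fun j => FA_S29_EIG_TH_basis (N := N) ⟨ℓ, hℓ⟩ j) (fun m => h ℓ hℓ hℓN hℓS m)

/-- **T6, tensor form**, for the additive Hecke operators. -/
theorem FA_S30_EC_main' {𝒪' : Type*} [CommRing 𝒪'] [IsDomain 𝒪']
    (χ : heckeAlgebra N 2 S →+* 𝒪') :
    ∃ u : 𝒪' ⊗[ℤ] ↥(parabolicHoms ℤ (Gamma0 N) ℤ), u ≠ 0 ∧
      ∀ (ℓ : ℕ) (hℓ : ℓ.Prime) (hℓN : ¬ ℓ ∣ N) (hℓS : ℓ ∉ S),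
        ((FA_S29_EIG_TH N ⟨ℓ, hℓ⟩).toAddMonoidHom.toIntLinearMap).baseChange 𝒪' u
          = χ (heckeAlgebra.T hℓ hℓN hℓS) • u := by
  obtain ⟨u, hu, h⟩ := FA_S30_EC_main N S χ
  refine ⟨u, hu, fun ℓ hℓ hℓN hℓS => ?_⟩
  have e : (FA_S29_EIG_TH N ⟨ℓ, hℓ⟩).toAddMonoidHom.toIntLinearMap = FA_S29_EIG_TH N ⟨ℓ, hℓ⟩ :=
    LinearMap.ext fun _ => rfl
  rw [e]
  exact h ℓ hℓ hℓN hℓS

end Fermat.Agent.S30
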