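import Fermat.Agent.S29.Theta

/-!
# S30, leaf T1: the maps `Θ_m : H → J₀(N)[m]` for every `m ≥ 1`

The statement of `FA_S29_theta` for an arbitrary positive integer `m` in place of the prime `p`
(the proof of `FA_S29_theta` uses only `0 < p`).
-/

set_option autoImplicit false
set_option linter.style.haveILetI false
set_option linter.unusedSectionVars false
set_option linter.unusedVariables false

noncomputable section

open UpperHalfPlane CongruenceSubgroup ModularCurve ModularCurve.Period AlgebraicCurve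
open scoped MatrixGroups

namespace Fermat.Agent.S30

open Fermat.Agent.Mero Fermat.Agent.S24 FA_RR Fermat.Agent.S37 Fermat.Agent.S29

/-- **T1**: for every `m ≥ 1` a map `Θ_m : H → J₀(N)`, killed by `m`, injective modulo `m`,
Hecke equivariant at the primes `ℓ ∤ N`. -/
theorem FA_S30_theta (N : ℕ) [NeZero N] (m : ℕ) (hm : 0 < m) :
    ∃ Θ : ↥(parabolicHoms ℤ (Gamma0 N) ℤ) →+ ModularCurve.JZero N,
      (∀ ψ, (m : ℤ) • Θ ψ = 0) ∧ (∀ ψ, Θ ψ = 0 → ∃ ψ', ψ = (m : ℤ) • ψ') ∧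
      (∀ ℓ : Nat.Primes, ¬ (ℓ : ℕ) ∣ N →
        ∀ ψ, Θ (FA_S29_EIG_TH N ℓ ψ) = heckeOperatorBar N ℓ (Θ ψ)) := by
  haveI halg : Algebra.IsAlgebraic ℚ (AlgebraicClosure ℚ) := AlgebraicClosure.isAlgebraic ℚ
  letI algC : Algebra (AlgebraicClosure ℚ) ℂ :=
    (IsAlgClosed.lift (R := ℚ) (S := AlgebraicClosure ℚ) (M := ℂ)).toRingHom.toAlgebra
  letI algM : Algebra (AlgebraicClosure ℚ) FA_Mero_Field :=
    ((algebraMap ℂ FA_Mero_Field).comp (algebraMap (AlgebraicClosure ℚ) ℂ)).toAlgebra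
  have ht : FA_S24_Tower (AlgebraicClosure ℚ) := fun c => rfl
  haveI : IsScalarTower ℚ (AlgebraicClosure ℚ) ℂ := FA_S29_DS_tower (AlgebraicClosure ℚ) ℂ
  have hFK : FA_RR_IsFF (AlgebraicClosure ℚ)
      ↥(laurentBaseChange (AlgebraicClosure ℚ) (modularFunctionFieldFull N)) :=
    FA_S29_MB_isFF (AlgebraicClosure ℚ) ht N
  have hm0 : m ≠ 0 := hm.ne'
  choose x hx hxsel using FA_S29_TH_x_exists N (p := m) hm0
  obtain ⟨Θ, h1, h2, h3⟩ := FA_S29_TH_abstract (K := AlgebraicClosure ℚ) (L := ℂ)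
    (modularFunctionFieldFull N) hFK hm
    (fun f hf => FA_S29_MBC_descent_all (AlgebraicClosure ℚ) ht N m hm f hf) x hxsel
    (fun ψ ψ' => FA_S29_TH_hadd N ψ ψ' _ _ _ (hx ψ) (hx ψ') (hx (ψ + ψ')))
    (fun ψ hrel => FA_S29_TH_hker N hm0 ψ _ (hx ψ) hrel)
  refine ⟨Θ, h1, h2, fun ℓ hℓN ψ => ?_⟩
  haveI : Fact (ℓ : ℕ).Prime := ⟨ℓ.2⟩
  refine h3 (fun ψ => FA_S29_EIG_TH N ℓ ψ) (fun y => heckeOperatorBar N ℓ y) ?_ ψ
  intro ψ f₀ hf₀ hrel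
  have hHC := FA_S29_HC_hecke N ℓ.2 hFK hm f₀ hf₀
  refine ⟨FA_S37_K5_norm N ℓ f₀, hHC.1.1, hHC.2, ?_⟩
  exact FA_S29_HG_P5_psi N (ℓ : ℕ) ht hℓN m ψ (x ψ) (x (FA_S29_EIG_TH N ℓ ψ)) (hx ψ)
    (hx (FA_S29_EIG_TH N ℓ ψ)) f₀ hrel

end Fermat.Agent.S30

end
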