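import Mathlib
import Fermat.Agent.S29.GalHeckeTors
import Fermat.Agent.S29.ModelFin
import Fermat.Agent.S29.Kummer

/-!
# S30, leaf T2: the `m`-torsion of `J₀(N)` is finite

Every `m`-torsion class is a Kummer class `κ f`, `f ∈ Sel_m(F_{ℚ̄})`; `κ` is constant on the
classes of `Rel`; `Sel_m(F_{ℚ̄}) / Rel` injects into `Sel_m(F_ℂ) / Rel`, which is finite.

* `FA_S30_TF_finite_of` : generic form;
* `FA_S30_TF_finite` : `{x : JZero N | m • x = 0}` is finite (`0 < m`);
* `FA_S30_TF_finite_zsmul`, `FA_S30_TF_finite_pow` : variants.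
-/

set_option autoImplicit false
set_option linter.unusedSectionVars false
set_option linter.unusedVariables false
set_option linter.style.haveILetI false
set_option synthInstance.maxHeartbeats 400000
set_option maxHeartbeats 1000000

noncomputable section

namespace Fermat.Agent.S30

open ModularCurve AlgebraicCurve FA_RR Fermat.Agent.S29 Fermat.Agent.S24 Fermat.Agent.Mero
  Fermat.Agent.S37

/-- **T2**: the `m`-torsion of `J₀(N)` is finite. -/
theorem FA_S30_TF_finite (N : ℕ) [NeZero N] (m : ℕ) (hm : 0 < m) :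
    {x : JZero N | m • x = 0}.Finite := by
  classical
  haveI halg : Algebra.IsAlgebraic ℚ (AlgebraicClosure ℚ) := AlgebraicClosure.isAlgebraic ℚ
  letI algC : Algebra (AlgebraicClosure ℚ) ℂ :=
    (IsAlgClosed.lift (R := ℚ) (S := AlgebraicClosure ℚ) (M := ℂ)).toRingHom.toAlgebra
  letI algM : Algebra (AlgebraicClosure ℚ) FA_Mero_Field :=
    ((algebraMap ℂ FA_Mero_Field).comp (algebraMap (AlgebraicClosure ℚ) ℂ)).toAlgebra
  have ht : FA_S24_Tower (AlgebraicClosure ℚ) := fun c => rfl
  haveI : IsScalarTower ℚ (AlgebraicClosure ℚ) ℂ := FA_S29_DS_tower (AlgebraicClosure ℚ) ℂ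
  have hFK : FA_RR_IsFF (AlgebraicClosure ℚ)
      ↥(laurentBaseChange (AlgebraicClosure ℚ) (modularFunctionFieldFull N)) :=
    FA_S29_MB_isFF (AlgebraicClosure ℚ) ht N
  have hFL : FA_RR_IsFF ℂ ↥(laurentBaseChange ℂ (modularFunctionFieldFull N)) :=
    FA_S29_MB_isFF ℂ FA_S24_tower_complex N
  obtain ⟨T, hT, hTf⟩ := FA_S29_MBC_finite_all N m hm
  -- every torsion class has a representative in `T`
  have key : ∀ x : JZero N, m • x = 0 →
      ∃ t : FA_S29_MBC_F N, t ∈ T ∧
        ∃ f : ↥(laurentBaseChange (AlgebraicClosure ℚ) (modularFunctionFieldFull N)),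
          FA_S29_DS_Sel (AlgebraicClosure ℚ) m f ∧ FA_S29_KU_kappa hFK m f = x ∧
          ∃ u : FA_S29_MBC_F N, u ≠ 0 ∧
            t = u ^ m * FA_S29_DS_iota (L := ℂ) (modularFunctionFieldFull N) f := by
    intro x hx
    obtain ⟨f, hf, hfx⟩ := FA_S29_GHT_exists_kappa hFK hm x hx
    have hsel : FA_S29_DS_Sel ℂ m (FA_S29_DS_iota (L := ℂ) (modularFunctionFieldFull N) f) :=
      (FA_S29_DS_sel_iff (modularFunctionFieldFull N) hFK hFL m f).mpr hf
    obtain ⟨t, htT, u, hu, htu⟩ := hTf _ hsel.1 hsel.2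
    exact ⟨t, htT, f, hf, hfx, u, hu, htu⟩
  choose! t htT f hf hfx u hu htu using key
  refine Set.Finite.of_finite_image (f := t) (hT.subset ?_) ?_
  · rintro _ ⟨x, hx, rfl⟩
    exact htT x hx
  · intro x hx y hy hxy
    have hx' : m • x = 0 := hx
    have hy' : m • y = 0 := hy
    -- `ι (f y) = (u x / u y) ^ m * ι (f x)`
    have huy : u y ≠ 0 := hu y hy'
    have hux : u x ≠ 0 := hu x hx'
    have h1 : FA_S29_DS_iota (L := ℂ) (modularFunctionFieldFull N) (f y)
        = algebraMap ℂ (FA_S29_MBC_F N) 1 * (u x / u y) ^ m *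
          FA_S29_DS_iota (L := ℂ) (modularFunctionFieldFull N) (f x) := by
      have e1 := htu x hx'
      have e2 := htu y hy'
      rw [hxy] at e1
      have e3 : u y ^ m * FA_S29_DS_iota (L := ℂ) (modularFunctionFieldFull N) (f y)
          = u x ^ m * FA_S29_DS_iota (L := ℂ) (modularFunctionFieldFull N) (f x) := by
        rw [← e1, ← e2]
      have huym : u y ^ m ≠ 0 := pow_ne_zero m huy
      rw [map_one, one_mul, div_pow, div_mul_eq_mul_div, ← e3]
      field_simp
    have hrelL : FA_S29_DS_Rel ℂ m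
        (FA_S29_DS_iota (L := ℂ) (modularFunctionFieldFull N) (f x))
        (FA_S29_DS_iota (L := ℂ) (modularFunctionFieldFull N) (f y)) :=
      ⟨1, u x / u y, one_ne_zero, div_ne_zero hux huy, h1⟩
    have hrelK : FA_S29_DS_Rel (AlgebraicClosure ℚ) m (f x) (f y) :=
      (FA_S29_DS_rel_iff (modularFunctionFieldFull N) hm (f x) (f y) (hf x hx').1).mp hrelL
    have h2 := (FA_S29_KU_kappa_rel hFK hm (hf x hx') hrelK).2
    rw [hfx x hx', hfx y hy'] at h2
    exact h2.symm

/-- The same with an integer multiplier. -/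
theorem FA_S30_TF_finite_zsmul (N : ℕ) [NeZero N] (m : ℕ) (hm : 0 < m) :
    {x : JZero N | (m : ℤ) • x = 0}.Finite := by
  have h := FA_S30_TF_finite N m hm
  refine h.subset ?_
  intro x hx
  have hx' : (m : ℤ) • x = 0 := hx
  show m • x = 0
  rw [← natCast_zsmul]
  exact hx'

/-- The `p ^ n`-torsion of `J₀(N)` is finite. -/
theorem FA_S30_TF_finite_pow (N : ℕ) [NeZero N] (p : ℕ) (hp : 0 < p) (n : ℕ) :
    {x : JZero N | (p ^ n) • x = 0}.Finite :=
  FA_S30_TF_finite N (p ^ n) (pow_pos hp n)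

/-- The torsion subgroup `J₀(N)[m]` (as `Pic0.torsion`) is finite. -/
theorem FA_S30_TF_finite_torsion (N : ℕ) [NeZero N] (m : ℕ) (hm : 0 < m) :
    Finite ↥(Pic0.torsion (AlgebraicClosure ℚ) (modularFunctionFieldBar N) m) := by
  have h := FA_S30_TF_finite N m hm
  have hsub : ∀ x : ↥(Pic0.torsion (AlgebraicClosure ℚ) (modularFunctionFieldBar N) m),
      (x : JZero N) ∈ {x : JZero N | m • x = 0} := by
    intro x
    have h1 : (m : ℤ) • (x : JZero N) = 0 := Pic0.mem_torsion.mp x.2
    show m • (x : JZero N) = 0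
    rw [← natCast_zsmul]
    exact h1
  haveI := h.to_subtype
  exact Finite.of_injective
    (fun x : ↥(Pic0.torsion (AlgebraicClosure ℚ) (modularFunctionFieldBar N) m) =>
      (⟨(x : JZero N), hsub x⟩ : {x : JZero N | m • x = 0}))
    (fun a b hab => Subtype.ext (congrArg (fun z : {x : JZero N | m • x = 0} => (z : JZero N)) hab))

end Fermat.Agent.S30

end
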