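import Fermat.Agent.S30.KonigAbs
import Fermat.Agent.S30.ThetaM
import Fermat.Agent.S30.TorsFin
import Fermat.Agent.S29.EigSpan

/-!
# S30, leaf T3: a compatible system `θ_n : H → J₀(N)[p^n]`

`FA_S30_KG_main` : there are `θ_n : H →+ J₀(N)` (`n ≥ 0`) with `p^n θ_n = 0`,
`ker θ_n ⊆ p^n H`, Hecke equivariant at all primes `ℓ ∤ N`, and `p • θ_{n+1} = θ_n`.
(König's lemma applied to the finite nonempty sets of admissible `Θ_{p^n}` of leaf T1.)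
-/

set_option autoImplicit false
set_option linter.unusedSectionVars false
set_option linter.unusedVariables false
set_option linter.style.haveILetI false

namespace Fermat.Agent.S30

open ModularCurve ModularCurve.Period CongruenceSubgroup Fermat.Agent.S29

/-- **T3**: the compatible system. -/
theorem FA_S30_KG_main (N : ℕ) [NeZero N] (p : ℕ) (hp : 0 < p) :
    ∃ θ : ℕ → (↥(parabolicHoms ℤ (Gamma0 N) ℤ) →+ ModularCurve.JZero N),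
      ∀ n, (∀ ψ, (p ^ n) • θ n ψ = 0) ∧ (∀ ψ, θ n ψ = 0 → ∃ ψ', ψ = (p ^ n) • ψ') ∧
        (∀ ℓ : Nat.Primes, ¬ (ℓ : ℕ) ∣ N →
          ∀ ψ, θ n (FA_S29_EIG_TH N ℓ ψ) = heckeOperatorBar N ℓ (θ n ψ)) ∧
        p • θ (n + 1) = θ n := by
  obtain ⟨θ, hθ⟩ := FA_S30_KG_abs (H := ↥(parabolicHoms ℤ (Gamma0 N) ℤ))
    (J := ModularCurve.JZero N) (FA_S29_EIG_basis N) p hp
    (fun n => FA_S30_TF_finite N (p ^ n) (pow_pos hp n))
    (fun θ => ∀ ℓ : Nat.Primes, ¬ (ℓ : ℕ) ∣ N →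
      ∀ ψ, θ (FA_S29_EIG_TH N ℓ ψ) = heckeOperatorBar N ℓ (θ ψ))
    (fun θ h ℓ hℓ ψ => by
      show p • θ (FA_S29_EIG_TH N ℓ ψ) = heckeOperatorBar N ℓ (p • θ ψ)
      rw [h ℓ hℓ ψ, map_nsmul])
    (fun n => by
      obtain ⟨Θ, h1, h2, h3⟩ := FA_S30_theta N (p ^ n) (pow_pos hp n)
      refine ⟨Θ, fun ψ => ?_, fun ψ hψ => ?_, h3⟩
      · have := h1 ψ
        rwa [natCast_zsmul] at this
      · obtain ⟨ψ', hψ'⟩ := h2 ψ hψ
        refine ⟨ψ', ?_⟩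
        rwa [natCast_zsmul] at hψ')
  exact ⟨θ, fun n => ⟨(hθ n).1.1, (hθ n).1.2.1, (hθ n).1.2.2, (hθ n).2⟩⟩

end Fermat.Agent.S30
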