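import Fermat.Agent.S30.Lattice
import Fermat.Agent.S30.TorsFin
import Fermat.Agent.S29.GalHeckeTors
import Fermat.Agent.S29.StabBOrb
import Fermat.Agent.S29.ES

/-!
# S30, leaf T5 (concrete part): `M = R ⊗[ℤ_p] T_p J₀(N)` with its Galois and Hecke actions

`R` any `ℤ_[p]`-algebra (for S30: `R = 𝒪'` via `FA_S30_CY_iota`).

* `FA_S30_T5_M p N R`, `FA_S30_T5_gal p N R : Γ →* End_R M`, `FA_S30_T5_hecke p N R ℓ : End_R M`;
* `FA_S30_T5_comm` : `T_ℓ` commutes with `Γ`;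
* `FA_S30_T5_frob` : `σ² - T_ℓ σ + ℓ = 0` on `M` for every Frobenius `σ` at `ℓ ∤ N p`;
* `FA_S30_T5_inertia` : inertia at `q ∤ N p` acts trivially on `M`;
* `FA_S30_T5_cont` : for every `n` there is a finite Galois `L/ℚ` such that `Gal(ℚ̄/L)` acts
  trivially on `M / p^n M`;
* `FA_S30_T5_finite`, `FA_S30_T5_free`.
-/

set_option autoImplicit false
set_option linter.unusedSectionVars false
set_option linter.unusedVariables false
set_option linter.style.haveILetI false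
set_option synthInstance.maxHeartbeats 400000
set_option maxHeartbeats 1000000

noncomputable section

namespace Fermat.Agent.S30

open ModularCurve AlgebraicCurve Fermat.Agent.S29 TensorProduct

variable (p : ℕ) [hp : Fact p.Prime] (N : ℕ) [NeZero N]
variable (R : Type*) [CommRing R] [Algebra ℤ_[p] R]

/-- `M = R ⊗[ℤ_p] T_p J₀(N)`. -/
abbrev FA_S30_T5_M : Type _ := FA_S30_LT_M p (JZero N) R

/-- The Galois action on `M`. -/
def FA_S30_T5_gal :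
    (AlgebraicClosure ℚ ≃ₐ[ℚ] AlgebraicClosure ℚ) →* Module.End R (FA_S30_T5_M p N R) :=
  FA_S30_LT_rho (p := p) (A := JZero N) R

/-- The additive endomorphism of `J₀(N)` given by `σ`. -/
def FA_S30_T5_galHom (σ : AlgebraicClosure ℚ ≃ₐ[ℚ] AlgebraicClosure ℚ) : JZero N →+ JZero N :=
  DistribSMul.toAddMonoidHom (JZero N) σ

theorem FA_S30_T5_galHom_apply (σ : AlgebraicClosure ℚ ≃ₐ[ℚ] AlgebraicClosure ℚ) (x : JZero N) :
    FA_S30_T5_galHom N σ x = σ • x := rfl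

theorem FA_S30_T5_gal_apply (σ : AlgebraicClosure ℚ ≃ₐ[ℚ] AlgebraicClosure ℚ) :
    FA_S30_T5_gal p N R σ = FA_S30_LT_op R (FA_S30_T5_galHom N σ) := rfl

/-- The additive endomorphism `T_ℓ` of `J₀(N)`. -/
def FA_S30_T5_heckeHom (ℓ : Nat.Primes) : JZero N →+ JZero N :=
  (heckeOperatorBar N ℓ).toAddMonoidHom

theorem FA_S30_T5_heckeHom_apply (ℓ : Nat.Primes) (x : JZero N) :
    FA_S30_T5_heckeHom N ℓ x = heckeOperatorBar N ℓ x := rfl

/-- The Hecke operator `T_ℓ` on `M`. -/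
def FA_S30_T5_hecke (ℓ : Nat.Primes) : Module.End R (FA_S30_T5_M p N R) :=
  FA_S30_LT_op R (FA_S30_T5_heckeHom N ℓ)

/-- **`T_ℓ` commutes with the Galois action on `M`.** -/
theorem FA_S30_T5_comm (ℓ : Nat.Primes) (σ : AlgebraicClosure ℚ ≃ₐ[ℚ] AlgebraicClosure ℚ) :
    FA_S30_T5_hecke p N R ℓ * FA_S30_T5_gal p N R σ
      = FA_S30_T5_gal p N R σ * FA_S30_T5_hecke p N R ℓ := by
  rw [FA_S30_T5_gal_apply, FA_S30_T5_hecke, ← FA_S30_LT_op_comp, ← FA_S30_LT_op_comp]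
  refine FA_S30_LT_op_congr R _ _ fun n a ha => ?_
  show heckeOperatorBar N ℓ (σ • a) = σ • heckeOperatorBar N ℓ a
  exact FA_S29_GHT_comm N (pow_pos hp.out.pos n) ℓ σ a ha

/-- **The Eichler–Shimura relation on `M`.** -/
theorem FA_S30_T5_frob {ℓ : ℕ} (hℓ : ℓ.Prime) (hℓNp : ¬ ℓ ∣ N * p)
    (A : ValuationSubring (AlgebraicClosure ℚ)) (hA : A.LiesOverPrime ℓ)
    (σ : AlgebraicClosure ℚ ≃ₐ[ℚ] AlgebraicClosure ℚ) (hσ : A.IsFrobeniusAt σ ℓ) :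
    FA_S30_T5_gal p N R σ * FA_S30_T5_gal p N R σ
      - FA_S30_T5_hecke p N R ⟨ℓ, hℓ⟩ * FA_S30_T5_gal p N R σ
      + (ℓ : R) • (1 : Module.End R (FA_S30_T5_M p N R)) = 0 := by
  have h0 : FA_S30_LT_op (p := p) R
      ((FA_S30_T5_galHom N σ).comp (FA_S30_T5_galHom N σ)
        - (FA_S30_T5_heckeHom N ⟨ℓ, hℓ⟩).comp (FA_S30_T5_galHom N σ)
        + ℓ • AddMonoidHom.id (JZero N)) = 0 := by
    refine FA_S30_LT_op_eq_zero R _ fun n a ha => ?_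
    show σ • σ • a - heckeOperatorBar N ⟨ℓ, hℓ⟩ (σ • a) + ℓ • a = 0
    exact FA_S29_ES_frob_pow N hℓ p hℓNp A hA σ hσ a ⟨n, ha⟩
  rw [FA_S30_LT_op_add, FA_S30_LT_op_sub, FA_S30_LT_op_comp, FA_S30_LT_op_comp,
    FA_S30_LT_op_nsmul, FA_S30_LT_op_id] at h0
  exact h0

/-- **Inertia at `q ∤ N p` acts trivially on `M`.** -/
theorem FA_S30_T5_inertia {q : ℕ} (hq : q.Prime) (hqNp : ¬ q ∣ N * p)
    (A : ValuationSubring (AlgebraicClosure ℚ)) (hA : A.LiesOverPrime q)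
    (τ : AlgebraicClosure ℚ ≃ₐ[ℚ] AlgebraicClosure ℚ) (hτ : τ ∈ A.inertiaSubgroupIn ℚ) :
    FA_S30_T5_gal p N R τ = 1 := by
  rw [FA_S30_T5_gal_apply, ← FA_S30_LT_op_id (p := p) (A := JZero N) R]
  refine FA_S30_LT_op_congr R _ _ fun n a ha => ?_
  show τ • a = a
  exact FA_S29_ES_inertia_pow N hq p hqNp A hA τ hτ a ⟨n, ha⟩

/-- **Continuity**: `Gal(ℚ̄/L)` acts trivially modulo `p^n`, `L/ℚ` finite Galois. -/
theorem FA_S30_T5_cont (n : ℕ) :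
    ∃ L : IntermediateField ℚ (AlgebraicClosure ℚ), FiniteDimensional ℚ L ∧ Normal ℚ L ∧
      ∀ σ : AlgebraicClosure ℚ ≃ₐ[ℚ] AlgebraicClosure ℚ, (∀ x ∈ L, σ x = x) →
        ∀ m : FA_S30_T5_M p N R, ∃ m' : FA_S30_T5_M p N R,
          FA_S30_T5_gal p N R σ m - m = ((p : R) ^ n) • m' := by
  classical
  have hfin := FA_S30_TF_finite_pow N p hp.out.pos n
  obtain ⟨L, hL, hLn, h⟩ := FA_S29_STB_finset_normal N hfin.toFinset
  refine ⟨L, hL, hLn, fun σ hσ m => ?_⟩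
  have hσ' : σ ∈ L.fixingSubgroup :=
    (IntermediateField.mem_fixingSubgroup_iff _ _).mpr hσ
  rw [FA_S30_T5_gal_apply]
  refine FA_S30_LT_op_sub_mem R _ n (fun a ha => ?_) m
  show σ • a = a
  exact h σ hσ' a (hfin.mem_toFinset.mpr ha)

theorem FA_S30_T5_finite : Module.Finite R (FA_S30_T5_M p N R) :=
  FA_S30_LT_finite R (FA_S30_TF_finite N p hp.out.pos)

theorem FA_S30_T5_free : Module.Free R (FA_S30_T5_M p N R) :=
  FA_S30_LT_free R (FA_S30_TF_finite N p hp.out.pos)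

end Fermat.Agent.S30
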