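import Fermat.Agent.S30.LatticeEig
import Fermat.Agent.S30.TateModJ
import Fermat.Agent.S30.Konig

/-!
# S30, glue G1: the eigen-lattice `Λ ⊂ M = R ⊗[ℤ_p] T_p J₀(N)` of a system of Hecke eigenvalues

`P` a set of primes not dividing `N`, `a : primes → R`.

* `FA_S30_LJ_theta` : the limit `θ_∞ : H →+ T_p J₀(N)` of lead's compatible system (König);
* `FA_S30_LJ_Lam p N R P a` : the submodule of `M` where `T_ℓ = a ℓ` for `ℓ ∈ P`;
* `FA_S30_LJ_Lam_ne_bot` : `Λ ≠ 0` if the eigensystem occurs in `R ⊗ H`;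
* `FA_S30_LJ_rho` : the Galois representation on `Λ`; `_frob` (Eichler–Shimura with `a ℓ`),
  `_inertia`, `_cont` (congruence modulo `p^n`), `_cont_fil`, `_sep` (Krull), `_finite`, `_free`,
  `_nontrivial`.
-/

set_option autoImplicit false
set_option linter.unusedSectionVars false
set_option linter.unusedVariables false
set_option linter.style.haveILetI false
set_option synthInstance.maxHeartbeats 400000
set_option maxHeartbeats 1000000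

noncomputable section

open ModularCurve AlgebraicCurve Fermat.Agent.S29 TensorProduct IsLocalRing CongruenceSubgroup Period

namespace Fermat.Agent.S30

variable (p : ℕ) [hp : Fact p.Prime] (N : ℕ) [NeZero N]

/-- **The limit of the compatible system** `θ_n`. -/
theorem FA_S30_LJ_theta :
    ∃ θ : ↥(parabolicHoms ℤ (Gamma0 N) ℤ) →+ FA_S30_TM p (JZero N),
      (∀ (n : ℕ) (ψ : ↥(parabolicHoms ℤ (Gamma0 N) ℤ)), (θ ψ).1 n = 0 →
        ∃ ψ' : ↥(parabolicHoms ℤ (Gamma0 N) ℤ), ψ = ((p : ℤ) ^ n) • ψ') ∧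
      (∀ ℓ : Nat.Primes, ¬ (ℓ : ℕ) ∣ N → ∀ ψ,
        θ (FA_S29_EIG_TH N ℓ ψ) = FA_S30_TM_map (FA_S30_T5_heckeHom N ℓ) (θ ψ)) := by
  obtain ⟨θ, hθ⟩ := FA_S30_KG_main N p hp.out.pos
  have h0 : ∀ ψ, θ 0 ψ = 0 := fun ψ => by
    have := (hθ 0).1 ψ
    rwa [pow_zero, one_smul] at this
  have hc : ∀ n ψ, p • θ (n + 1) ψ = θ n ψ := fun n ψ => by
    have := (hθ n).2.2.2
    exact DFunLike.congr_fun this ψ
  refine ⟨FA_S30_TM_ofCompat θ h0 hc, fun n ψ h => ?_, fun ℓ hℓ ψ => ?_⟩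
  · obtain ⟨ψ', hψ'⟩ := (hθ n).2.1 ψ h
    refine ⟨ψ', ?_⟩
    rw [hψ', ← Nat.cast_pow, natCast_zsmul]
  · refine FA_S30_TM_ext fun n => ?_
    exact (hθ n).2.2.1 ℓ hℓ ψ

variable (R : Type) [CommRing R] [Algebra ℤ_[p] R]

/-- The eigen-lattice: the submodule of `M` on which `T_ℓ = a ℓ` for all `ℓ ∈ P`. -/
def FA_S30_LJ_Lam (P : Set Nat.Primes) (a : Nat.Primes → R) :
    Submodule R (FA_S30_T5_M p N R) :=
  FA_S30_LT_eig R (fun ℓ : P => FA_S30_T5_heckeHom N ℓ.1) (fun ℓ : P => a ℓ.1)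


theorem FA_S30_LJ_mem_Lam (P : Set Nat.Primes) (a : Nat.Primes → R) (m : FA_S30_T5_M p N R) :
    m ∈ FA_S30_LJ_Lam p N R P a ↔ ∀ ℓ ∈ P, FA_S30_T5_hecke p N R ℓ m = a ℓ • m := by
  unfold FA_S30_LJ_Lam
  rw [FA_S30_LT_mem_eig]
  exact ⟨fun h ℓ hℓ => h ⟨ℓ, hℓ⟩, fun h ℓ => h ℓ.1 ℓ.2⟩

theorem FA_S30_LJ_Lam_stable (P : Set Nat.Primes) (a : Nat.Primes → R)
    (σ : AlgebraicClosure ℚ ≃ₐ[ℚ] AlgebraicClosure ℚ) (m : FA_S30_T5_M p N R)
    (hm : m ∈ FA_S30_LJ_Lam p N R P a) : FA_S30_T5_gal p N R σ m ∈ FA_S30_LJ_Lam p N R P a :=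
  FA_S30_LT_eig_stable (p := p) (A := JZero N) R (fun ℓ : P => FA_S30_T5_heckeHom N ℓ.1)
    (fun ℓ : P => a ℓ.1) (FA_S30_T5_gal p N R σ)
    (fun ℓ => (FA_S30_T5_comm p N R ℓ.1 σ).symm) hm

theorem FA_S30_LJ_noZero [IsDomain R] : NoZeroSMulDivisors R (FA_S30_T5_M p N R) := by
  haveI := FA_S30_T5_free p N R
  exact ⟨fun h => smul_eq_zero.mp h⟩

theorem FA_S30_LJ_Lam_saturated [IsDomain R] (P : Set Nat.Primes) (a : Nat.Primes → R) (c : R)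
    (hc : c ≠ 0) {m : FA_S30_T5_M p N R} (hm : c • m ∈ FA_S30_LJ_Lam p N R P a) :
    m ∈ FA_S30_LJ_Lam p N R P a := by
  haveI := FA_S30_LJ_noZero p N R
  exact FA_S30_LT_eig_saturated (p := p) (A := JZero N) R
    (fun ℓ : P => FA_S30_T5_heckeHom N ℓ.1) (fun ℓ : P => a ℓ.1) c hc hm

/-- **`Λ ≠ 0`** if the eigensystem occurs in `R ⊗ H`. -/
theorem FA_S30_LJ_Lam_ne_bot [Module.Flat ℤ_[p] R] (P : Set Nat.Primes) (a : Nat.Primes → R)
    (hP : ∀ ℓ ∈ P, ¬ (ℓ : ℕ) ∣ N)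
    (hu : ∃ u : R ⊗[ℤ] ↥(parabolicHoms ℤ (Gamma0 N) ℤ), u ≠ 0 ∧
      ∀ ℓ ∈ P, (FA_S29_EIG_TH N ℓ).baseChange R u = a ℓ • u) :
    FA_S30_LJ_Lam p N R P a ≠ ⊥ := by
  obtain ⟨θ, hker, hequiv⟩ := FA_S30_LJ_theta p N
  obtain ⟨u, hu0, hueig⟩ := hu
  have hx0 : FA_S30_LT_iota R θ u ≠ 0 := fun h =>
    hu0 (FA_S30_LT_iota_injective R (FA_S29_EIG_basis N) θ hker (h.trans (map_zero _).symm))
  have hxmem : FA_S30_LT_iota R θ u ∈ FA_S30_LJ_Lam p N R P a := by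
    unfold FA_S30_LJ_Lam
    refine FA_S30_LT_iota_mem_eig (p := p) (A := JZero N) R θ
      (fun ℓ : P => (FA_S29_EIG_TH N ℓ.1).toAddMonoidHom)
      (fun ℓ : P => FA_S30_T5_heckeHom N ℓ.1) (fun ℓ ψ => hequiv ℓ.1 (hP ℓ.1 ℓ.2) ψ) _ u ?_
    intro ℓ
    have := hueig ℓ.1 ℓ.2
    rw [← this]
    rfl
  intro hbot
  rw [hbot, Submodule.mem_bot] at hxmem
  exact hx0 hxmem

/-- Instance helper: the additive group structure on a submodule of `M` (found directly, so that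
`Module.End R ↥Λ` is recognised as a ring). -/
instance FA_S30_LJ_instACG (Λ : Submodule R (FA_S30_T5_M p N R)) : AddCommGroup ↥Λ :=
  Submodule.addCommGroup Λ

/-- The Galois representation on the eigen-lattice. -/
def FA_S30_LJ_rho (P : Set Nat.Primes) (a : Nat.Primes → R) :
    (AlgebraicClosure ℚ ≃ₐ[ℚ] AlgebraicClosure ℚ) →*
      Module.End R ↥(FA_S30_LJ_Lam p N R P a) :=
  FA_S30_LT_restrict (FA_S30_T5_gal p N R) (FA_S30_LJ_Lam p N R P a)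
    (fun σ m hm => FA_S30_LJ_Lam_stable p N R P a σ m hm)

theorem FA_S30_LJ_rho_coe (P : Set Nat.Primes) (a : Nat.Primes → R)
    (σ : AlgebraicClosure ℚ ≃ₐ[ℚ] AlgebraicClosure ℚ) (v : ↥(FA_S30_LJ_Lam p N R P a)) :
    ((FA_S30_LJ_rho p N R P a σ v : ↥(FA_S30_LJ_Lam p N R P a)) : FA_S30_T5_M p N R)
      = FA_S30_T5_gal p N R σ (v : FA_S30_T5_M p N R) := rfl

/-- **Eichler–Shimura on `Λ`.** -/
theorem FA_S30_LJ_frob (P : Set Nat.Primes) (a : Nat.Primes → R) {ℓ : ℕ} (hℓ : ℓ.Prime)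
    (hℓP : (⟨ℓ, hℓ⟩ : Nat.Primes) ∈ P) (hℓNp : ¬ ℓ ∣ N * p)
    (A : ValuationSubring (AlgebraicClosure ℚ)) (hA : A.LiesOverPrime ℓ)
    (τ : AlgebraicClosure ℚ ≃ₐ[ℚ] AlgebraicClosure ℚ) (hτ : A.IsFrobeniusAt τ ℓ) :
    FA_S30_LJ_rho p N R P a τ * FA_S30_LJ_rho p N R P a τ - a ⟨ℓ, hℓ⟩ • FA_S30_LJ_rho p N R P a τ
      + (ℓ : R) • (1 : Module.End R ↥(FA_S30_LJ_Lam p N R P a)) = 0 := by
  ext v
  have h := congrArg (fun F : Module.End R (FA_S30_T5_M p N R) => F (v : FA_S30_T5_M p N R))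
    (FA_S30_T5_frob p N R hℓ hℓNp A hA τ hτ)
  simp only [LinearMap.add_apply, LinearMap.sub_apply, Module.End.mul_apply,
    LinearMap.smul_apply, Module.End.one_apply, LinearMap.zero_apply] at h
  have hmem := FA_S30_LJ_Lam_stable p N R P a τ v v.2
  have heig := ((FA_S30_LJ_mem_Lam p N R P a _).mp hmem) ⟨ℓ, hℓ⟩ hℓP
  rw [heig] at h
  simp only [LinearMap.add_apply, LinearMap.sub_apply, Module.End.mul_apply,
    LinearMap.smul_apply, Module.End.one_apply, LinearMap.zero_apply, Submodule.coe_add,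
    Submodule.coe_sub, Submodule.coe_smul, Submodule.coe_zero, FA_S30_LJ_rho_coe]
  exact h

/-- **Inertia at `q ∤ N p` acts trivially on `Λ`.** -/
theorem FA_S30_LJ_inertia (P : Set Nat.Primes) (a : Nat.Primes → R) {q : ℕ} (hq : q.Prime)
    (hqNp : ¬ q ∣ N * p) (A : ValuationSubring (AlgebraicClosure ℚ)) (hA : A.LiesOverPrime q)
    (τ : AlgebraicClosure ℚ ≃ₐ[ℚ] AlgebraicClosure ℚ) (hτ : τ ∈ A.inertiaSubgroupIn ℚ) :
    FA_S30_LJ_rho p N R P a τ = 1 := by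
  ext v
  rw [FA_S30_LJ_rho_coe, FA_S30_T5_inertia p N R hq hqNp A hA τ hτ]
  rfl

/-- **Continuity on `Λ`**: `Gal(ℚ̄/L)` acts trivially modulo `p^n`. -/
theorem FA_S30_LJ_cont [IsDomain R] (hp0 : (p : R) ≠ 0) (P : Set Nat.Primes)
    (a : Nat.Primes → R) (n : ℕ) :
    ∃ L : IntermediateField ℚ (AlgebraicClosure ℚ), FiniteDimensional ℚ L ∧ Normal ℚ L ∧
      ∀ σ : AlgebraicClosure ℚ ≃ₐ[ℚ] AlgebraicClosure ℚ, (∀ x ∈ L, σ x = x) →
        ∀ v : ↥(FA_S30_LJ_Lam p N R P a), ∃ v' : ↥(FA_S30_LJ_Lam p N R P a),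
          FA_S30_LJ_rho p N R P a σ v - v = ((p : R) ^ n) • v' := by
  obtain ⟨L, hL, hLn, h⟩ := FA_S30_T5_cont p N R n
  refine ⟨L, hL, hLn, fun σ hσ v => ?_⟩
  obtain ⟨m', hm'⟩ := h σ hσ (v : FA_S30_T5_M p N R)
  have hmem : ((p : R) ^ n) • m' ∈ FA_S30_LJ_Lam p N R P a := by
    rw [← hm']
    exact Submodule.sub_mem _ (FA_S30_LJ_Lam_stable p N R P a σ v v.2) v.2
  have hm'mem := FA_S30_LJ_Lam_saturated p N R P a _ (pow_ne_zero n hp0) hmem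
  refine ⟨⟨m', hm'mem⟩, Subtype.ext ?_⟩
  show FA_S30_T5_gal p N R σ (v : FA_S30_T5_M p N R) - v = ((p : R) ^ n) • m'
  exact hm'

section dvr

variable [IsDomain R] [IsDiscreteValuationRing R]

theorem FA_S30_LJ_finite (P : Set Nat.Primes) (a : Nat.Primes → R) :
    Module.Finite R ↥(FA_S30_LJ_Lam p N R P a) := by
  haveI := FA_S30_T5_finite p N R
  infer_instance

theorem FA_S30_LJ_free (P : Set Nat.Primes) (a : Nat.Primes → R) :
    Module.Free R ↥(FA_S30_LJ_Lam p N R P a) := by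
  haveI := FA_S30_T5_finite p N R
  haveI := FA_S30_T5_free p N R
  haveI : Module.IsTorsionFree R (FA_S30_T5_M p N R) := inferInstance
  haveI : Module.IsTorsionFree R ↥(FA_S30_LJ_Lam p N R P a) := inferInstance
  haveI : Module.Finite R ↥(FA_S30_LJ_Lam p N R P a) := inferInstance
  exact Module.free_of_finite_type_torsion_free' (R := R) (M := ↥(FA_S30_LJ_Lam p N R P a))

/-- **Continuity on `Λ`, filtration form.** -/
theorem FA_S30_LJ_cont_fil (hp0 : (p : R) ≠ 0) (hpm : (p : R) ∈ maximalIdeal R)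
    (P : Set Nat.Primes) (a : Nat.Primes → R) (n : ℕ) :
    ∃ L : IntermediateField ℚ (AlgebraicClosure ℚ), FiniteDimensional ℚ L ∧ Normal ℚ L ∧
      ∀ σ : AlgebraicClosure ℚ ≃ₐ[ℚ] AlgebraicClosure ℚ, (∀ x ∈ L, σ x = x) →
        ∀ v : ↥(FA_S30_LJ_Lam p N R P a),
          FA_S30_LJ_rho p N R P a σ v - v
            ∈ (maximalIdeal R ^ n) • (⊤ : Submodule R ↥(FA_S30_LJ_Lam p N R P a)) := by
  obtain ⟨L, hL, hLn, h⟩ := FA_S30_LJ_cont p N R hp0 P a n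
  refine ⟨L, hL, hLn, fun σ hσ v => ?_⟩
  obtain ⟨v', hv'⟩ := h σ hσ v
  rw [hv']
  exact Submodule.smul_mem_smul (Ideal.pow_mem_pow hpm n) Submodule.mem_top

/-- **Krull**: `⋂ 𝔪^n Λ = 0`. -/
theorem FA_S30_LJ_sep (P : Set Nat.Primes) (a : Nat.Primes → R)
    (v : ↥(FA_S30_LJ_Lam p N R P a))
    (hv : ∀ n : ℕ, v ∈ (maximalIdeal R ^ n) • (⊤ : Submodule R ↥(FA_S30_LJ_Lam p N R P a))) :
    v = 0 := by
  haveI := FA_S30_LJ_finite p N R P a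
  have h := Ideal.iInf_pow_smul_eq_bot_of_isLocalRing (R := R)
    (M := ↥(FA_S30_LJ_Lam p N R P a)) (maximalIdeal R) (Ideal.IsPrime.ne_top inferInstance)
  have hmem : v ∈ ⨅ i : ℕ, (maximalIdeal R ^ i) • (⊤ : Submodule R ↥(FA_S30_LJ_Lam p N R P a)) :=
    (Submodule.mem_iInf _).mpr hv
  rw [h] at hmem
  exact (Submodule.mem_bot R).mp hmem

end dvr

end Fermat.Agent.S30

end
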