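import Fermat.Agent.S30.OddField

/-!
# S30, leaf T11 (file OddLattice): lattices in stable subspaces

`R` a domain with fraction field `K`, `Λ` a free `R`-module with basis `b` indexed by `ι`.
* `FA_S30_OD_emb b : Λ →ₗ[R] (ι → K)`, `FA_S30_OD_Phi b : End_R Λ →+* End_K (ι → K)`;
* `FA_S30_OD_lat b W`: the saturated lattice `Λ ∩ W` of a subspace `W ≤ K^ι`; its rank is `dim W`.
-/

set_option autoImplicit false
set_option linter.unusedSectionVars false
set_option linter.unusedVariables false
set_option linter.style.haveILetI false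

noncomputable section

namespace Fermat.Agent.S30

open Fermat.Agent.S29 Polynomial

section Emb

variable {R : Type*} [CommRing R] [IsDomain R]
variable {Λ : Type*} [AddCommGroup Λ] [Module R Λ]
variable {ι : Type*} [Fintype ι] [DecidableEq ι] (b : Module.Basis ι R Λ)

/-- the embedding `Λ → K^ι` given by a basis -/
def FA_S30_OD_emb : Λ →ₗ[R] (ι → FractionRing R) :=
  ((Algebra.linearMap R (FractionRing R)).compLeft ι).comp b.equivFun.toLinearMap

theorem FA_S30_OD_emb_apply (x : Λ) (i : ι) :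
    FA_S30_OD_emb b x i = algebraMap R (FractionRing R) (b.repr x i) := rfl

theorem FA_S30_OD_emb_injective : Function.Injective (FA_S30_OD_emb b) := by
  intro x y h
  apply b.repr.injective
  ext i
  have := congrFun h i
  rw [FA_S30_OD_emb_apply, FA_S30_OD_emb_apply] at this
  exact IsFractionRing.injective R (FractionRing R) this

theorem FA_S30_OD_emb_surj (w : ι → FractionRing R) :
    ∃ s : R, s ≠ 0 ∧ ∃ x : Λ, FA_S30_OD_emb b x = algebraMap R (FractionRing R) s • w := by
  obtain ⟨s, hs⟩ := IsLocalization.exist_integer_multiples_of_finite (nonZeroDivisors R) w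
  choose r hr using hs
  refine ⟨s, nonZeroDivisors.coe_ne_zero s, b.equivFun.symm r, ?_⟩
  ext i
  rw [FA_S30_OD_emb_apply, Pi.smul_apply, smul_eq_mul, ← Algebra.smul_def, ← hr i]
  show algebraMap R (FractionRing R) (b.equivFun (b.equivFun.symm r) i) = _
  rw [LinearEquiv.apply_symm_apply]

/-- base change of endomorphisms to `K^ι` -/
def FA_S30_OD_Phi :
    Module.End R Λ →+* Module.End (FractionRing R) (ι → FractionRing R) :=
  ((Matrix.toLinAlgEquiv' :
      Matrix ι ι (FractionRing R) ≃ₐ[FractionRing R] _) : Matrix ι ι (FractionRing R) →+* _).comp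
    (((algebraMap R (FractionRing R)).mapMatrix).comp
      ((LinearMap.toMatrixAlgEquiv b : Module.End R Λ ≃ₐ[R] Matrix ι ι R) :
        Module.End R Λ →+* Matrix ι ι R))

theorem FA_S30_OD_Phi_def (f : Module.End R Λ) :
    FA_S30_OD_Phi b f
      = Matrix.toLin' ((LinearMap.toMatrix b b f).map (algebraMap R (FractionRing R))) := rfl

theorem FA_S30_OD_Phi_emb (f : Module.End R Λ) (x : Λ) :
    FA_S30_OD_Phi b f (FA_S30_OD_emb b x) = FA_S30_OD_emb b (f x) := by
  rw [FA_S30_OD_Phi_def, Matrix.toLin'_apply]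
  ext i
  rw [FA_S30_OD_emb_apply, ← LinearMap.toMatrix_mulVec_repr b b f x, RingHom.map_mulVec]
  rfl

theorem FA_S30_OD_Phi_smul (r : R) (f : Module.End R Λ) :
    FA_S30_OD_Phi b (r • f) = algebraMap R (FractionRing R) r • FA_S30_OD_Phi b f := by
  rw [FA_S30_OD_Phi_def, FA_S30_OD_Phi_def, map_smul,
    Matrix.map_smul (algebraMap R (FractionRing R)) r (fun a => by
      rw [smul_eq_mul, map_mul, Algebra.smul_def]),
    ← algebraMap_smul (FractionRing R) r, map_smul]

variable (W : Submodule (FractionRing R) (ι → FractionRing R))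

/-- the saturated lattice `Λ ∩ W` -/
def FA_S30_OD_lat : Submodule R Λ := (W.restrictScalars R).comap (FA_S30_OD_emb b)

theorem FA_S30_OD_mem_lat {x : Λ} : x ∈ FA_S30_OD_lat b W ↔ FA_S30_OD_emb b x ∈ W := Iff.rfl

theorem FA_S30_OD_lat_sat {s : R} (hs : s ≠ 0) {x : Λ} (h : s • x ∈ FA_S30_OD_lat b W) :
    x ∈ FA_S30_OD_lat b W := by
  rw [FA_S30_OD_mem_lat, map_smul, ← algebraMap_smul (FractionRing R) s] at h
  have hs' : algebraMap R (FractionRing R) s ≠ 0 :=
    (map_ne_zero_iff _ (IsFractionRing.injective R (FractionRing R))).mpr hs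
  have := W.smul_mem (algebraMap R (FractionRing R) s)⁻¹ h
  rwa [smul_smul, inv_mul_cancel₀ hs', one_smul] at this

/-- the map `Λ ∩ W → W` -/
def FA_S30_OD_latMap : FA_S30_OD_lat b W →ₗ[R] W where
  toFun x := ⟨FA_S30_OD_emb b x.1, x.2⟩
  map_add' x y := Subtype.ext (by
    show FA_S30_OD_emb b (x.1 + y.1) = FA_S30_OD_emb b x.1 + FA_S30_OD_emb b y.1
    rw [map_add])
  map_smul' r x := Subtype.ext (by
    show FA_S30_OD_emb b (r • x.1) = r • FA_S30_OD_emb b x.1
    rw [map_smul])

theorem FA_S30_OD_latMap_coe (x : FA_S30_OD_lat b W) :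
    ((FA_S30_OD_latMap b W x : W) : ι → FractionRing R) = FA_S30_OD_emb b x.1 := rfl

theorem FA_S30_OD_isLoc :
    IsLocalizedModule (nonZeroDivisors R) (FA_S30_OD_latMap b W) where
  map_units s := by
    have hs' : algebraMap R (FractionRing R) (s : R) ≠ 0 :=
      (map_ne_zero_iff _ (IsFractionRing.injective R (FractionRing R))).mpr
        (nonZeroDivisors.coe_ne_zero s)
    rw [Module.End.isUnit_iff]
    constructor
    · intro x y h
      rw [Module.algebraMap_end_apply, Module.algebraMap_end_apply,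
        ← algebraMap_smul (FractionRing R) (s : R) x,
        ← algebraMap_smul (FractionRing R) (s : R) y] at h
      exact smul_right_injective _ hs' h
    · intro y
      refine ⟨(algebraMap R (FractionRing R) (s : R))⁻¹ • y, ?_⟩
      rw [Module.algebraMap_end_apply, ← algebraMap_smul (FractionRing R) (s : R), smul_smul,
        mul_inv_cancel₀ hs', one_smul]
  surj y := by
    obtain ⟨s, hs, x, hx⟩ := FA_S30_OD_emb_surj b y.1
    have hxW : x ∈ FA_S30_OD_lat b W := by
      rw [FA_S30_OD_mem_lat, hx]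
      exact W.smul_mem _ y.2
    refine ⟨(⟨x, hxW⟩, ⟨s, mem_nonZeroDivisors_of_ne_zero hs⟩), ?_⟩
    apply Subtype.ext
    rw [FA_S30_OD_latMap_coe]
    show ((s • y : W) : ι → FractionRing R) = FA_S30_OD_emb b x
    rw [Submodule.coe_smul_of_tower, ← algebraMap_smul (FractionRing R) s]
    exact hx.symm
  exists_of_eq := by
    intro x₁ x₂ h
    refine ⟨1, ?_⟩
    rw [one_smul, one_smul]
    apply Subtype.ext
    apply FA_S30_OD_emb_injective b
    have := congrArg (fun z : W => (z : ι → FractionRing R)) h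
    exact this

theorem FA_S30_OD_lat_finrank :
    Module.finrank R (FA_S30_OD_lat b W) = Module.finrank (FractionRing R) W := by
  haveI := FA_S30_OD_isLoc b W
  rw [IsFractionRing.finrank_right_eq R (FractionRing R) W]
  exact (IsLocalizedModule.finrank_eq (nonZeroDivisors R) (FA_S30_OD_latMap b W) le_rfl).symm

end Emb

section Diag

variable {R : Type*} [CommRing R] {G : Type*} [Group G]

/-- The representation `χ ⊕ d χ⁻¹` over a commutative ring. -/
def FA_S30_OD_diag (χ d : G →* Rˣ) : G →* Matrix (Fin 2) (Fin 2) R where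
  toFun g := Matrix.diagonal ![((χ g : Rˣ) : R), ((d g : Rˣ) : R) * (((χ g)⁻¹ : Rˣ) : R)]
  map_one' := by
    ext i j
    fin_cases i <;> fin_cases j <;> simp
  map_mul' g h := by
    ext i j
    fin_cases i <;> fin_cases j <;> simp [Matrix.mul_apply, Fin.sum_univ_two]
    ring

theorem FA_S30_OD_diag_apply (χ d : G →* Rˣ) (g : G) :
    FA_S30_OD_diag χ d g
      = Matrix.diagonal ![((χ g : Rˣ) : R), ((d g : Rˣ) : R) * (((χ g)⁻¹ : Rˣ) : R)] := rfl

theorem FA_S30_OD_diag_charpoly [Nontrivial R] (χ d : G →* Rˣ) (g : G) (t : R)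
    (h : ((χ g : Rˣ) : R) * ((χ g : Rˣ) : R) - t * ((χ g : Rˣ) : R) + ((d g : Rˣ) : R) = 0) :
    (FA_S30_OD_diag χ d g).charpoly = X ^ 2 - C t * X + C ((d g : Rˣ) : R) := by
  have hinv : ((χ g : Rˣ) : R) * (((χ g)⁻¹ : Rˣ) : R) = 1 := by
    rw [← Units.val_mul, mul_inv_cancel, Units.val_one]
  rw [Matrix.charpoly_fin_two, FA_S30_OD_diag_apply]
  have htr : (Matrix.diagonal ![((χ g : Rˣ) : R),
      ((d g : Rˣ) : R) * (((χ g)⁻¹ : Rˣ) : R)]).trace = t := by
    rw [Matrix.trace_fin_two]
    simp only [Matrix.diagonal_apply_eq, Matrix.cons_val_zero, Matrix.cons_val_one]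
    linear_combination (((χ g)⁻¹ : Rˣ) : R) * h + (t - ((χ g : Rˣ) : R)) * hinv
  have hdet : (Matrix.diagonal ![((χ g : Rˣ) : R),
      ((d g : Rˣ) : R) * (((χ g)⁻¹ : Rˣ) : R)]).det = ((d g : Rˣ) : R) := by
    rw [Matrix.det_fin_two]
    simp only [Matrix.diagonal_apply_eq, Matrix.cons_val_zero, Matrix.cons_val_one]
    simp only [Matrix.diagonal_apply_ne _ (show (0 : Fin 2) ≠ 1 by decide),
      Matrix.diagonal_apply_ne _ (show (1 : Fin 2) ≠ 0 by decide), mul_zero, sub_zero]
    linear_combination ((d g : Rˣ) : R) * hinv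
  rw [htr, hdet]

end Diag

section Main

variable {R : Type*} [CommRing R] [IsDomain R] [IsPrincipalIdealRing R]
variable {G : Type*} [Group G]
variable {Λ : Type*} [AddCommGroup Λ] [Module R Λ] [Module.Finite R Λ] [Module.Free R Λ]
  [Nontrivial Λ]

omit [IsPrincipalIdealRing R] in
/-- Descent of a characteristic polynomial from `K` to `R`. -/
theorem FA_S30_OD_charpoly_descent (A : Matrix (Fin 2) (Fin 2) R) (t δ : R)
    (h : (A.map (algebraMap R (FractionRing R))).charpoly
      = X ^ 2 - C (algebraMap R (FractionRing R) t) * X + C (algebraMap R (FractionRing R) δ)) :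
    A.charpoly = X ^ 2 - C t * X + C δ := by
  apply Polynomial.map_injective (algebraMap R (FractionRing R))
    (IsFractionRing.injective R (FractionRing R))
  rw [← Matrix.charpoly_map, h]
  simp only [Polynomial.map_add, Polynomial.map_sub, Polynomial.map_mul, Polynomial.map_pow,
    Polynomial.map_X, Polynomial.map_C]

/-- **Leaves T10 + T11, matrix form.**  `R` a principal ideal domain with `2 ≠ 0`, `Λ ≠ 0` a finite
free `R`-module, `ρ : G →* End_R Λ`, `d : G →* Rˣ`, `c ∈ G` with `c² = 1`, `d c = -1`, every `ρ g`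
satisfying a relation `ρ g ² - t ρ g + d g = 0`.  Then there is `ρ' : G →* M₂(R)` with
`charpoly (ρ' g) = X² - t X + d g` for every relation `(g, t)`, and `ρ' g ≡ 1 mod a` whenever
`ρ g ≡ 1 mod a` and `d g ≡ 1 mod a` (in particular `ρ' g = 1` if `ρ g = 1`, `d g = 1`). -/
theorem FA_S30_OD_mat (h2 : (2 : R) ≠ 0) (ρ : G →* Module.End R Λ) (d : G →* Rˣ) (c : G)
    (hc : c * c = 1) (hdc : d c = -1)
    (hquad : ∀ g : G, ∃ t : R,
      ρ g * ρ g - t • ρ g + ((d g : Rˣ) : R) • (1 : Module.End R Λ) = 0) :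
    ∃ ρ' : G →* Matrix (Fin 2) (Fin 2) R,
      (∀ (g : G) (t : R),
        ρ g * ρ g - t • ρ g + ((d g : Rˣ) : R) • (1 : Module.End R Λ) = 0 →
        (ρ' g).charpoly = X ^ 2 - C t * X + C ((d g : Rˣ) : R)) ∧
      (∀ (g : G) (a : R), (∀ v : Λ, ∃ v' : Λ, ρ g v - v = a • v') →
        (∃ r : R, ((d g : Rˣ) : R) - 1 = a * r) →
        ∃ N : Matrix (Fin 2) (Fin 2) R, ρ' g - 1 = a • N) := by
  classical
  let b := Module.Free.chooseBasis R Λ
  have hinj := IsFractionRing.injective R (FractionRing R)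
  have h2K : (2 : FractionRing R) ≠ 0 := by
    have := (map_ne_zero_iff (algebraMap R (FractionRing R)) hinj).mpr h2
    rwa [map_ofNat] at this
  haveI : Nonempty (Module.Free.ChooseBasisIndex R Λ) := b.index_nonempty
  let ρK : G →* Module.End (FractionRing R) (Module.Free.ChooseBasisIndex R Λ → FractionRing R) :=
    (FA_S30_OD_Phi b : Module.End R Λ →* _).comp ρ
  let dK : G →* (FractionRing R)ˣ := (Units.map (algebraMap R (FractionRing R) : R →* _)).comp d
  have hρK : ∀ g, ρK g = FA_S30_OD_Phi b (ρ g) := fun g => rfl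
  have hdK : ∀ g, ((dK g : (FractionRing R)ˣ) : FractionRing R)
      = algebraMap R (FractionRing R) ((d g : Rˣ) : R) := fun g => rfl
  have hrelK : ∀ (g : G) (t : R),
      ρ g * ρ g - t • ρ g + ((d g : Rˣ) : R) • (1 : Module.End R Λ) = 0 →
      ρK g * ρK g - algebraMap R (FractionRing R) t • ρK g
        + ((dK g : (FractionRing R)ˣ) : FractionRing R) • (1 : Module.End (FractionRing R) _)
          = 0 := by
    intro g t h
    have := congrArg (FA_S30_OD_Phi b) h
    rw [map_add, map_sub, map_mul, FA_S30_OD_Phi_smul, FA_S30_OD_Phi_smul, map_one,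
      map_zero] at this
    exact this
  have hquadK : ∀ g, ∃ t : FractionRing R, ρK g * ρK g - t • ρK g
      + ((dK g : (FractionRing R)ˣ) : FractionRing R) • (1 : Module.End (FractionRing R) _)
        = 0 := fun g => by
    obtain ⟨t, ht⟩ := hquad g
    exact ⟨_, hrelK g t ht⟩
  have hdcK : dK c = -1 := by
    apply Units.ext
    rw [hdK, hdc]
    simp
  obtain ⟨W, hW, hW0, hcase⟩ := FA_S30_OD_field h2K ρK dK c hc hdcK hquadK
  -- the lattice
  have hMinv : ∀ g : G, ∀ x ∈ FA_S30_OD_lat b W, ρ g x ∈ FA_S30_OD_lat b W := by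
    intro g x hx
    rw [FA_S30_OD_mem_lat, ← FA_S30_OD_Phi_emb]
    exact hW g _ hx
  have hfr : Module.finrank R (FA_S30_OD_lat b W) = Module.finrank (FractionRing R) W :=
    FA_S30_OD_lat_finrank b W
  let ρM : G →* Module.End R (FA_S30_OD_lat b W) :=
    { toFun := fun g => (ρ g).restrict (hMinv g)
      map_one' := by
        ext x
        simp
      map_mul' := fun g h => by
        ext x
        simp [map_mul] }
  have hρM : ∀ g (x : FA_S30_OD_lat b W), ((ρM g x : FA_S30_OD_lat b W) : Λ) = ρ g x :=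
    fun g x => rfl
  have hrelM : ∀ (g : G) (t : R),
      ρ g * ρ g - t • ρ g + ((d g : Rˣ) : R) • (1 : Module.End R Λ) = 0 →
      ρM g * ρM g - t • ρM g + ((d g : Rˣ) : R) • (1 : Module.End R (FA_S30_OD_lat b W))
        = 0 := by
    intro g t h
    ext x
    have := congrArg (fun f : Module.End R Λ => f (x : Λ)) h
    simp only [LinearMap.add_apply, LinearMap.sub_apply, Module.End.mul_apply,
      LinearMap.smul_apply, Module.End.one_apply, LinearMap.zero_apply] at this
    simp only [LinearMap.add_apply, LinearMap.sub_apply, Module.End.mul_apply,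
      LinearMap.smul_apply, Module.End.one_apply, LinearMap.zero_apply, Submodule.coe_add,
      Submodule.coe_sub, Submodule.coe_smul, hρM, Submodule.coe_zero]
    exact this
  -- divisibility on the lattice
  have hdivM : ∀ (g : G) (a : R), (∀ v : Λ, ∃ v' : Λ, ρ g v - v = a • v') →
      ∀ x : FA_S30_OD_lat b W, ∃ y : FA_S30_OD_lat b W, ρM g x - x = a • y := by
    intro g a h x
    obtain ⟨v', hv'⟩ := h x
    by_cases ha : a = 0
    · refine ⟨0, ?_⟩
      apply Subtype.ext
      rw [Submodule.coe_sub, hρM, hv', ha, zero_smul, smul_zero]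
      rfl
    · have hmem : a • v' ∈ FA_S30_OD_lat b W := by
        rw [← hv']
        exact Submodule.sub_mem _ (hMinv g _ x.2) x.2
      refine ⟨⟨v', FA_S30_OD_lat_sat b W ha hmem⟩, ?_⟩
      apply Subtype.ext
      rw [Submodule.coe_sub, hρM, hv']
      rfl
  rcases hcase with ⟨hW2, hns⟩ | hW1
  · -- rank 2
    have hM2 : Module.finrank R (FA_S30_OD_lat b W) = 2 := hfr.trans hW2
    let bM : Module.Basis (Fin 2) R (FA_S30_OD_lat b W) := Module.finBasisOfFinrankEq R _ hM2
    let ρ' : G →* Matrix (Fin 2) (Fin 2) R :=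
      ((LinearMap.toMatrixAlgEquiv bM : Module.End R (FA_S30_OD_lat b W) ≃ₐ[R] _) :
        Module.End R (FA_S30_OD_lat b W) →* _).comp ρM
    have hρ' : ∀ g, ρ' g = LinearMap.toMatrixAlgEquiv bM (ρM g) := fun g => rfl
    let RK : G →* Matrix (Fin 2) (Fin 2) (FractionRing R) :=
      (RingHom.toMonoidHom ((algebraMap R (FractionRing R)).mapMatrix (m := Fin 2))).comp ρ'
    have hRK : ∀ g, RK g = (ρ' g).map (algebraMap R (FractionRing R)) := fun g => rfl
    have hrelRK : ∀ (g : G) (t : R),
        ρ g * ρ g - t • ρ g + ((d g : Rˣ) : R) • (1 : Module.End R Λ) = 0 →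
        RK g * RK g - algebraMap R (FractionRing R) t • RK g
          + ((dK g : (FractionRing R)ˣ) : FractionRing R)
            • (1 : Matrix (Fin 2) (Fin 2) (FractionRing R)) = 0 := by
      intro g t h
      have h1 := congrArg (LinearMap.toMatrixAlgEquiv bM) (hrelM g t h)
      rw [map_add, map_sub, map_mul, map_smul, map_smul, map_one, map_zero, ← hρ'] at h1
      have h3 := congrArg (algebraMap R (FractionRing R)).mapMatrix h1
      rw [map_add, map_sub, map_mul, map_zero] at h3
      have e1 : ∀ (r : R) (A : Matrix (Fin 2) (Fin 2) R),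
          (algebraMap R (FractionRing R)).mapMatrix (r • A)
            = algebraMap R (FractionRing R) r • (algebraMap R (FractionRing R)).mapMatrix A := by
        intro r A
        ext i j
        simp [Matrix.map_apply, Matrix.smul_apply]
      rw [e1, e1, map_one] at h3
      exact h3
    have hnsRK : ∀ s : FractionRing R, RK c ≠ s • (1 : Matrix (Fin 2) (Fin 2) (FractionRing R)) := by
      intro s hs
      have hent : ∀ i j, algebraMap R (FractionRing R) (ρ' c i j)
          = s * (1 : Matrix (Fin 2) (Fin 2) (FractionRing R)) i j := by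
        intro i j
        have := congrFun (congrFun hs i) j
        rw [hRK, Matrix.map_apply, Matrix.smul_apply, smul_eq_mul] at this
        exact this
      have hs0 : s = algebraMap R (FractionRing R) (ρ' c 0 0) := by
        rw [hent 0 0, Matrix.one_apply_eq, mul_one]
      have hscal : ρ' c = (ρ' c 0 0) • (1 : Matrix (Fin 2) (Fin 2) R) := by
        ext i j
        apply hinj
        rw [hent i j, Matrix.smul_apply, smul_eq_mul, map_mul, ← hs0]
        congr 1
        by_cases hij : i = j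
        · rw [hij, Matrix.one_apply_eq, Matrix.one_apply_eq, map_one]
        · rw [Matrix.one_apply_ne hij, Matrix.one_apply_ne hij, map_zero]
      have hρMc : ρM c = (ρ' c 0 0) • (1 : Module.End R (FA_S30_OD_lat b W)) := by
        apply (LinearMap.toMatrixAlgEquiv bM).injective
        rw [map_smul, map_one, ← hρ']
        exact hscal
      apply hns (algebraMap R (FractionRing R) (ρ' c 0 0))
      ext w : 1
      apply Subtype.ext
      rw [FA_S29_ALG_restrict_apply, LinearMap.smul_apply, Module.End.one_apply,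
        Submodule.coe_smul]
      obtain ⟨s', hs', x, hx⟩ := FA_S30_OD_emb_surj b (w : _ → FractionRing R)
      have hs'K : algebraMap R (FractionRing R) s' ≠ 0 := (map_ne_zero_iff _ hinj).mpr hs'
      have hxM : x ∈ FA_S30_OD_lat b W := by
        rw [FA_S30_OD_mem_lat, hx]
        exact W.smul_mem _ w.2
      have h5 : ρ c x = (ρ' c 0 0) • x := by
        have := congrArg (fun f : Module.End R (FA_S30_OD_lat b W) =>
          ((f ⟨x, hxM⟩ : FA_S30_OD_lat b W) : Λ)) hρMc
        simpa [hρM] using this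
      have h6 : ρK c (algebraMap R (FractionRing R) s' • (w : _ → FractionRing R))
          = algebraMap R (FractionRing R) (ρ' c 0 0)
            • (algebraMap R (FractionRing R) s' • (w : _ → FractionRing R)) := by
        rw [← hx, hρK, FA_S30_OD_Phi_emb, h5, map_smul, algebraMap_smul]
      rw [map_smul, smul_comm] at h6
      exact smul_right_injective _ hs'K h6
    refine ⟨ρ', ?_, ?_⟩
    · intro g t h
      apply FA_S30_OD_charpoly_descent
      rw [← hRK, ← hdK]
      exact FA_S29_ALG_mat_charpoly RK dK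
        (fun g => by
          obtain ⟨t, ht⟩ := hquad g
          exact ⟨_, hrelRK g t ht⟩) c hnsRK g _ (hrelRK g t h)
    · intro g a h _
      choose y hy using hdivM g a h
      refine ⟨Matrix.of fun i j => bM.repr (y (bM j)) i, ?_⟩
      ext i j
      rw [Matrix.sub_apply, hρ', LinearMap.toMatrixAlgEquiv_apply, Matrix.smul_apply,
        Matrix.of_apply, smul_eq_mul]
      have := congrArg (fun z => bM.repr z i) (hy (bM j))
      simp only [map_sub, map_smul, Finsupp.coe_sub, Pi.sub_apply, Finsupp.coe_smul,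
        Pi.smul_apply, smul_eq_mul, Module.Basis.repr_self] at this
      rw [← this, Matrix.one_apply, Finsupp.single_apply]
      simp only [eq_comm]
  · -- rank 1
    have hM1 : Module.finrank R (FA_S30_OD_lat b W) = 1 := hfr.trans hW1
    let bM : Module.Basis (Fin 1) R (FA_S30_OD_lat b W) := Module.finBasisOfFinrankEq R _ hM1
    let ψ₀ : G →* R :=
      { toFun := fun g => LinearMap.toMatrixAlgEquiv bM (ρM g) 0 0
        map_one' := by rw [map_one, map_one, Matrix.one_apply_eq]
        map_mul' := fun g h => by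
          rw [map_mul, map_mul, Matrix.mul_apply, Fin.sum_univ_one] }
    let ψ : G →* Rˣ := ψ₀.toHomUnits
    have hψ : ∀ g, ((ψ g : Rˣ) : R) = LinearMap.toMatrixAlgEquiv bM (ρM g) 0 0 := fun g => rfl
    refine ⟨FA_S30_OD_diag ψ d, ?_, ?_⟩
    · intro g t h
      refine FA_S30_OD_diag_charpoly ψ d g t ?_
      have h3 := congrArg (LinearMap.toMatrixAlgEquiv bM) (hrelM g t h)
      rw [map_add, map_sub, map_mul, map_smul, map_smul, map_one, map_zero] at h3
      have h4 := congrFun (congrFun h3 0) 0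
      simp only [Matrix.add_apply, Matrix.sub_apply, Matrix.smul_apply, Matrix.mul_apply,
        Fin.sum_univ_one, Matrix.one_apply_eq, Matrix.zero_apply, smul_eq_mul, mul_one] at h4
      rw [hψ]
      exact h4
    · intro g a h hd
      obtain ⟨y, hy⟩ := hdivM g a h (bM 0)
      obtain ⟨r, hr⟩ := hd
      have h1 : ((ψ g : Rˣ) : R) - 1 = a * bM.repr y 0 := by
        have := congrArg (fun z => bM.repr z 0) hy
        simp only [map_sub, map_smul, Finsupp.coe_sub, Pi.sub_apply, Finsupp.coe_smul,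
          Pi.smul_apply, smul_eq_mul, Module.Basis.repr_self, Finsupp.single_eq_same] at this
        rw [hψ, LinearMap.toMatrixAlgEquiv_apply]
        exact this
      have hinv : ((ψ g : Rˣ) : R) * (((ψ g)⁻¹ : Rˣ) : R) = 1 := by
        rw [← Units.val_mul, mul_inv_cancel, Units.val_one]
      refine ⟨Matrix.diagonal ![bM.repr y 0, (((ψ g)⁻¹ : Rˣ) : R) * (r - bM.repr y 0)], ?_⟩
      rw [FA_S30_OD_diag_apply]
      ext i j
      fin_cases i <;> fin_cases j
      · simp only [Fin.zero_eta, Matrix.sub_apply, Matrix.diagonal_apply_eq, Matrix.cons_val_zero,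
          Matrix.one_apply_eq, Matrix.smul_apply, smul_eq_mul]
        exact h1
      · simp
      · simp
      · show ((d g : Rˣ) : R) * (((ψ g)⁻¹ : Rˣ) : R) - 1
          = a * ((((ψ g)⁻¹ : Rˣ) : R) * (r - bM.repr y 0))
        linear_combination (((ψ g)⁻¹ : Rˣ) : R) * hr - (((ψ g)⁻¹ : Rˣ) : R) * h1 + hinv

end Main

section Final

variable {R : Type*} [CommRing R] [IsDomain R] [IsDiscreteValuationRing R]
variable {G : Type*} [Group G]
variable {Λ : Type*} [AddCommGroup Λ] [Module R Λ] [Module.Finite R Λ] [Module.Free R Λ]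
  [Nontrivial Λ]

theorem FA_S30_OD_mem_pow_smul_top {M : Type*} [AddCommGroup M] [Module R M] {ϖ : R}
    (hϖ : Irreducible ϖ) (n : ℕ) (v : M) :
    v ∈ (IsLocalRing.maximalIdeal R ^ n) • (⊤ : Submodule R M) ↔ ∃ v' : M, v = ϖ ^ n • v' := by
  rw [hϖ.maximalIdeal_eq, Ideal.span_singleton_pow, Submodule.ideal_span_singleton_smul,
    Submodule.mem_smul_pointwise_iff_exists]
  constructor
  · rintro ⟨b, -, hb⟩
    exact ⟨b, hb.symm⟩
  · rintro ⟨v', hv'⟩
    exact ⟨v', Submodule.mem_top, hv'.symm⟩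

theorem FA_S30_OD_mem_pow {ϖ : R} (hϖ : Irreducible ϖ) (n : ℕ) (x : R) :
    x ∈ IsLocalRing.maximalIdeal R ^ n ↔ ∃ r : R, x = ϖ ^ n * r := by
  rw [hϖ.maximalIdeal_eq, Ideal.span_singleton_pow, Ideal.mem_span_singleton']
  constructor
  · rintro ⟨a, ha⟩
    exact ⟨a, by rw [← ha, mul_comm]⟩
  · rintro ⟨r, hr⟩
    exact ⟨r, by rw [hr, mul_comm]⟩

/-- **Leaves T10 + T11 of S30.**  `R` a discrete valuation ring with `2 ≠ 0`, `Λ ≠ 0` a finite
free `R`-module, `ρ : G →* End_R Λ`, `d : G →* Rˣ`, `c ∈ G` with `c² = 1`, `d c = -1`, every `ρ g`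
satisfying a relation `ρ g ² - t ρ g + d g = 0`.  Then there is a representation `ρ'` of `G` on
`R²` with (i) `charpoly (ρ' g) = X² - t X + d g` for every relation `(g, t)`; (ii) `ρ' g ≡ 1` mod
`𝔪^n` whenever `ρ g ≡ 1` and `d g ≡ 1` mod `𝔪^n`; (iii) `ρ' g = 1` whenever `ρ g = 1`, `d g = 1`. -/
theorem FA_S30_OD_main (h2 : (2 : R) ≠ 0) (ρ : G →* Module.End R Λ) (d : G →* Rˣ) (c : G)
    (hc : c * c = 1) (hdc : d c = -1)
    (hquad : ∀ g : G, ∃ t : R,
      ρ g * ρ g - t • ρ g + ((d g : Rˣ) : R) • (1 : Module.End R Λ) = 0) :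
    ∃ ρ' : G →* Module.End R (Fin 2 → R),
      (∀ (g : G) (t : R),
        ρ g * ρ g - t • ρ g + ((d g : Rˣ) : R) • (1 : Module.End R Λ) = 0 →
        LinearMap.charpoly (ρ' g) = X ^ 2 - C t * X + C ((d g : Rˣ) : R)) ∧
      (∀ (g : G) (n : ℕ),
        (∀ v : Λ, ρ g v - v ∈ (IsLocalRing.maximalIdeal R ^ n) • (⊤ : Submodule R Λ)) →
        ((d g : Rˣ) : R) - 1 ∈ IsLocalRing.maximalIdeal R ^ n →
        ∀ v : Fin 2 → R,
          ρ' g v - v ∈ (IsLocalRing.maximalIdeal R ^ n) • (⊤ : Submodule R (Fin 2 → R))) ∧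
      (∀ g : G, ρ g = 1 → d g = 1 → ρ' g = 1) := by
  classical
  obtain ⟨ρm, h1, h2'⟩ := FA_S30_OD_mat h2 ρ d c hc hdc hquad
  obtain ⟨ϖ, hϖ⟩ := IsDiscreteValuationRing.exists_irreducible R
  let ρ' : G →* Module.End R (Fin 2 → R) :=
    ((Matrix.toLinAlgEquiv' : Matrix (Fin 2) (Fin 2) R ≃ₐ[R] _) :
      Matrix (Fin 2) (Fin 2) R →* _).comp ρm
  have hρ' : ∀ g, ρ' g = Matrix.toLin' (ρm g) := fun g => rfl
  refine ⟨ρ', ?_, ?_, ?_⟩
  · intro g t h
    rw [hρ', ← h1 g t h,
      ← LinearMap.charpoly_toMatrix (Matrix.toLin' (ρm g)) (Pi.basisFun R (Fin 2)),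
      LinearMap.toMatrix_eq_toMatrix', LinearMap.toMatrix'_toLin']
  · intro g n hv hd v
    obtain ⟨N, hN⟩ := h2' g (ϖ ^ n)
      (fun v => (FA_S30_OD_mem_pow_smul_top hϖ n _).mp (hv v))
      ((FA_S30_OD_mem_pow hϖ n _).mp hd)
    rw [FA_S30_OD_mem_pow_smul_top hϖ n]
    refine ⟨Matrix.toLin' N v, ?_⟩
    have e1 : ρm g = 1 + ϖ ^ n • N := by
      rw [← hN]
      abel
    rw [hρ', e1, map_add, Matrix.toLin'_one, map_smul, LinearMap.add_apply, LinearMap.id_apply,
      LinearMap.smul_apply, add_sub_cancel_left]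
  · intro g hg hd
    obtain ⟨N, hN⟩ := h2' g 0 (fun v => ⟨0, by rw [hg]; simp⟩) ⟨0, by rw [hd]; simp⟩
    rw [zero_smul, sub_eq_zero] at hN
    rw [hρ', hN, Matrix.toLin'_one]
    rfl

end Final

end Fermat.Agent.S30
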