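import Mathlib

/-!
# S30, leaf T8 (part 1): the ring homomorphism `ℤ_[p] →+* 𝒪` for a complete local ring `𝒪`
with `p` in its maximal ideal

* `FA_S30_CY_hom_ext` : two ring homomorphisms out of `ℤ_[p]` into a ring with `p ^ n = 0` agree;
* `FA_S30_CY_iota` : the ring homomorphism `ℤ_[p] →+* 𝒪`;
* `FA_S30_CY_iota_mem` : it maps `p ^ n ℤ_[p]` into `𝔪 ^ n`;
* `FA_S30_CY_iota_injective` : it is injective when `𝒪` is a domain of characteristic zero;
* `FA_S30_CY_iota_isLocalHom` : it is a local homomorphism.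
-/

set_option autoImplicit false
set_option linter.unusedSectionVars false
set_option linter.style.haveILetI false
set_option linter.unusedVariables false

namespace Fermat.Agent.S30

noncomputable section

variable (p : ℕ) [Fact p.Prime]

/-- The value of a ring homomorphism out of `ℤ_[p]` into a ring with `p ^ n = 0`. -/
theorem FA_S30_CY_hom_apply {R : Type*} [CommRing R] (n : ℕ) (hR : ((p : R)) ^ n = 0)
    (φ : ℤ_[p] →+* R) (x : ℤ_[p]) : φ x = (((PadicInt.toZModPow n x).val : ℕ) : R) := by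
  have h1 : x - (((PadicInt.toZModPow n x).val : ℕ) : ℤ_[p]) ∈
      RingHom.ker (PadicInt.toZModPow (p := p) n) := by
    rw [RingHom.mem_ker, map_sub, map_natCast, ZMod.natCast_val, ZMod.cast_id', id, sub_self]
  rw [PadicInt.ker_toZModPow, Ideal.mem_span_singleton] at h1
  obtain ⟨y, hy⟩ := h1
  have h2 : x = (((PadicInt.toZModPow n x).val : ℕ) : ℤ_[p]) + (p : ℤ_[p]) ^ n * y := by
    rw [← hy]; ring
  conv_lhs => rw [h2]
  rw [map_add, map_mul, map_pow, map_natCast, map_natCast, hR, zero_mul, add_zero]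

/-- Two ring homomorphisms out of `ℤ_[p]` into a ring with `p ^ n = 0` agree. -/
theorem FA_S30_CY_hom_ext {R : Type*} [CommRing R] (n : ℕ) (hR : ((p : R)) ^ n = 0)
    (φ ψ : ℤ_[p] →+* R) : φ = ψ := by
  ext x
  rw [FA_S30_CY_hom_apply p n hR φ x, FA_S30_CY_hom_apply p n hR ψ x]

variable (O : Type*) [CommRing O] [IsLocalRing O]

theorem FA_S30_CY_pow_zero (hpO : (p : O) ∈ IsLocalRing.maximalIdeal O) (n : ℕ) :
    ((p : O ⧸ (IsLocalRing.maximalIdeal O) ^ n)) ^ n = 0 := by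
  rw [← map_natCast (Ideal.Quotient.mk _), ← map_pow, Ideal.Quotient.eq_zero_iff_mem]
  exact Ideal.pow_mem_pow hpO n

theorem FA_S30_CY_char_dvd (hpO : (p : O) ∈ IsLocalRing.maximalIdeal O) (n : ℕ) :
    ringChar (O ⧸ (IsLocalRing.maximalIdeal O) ^ n) ∣ p ^ n := by
  apply ringChar.dvd
  rw [Nat.cast_pow]
  exact FA_S30_CY_pow_zero p O hpO n

/-- The maps `ℤ_[p] → 𝒪 / 𝔪 ^ n`. -/
def FA_S30_CY_f (hpO : (p : O) ∈ IsLocalRing.maximalIdeal O) (n : ℕ) :
    ℤ_[p] →+* O ⧸ (IsLocalRing.maximalIdeal O) ^ n :=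
  letI := ringChar.charP (O ⧸ (IsLocalRing.maximalIdeal O) ^ n)
  (ZMod.castHom (FA_S30_CY_char_dvd p O hpO n) (O ⧸ (IsLocalRing.maximalIdeal O) ^ n)).comp
    (PadicInt.toZModPow n)

variable [IsAdicComplete (IsLocalRing.maximalIdeal O) O]

/-- **The ring homomorphism `ℤ_[p] →+* 𝒪`.** -/
def FA_S30_CY_iota (hpO : (p : O) ∈ IsLocalRing.maximalIdeal O) : ℤ_[p] →+* O :=
  IsAdicComplete.liftRingHom (IsLocalRing.maximalIdeal O) (FA_S30_CY_f p O hpO)
    (fun {m n} hle => FA_S30_CY_hom_ext p m (FA_S30_CY_pow_zero p O hpO m) _ _)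

variable {O}

/-- `ι` maps `p ^ n ℤ_[p]` into `p ^ n 𝒪`. -/
theorem FA_S30_CY_iota_mem_span (hpO : (p : O) ∈ IsLocalRing.maximalIdeal O) (n : ℕ)
    (x : ℤ_[p]) (hx : x ∈ Ideal.span {(p : ℤ_[p]) ^ n}) :
    FA_S30_CY_iota p O hpO x ∈ Ideal.span {(p : O) ^ n} := by
  rw [Ideal.mem_span_singleton] at hx ⊢
  obtain ⟨y, rfl⟩ := hx
  exact ⟨FA_S30_CY_iota p O hpO y, by rw [map_mul, map_pow, map_natCast]⟩

/-- `ι` maps `p ^ n ℤ_[p]` into `𝔪 ^ n`. -/
theorem FA_S30_CY_iota_mem (hpO : (p : O) ∈ IsLocalRing.maximalIdeal O) (n : ℕ)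
    (x : ℤ_[p]) (hx : x ∈ Ideal.span {(p : ℤ_[p]) ^ n}) :
    FA_S30_CY_iota p O hpO x ∈ (IsLocalRing.maximalIdeal O) ^ n := by
  have h := FA_S30_CY_iota_mem_span p hpO n x hx
  rw [Ideal.mem_span_singleton] at h
  obtain ⟨y, hy⟩ := h
  rw [hy]
  exact Ideal.mul_mem_right _ _ (Ideal.pow_mem_pow hpO n)

/-- `ι` is a local homomorphism. -/
theorem FA_S30_CY_iota_isLocalHom (hpO : (p : O) ∈ IsLocalRing.maximalIdeal O) :
    IsLocalHom (FA_S30_CY_iota p O hpO) := by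
  refine ⟨fun x hx => ?_⟩
  by_contra hnu
  have h1 : x ∈ IsLocalRing.maximalIdeal ℤ_[p] := (IsLocalRing.mem_maximalIdeal x).mpr hnu
  rw [PadicInt.maximalIdeal_eq_span_p] at h1
  have h2 := FA_S30_CY_iota_mem p hpO 1 x (by simpa using h1)
  rw [pow_one] at h2
  exact ((IsLocalRing.mem_maximalIdeal _).mp h2) hx

/-- `ι` is injective when `𝒪` is a domain of characteristic zero. -/
theorem FA_S30_CY_iota_injective [IsDomain O] [CharZero O]
    (hpO : (p : O) ∈ IsLocalRing.maximalIdeal O) :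
    Function.Injective (FA_S30_CY_iota p O hpO) := by
  rw [injective_iff_map_eq_zero]
  intro x hx
  by_contra hx0
  have hspec := PadicInt.unitCoeff_spec hx0
  rw [hspec] at hx
  rw [map_mul, map_pow, map_natCast] at hx
  have hp0 : (p : O) ≠ 0 := Nat.cast_ne_zero.mpr (Fact.out (p := p.Prime)).ne_zero
  rcases mul_eq_zero.mp hx with h | h
  · have hu : IsUnit (FA_S30_CY_iota p O hpO ((PadicInt.unitCoeff hx0 : ℤ_[p]ˣ) : ℤ_[p])) :=
      (PadicInt.unitCoeff hx0).isUnit.map _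
    exact hu.ne_zero h
  · exact pow_ne_zero _ hp0 h

end

end Fermat.Agent.S30
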