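import Mathlib
import Fermat.Agent.S29.FrobMain

/-!
# S30, leaf B: the quadratic relation for every Galois element, by density

`R` a local ring, `Λ` a finite free `R`-module which is `𝔪`-adically separated,
`ρ : Γ →* End_R Λ`, `d : Γ →* Rˣ`, both `𝔪`-adically continuous, and the relation
`ρ τ ^ 2 - a_ℓ ρ τ + ℓ = 0`, `d τ = ℓ` at the Frobenius elements `τ` at the primes `ℓ ∉ S₀`.
Then every `g ∈ Γ` satisfies `ρ g ^ 2 - t ρ g + d g = 0` for some `t ∈ R`.

* `FA_S30_QD_dickson` : the relation for the powers of an element satisfying one;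
* `FA_S30_QD_limit` : an invertible `B` with `B² - t_n B + δ ≡ 0 mod 𝔪^n` for all `n` satisfies an
  exact relation;
* `FA_S30_QD_main` : the statement above.
-/

set_option autoImplicit false
set_option linter.style.haveILetI false
set_option linter.unusedSectionVars false
set_option linter.unusedVariables false

noncomputable section

namespace Fermat.Agent.S30

open Fermat.Agent.S29 IsLocalRing

section dickson

variable {R : Type*} [CommRing R] {E : Type*} [Ring E] [Algebra R E]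

/-- If `f² - a f + δ = 0` then `f^b` satisfies `X² - t X + δ^b` for some `t`. -/
theorem FA_S30_QD_dickson (f : E) (a δ : R)
    (h : f * f - a • f + δ • (1 : E) = 0) (b : ℕ) :
    ∃ t : R, f ^ b * f ^ b - t • f ^ b + (δ ^ b) • (1 : E) = 0 := by
  set f' : E := a • (1 : E) - f with hf'
  have hcomm : Commute f f' := by
    rw [hf']
    exact (Commute.smul_right (Commute.one_right f) a).sub_right (Commute.refl f)
  have hprod : f' * f = δ • (1 : E) := by
    rw [hf', sub_mul, smul_mul_assoc, one_mul]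
    have : a • f - f * f = δ • (1 : E) - (f * f - a • f + δ • (1 : E)) := by abel
    rw [this, h, sub_zero]
  have hsum : f + f' = a • (1 : E) := by rw [hf']; abel
  -- the power sums are scalars
  have hs : ∀ n : ℕ, (∃ t : R, f ^ n + f' ^ n = t • (1 : E)) ∧
      ∃ t : R, f ^ (n + 1) + f' ^ (n + 1) = t • (1 : E) := by
    intro n
    induction n with
    | zero =>
      refine ⟨⟨2, ?_⟩, ⟨a, ?_⟩⟩
      · rw [pow_zero, pow_zero, two_smul]
      · rw [zero_add, pow_one, pow_one, hsum]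
    | succ n ih =>
      obtain ⟨⟨t0, ht0⟩, ⟨t1, ht1⟩⟩ := ih
      refine ⟨⟨t1, ht1⟩, ⟨a * t1 - δ * t0, ?_⟩⟩
      have e : f ^ (n + 1 + 1) + f' ^ (n + 1 + 1)
          = (f + f') * (f ^ (n + 1) + f' ^ (n + 1)) - (f' * f) * (f ^ n + f' ^ n) := by
        have c1 : f' * f ^ (n + 1) = (f' * f) * f ^ n := by
          rw [pow_succ', mul_assoc]
        have c2 : f * f' ^ (n + 1) = (f' * f) * f' ^ n := by
          rw [pow_succ', ← mul_assoc, hcomm.eq]
        rw [add_mul, mul_add, mul_add, mul_add, c1, c2, pow_succ' f (n + 1),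
          pow_succ' f' (n + 1)]
        abel
      rw [e, hsum, hprod, ht0, ht1, smul_mul_smul_comm, smul_mul_smul_comm, one_mul, sub_smul]
  obtain ⟨t, ht⟩ := (hs b).1
  refine ⟨t, ?_⟩
  have hpow : f' ^ b * f ^ b = (δ ^ b) • (1 : E) := by
    rw [← (hcomm.symm).mul_pow, hprod, smul_pow, one_pow]
  have e1 : t • f ^ b = f ^ b * f ^ b + f' ^ b * f ^ b := by
    rw [← add_mul, ht, smul_mul_assoc, one_mul]
  rw [e1, hpow]
  abel

end dickson

section limit

variable {R : Type*} [CommRing R] [IsLocalRing R]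
variable {Λ : Type*} [AddCommGroup Λ] [Module R Λ] [Module.Free R Λ] [Module.Finite R Λ]

/-- the submodule `𝔪^n Λ` -/
abbrev FA_S30_QD_fil (R : Type*) [CommRing R] [IsLocalRing R] (Λ : Type*) [AddCommGroup Λ]
    [Module R Λ] (n : ℕ) : Submodule R Λ :=
  (maximalIdeal R ^ n) • (⊤ : Submodule R Λ)

omit [Module.Free R Λ] [Module.Finite R Λ] in
theorem FA_S30_QD_map_fil (f : Λ →ₗ[R] Λ) (n : ℕ) {v : Λ} (hv : v ∈ FA_S30_QD_fil R Λ n) :
    f v ∈ FA_S30_QD_fil R Λ n := by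
  refine Submodule.smul_induction_on (p := fun x => f x ∈ FA_S30_QD_fil R Λ n) hv ?_ ?_
  · intro a ha w _
    rw [map_smul]
    exact Submodule.smul_mem_smul ha Submodule.mem_top
  · intro x y hx hy
    rw [map_add]
    exact Submodule.add_mem _ hx hy

omit [Module.Free R Λ] [Module.Finite R Λ] in
theorem FA_S30_QD_functional_fil (φ : Λ →ₗ[R] R) (n : ℕ) {v : Λ}
    (hv : v ∈ FA_S30_QD_fil R Λ n) : φ v ∈ maximalIdeal R ^ n := by
  refine Submodule.smul_induction_on (p := fun x => φ x ∈ maximalIdeal R ^ n) hv ?_ ?_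
  · intro a ha w _
    rw [map_smul, smul_eq_mul]
    exact Ideal.mul_mem_right _ _ ha
  · intro x y hx hy
    rw [map_add]
    exact Ideal.add_mem _ hx hy

/-- **The limit step.**  If `B` is invertible and `B² - t_n B + δ ≡ 0 mod 𝔪^n` for every `n`,
then `B² - t B + δ = 0` for some `t`. -/
theorem FA_S30_QD_limit (hsep : ∀ v : Λ, (∀ n : ℕ, v ∈ FA_S30_QD_fil R Λ n) → v = 0)
    (B B' : Module.End R Λ) (hBB' : B' * B = 1) (δ : R)
    (h : ∀ n : ℕ, ∃ t : R, ∀ v : Λ,
      (B * B - t • B + δ • (1 : Module.End R Λ)) v ∈ FA_S30_QD_fil R Λ n) :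
    ∃ t : R, B * B - t • B + δ • (1 : Module.End R Λ) = 0 := by
  classical
  by_cases htriv : Subsingleton Λ
  · exact ⟨0, LinearMap.ext fun v => Subsingleton.elim _ _⟩
  rw [not_subsingleton_iff_nontrivial] at htriv
  let bas := Module.Free.chooseBasis R Λ
  haveI : Nonempty (Module.Free.ChooseBasisIndex R Λ) := by
    by_contra hne
    rw [not_nonempty_iff] at hne
    obtain ⟨x, y, hxy⟩ := htriv
    apply hxy
    rw [← bas.sum_repr x, ← bas.sum_repr y]
    simp
  let i₀ : Module.Free.ChooseBasisIndex R Λ := Classical.arbitrary _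
  -- some coordinate of `B e` is a unit
  have hex : ∃ j, IsUnit (bas.repr (B (bas i₀)) j) := by
    by_contra hno
    have hno' : ∀ j, bas.repr (B (bas i₀)) j ∈ maximalIdeal R := fun j =>
      (mem_maximalIdeal _).mpr (mem_nonunits_iff.mpr fun hu => hno ⟨j, hu⟩)
    have h1 : B (bas i₀) ∈ FA_S30_QD_fil R Λ 1 := by
      rw [← bas.sum_repr (B (bas i₀))]
      refine Submodule.sum_mem _ fun j _ => ?_
      refine Submodule.smul_mem_smul ?_ Submodule.mem_top
      rw [pow_one]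
      exact hno' j
    have h2 : B' (B (bas i₀)) ∈ FA_S30_QD_fil R Λ 1 := FA_S30_QD_map_fil B' 1 h1
    have h3 : B' (B (bas i₀)) = bas i₀ := by
      rw [← Module.End.mul_apply, hBB', Module.End.one_apply]
    rw [h3] at h2
    have h4 := FA_S30_QD_functional_fil (bas.coord i₀) 1 h2
    rw [pow_one, Module.Basis.coord_apply, Module.Basis.repr_self, Finsupp.single_eq_same] at h4
    exact (mem_maximalIdeal _).mp h4 isUnit_one
  obtain ⟨j, hj⟩ := hex
  obtain ⟨u, hu⟩ := hj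
  let φ : Λ →ₗ[R] R := bas.coord j
  have hφB : φ (B (bas i₀)) = (u : R) := by
    show bas.repr (B (bas i₀)) j = u
    exact hu.symm
  let Q : Module.End R Λ := B * B + δ • (1 : Module.End R Λ)
  let t : R := φ (Q (bas i₀)) * ((u⁻¹ : Rˣ) : R)
  refine ⟨t, LinearMap.ext fun v => ?_⟩
  rw [LinearMap.zero_apply]
  refine hsep _ fun n => ?_
  obtain ⟨tn, htn⟩ := h n
  have hQ : ∀ (s : R) (w : Λ), (B * B - s • B + δ • (1 : Module.End R Λ)) w
      = Q w - s • B w := by
    intro s w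
    simp only [Q, LinearMap.add_apply, LinearMap.sub_apply, LinearMap.smul_apply]
    abel
  -- `t_n ≡ t`
  have hcong : tn - t ∈ maximalIdeal R ^ n := by
    have h1 := FA_S30_QD_functional_fil φ n (htn (bas i₀))
    rw [hQ, map_sub, map_smul, hφB, smul_eq_mul] at h1
    have h2 : tn - t = - ((φ (Q (bas i₀)) - tn * (u : R)) * ((u⁻¹ : Rˣ) : R)) := by
      show tn - φ (Q (bas i₀)) * ((u⁻¹ : Rˣ) : R) = _
      have hu1 : (u : R) * ((u⁻¹ : Rˣ) : R) = 1 := Units.mul_inv u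
      calc tn - φ (Q (bas i₀)) * ((u⁻¹ : Rˣ) : R)
          = tn * ((u : R) * ((u⁻¹ : Rˣ) : R)) - φ (Q (bas i₀)) * ((u⁻¹ : Rˣ) : R) := by
            rw [hu1, mul_one]
        _ = _ := by ring
    rw [h2]
    exact Ideal.neg_mem_iff _ |>.mpr (Ideal.mul_mem_right _ _ h1)
  have e : (B * B - t • B + δ • (1 : Module.End R Λ)) v
      = (B * B - tn • B + δ • (1 : Module.End R Λ)) v + (tn - t) • B v := by
    rw [hQ, hQ, sub_smul]
    abel
  rw [e]
  exact Submodule.add_mem _ (htn v) (Submodule.smul_mem_smul hcong Submodule.mem_top)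

end limit

section main

variable {R : Type*} [CommRing R] [IsLocalRing R]
variable {Λ : Type*} [AddCommGroup Λ] [Module R Λ] [Module.Free R Λ] [Module.Finite R Λ]

/-- **Leaf B (= T9).**  The quadratic relation for every element of the Galois group, from the
relation at the Frobenius elements, continuity and the Frobenius density theorem. -/
theorem FA_S30_QD_main (hsep : ∀ v : Λ, (∀ n : ℕ, v ∈ FA_S30_QD_fil R Λ n) → v = 0)
    (ρ : (AlgebraicClosure ℚ ≃ₐ[ℚ] AlgebraicClosure ℚ) →* Module.End R Λ)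
    (d : (AlgebraicClosure ℚ ≃ₐ[ℚ] AlgebraicClosure ℚ) →* Rˣ) (S₀ : Finset ℕ) (a : ℕ → R)
    (hcont : ∀ n : ℕ, ∃ L : IntermediateField ℚ (AlgebraicClosure ℚ), FiniteDimensional ℚ L ∧
      ∀ σ : AlgebraicClosure ℚ ≃ₐ[ℚ] AlgebraicClosure ℚ, (∀ x ∈ L, σ x = x) →
        (∀ v : Λ, ρ σ v - v ∈ FA_S30_QD_fil R Λ n) ∧
          (((d σ : Rˣ) : R) - 1 ∈ maximalIdeal R ^ n))
    (hES : ∀ ℓ : ℕ, ℓ.Prime → ℓ ∉ S₀ → ∀ A : ValuationSubring (AlgebraicClosure ℚ),
      A.LiesOverPrime ℓ → ∀ τ : AlgebraicClosure ℚ ≃ₐ[ℚ] AlgebraicClosure ℚ,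
        A.IsFrobeniusAt τ ℓ →
          ρ τ * ρ τ - a ℓ • ρ τ + (ℓ : R) • (1 : Module.End R Λ) = 0 ∧
            ((d τ : Rˣ) : R) = (ℓ : R))
    (g : AlgebraicClosure ℚ ≃ₐ[ℚ] AlgebraicClosure ℚ) :
    ∃ t : R, ρ g * ρ g - t • ρ g + ((d g : Rˣ) : R) • (1 : Module.End R Λ) = 0 := by
  refine FA_S30_QD_limit hsep (ρ g) (ρ g⁻¹) (by rw [← map_mul, inv_mul_cancel, map_one]) _
    fun n => ?_
  obtain ⟨L, hL, hLσ⟩ := hcont n
  haveI := hL
  haveI : Algebra.IsAlgebraic ℚ (AlgebraicClosure ℚ) := AlgebraicClosure.isAlgebraic ℚ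
  haveI : IsAlgClosure ℚ (AlgebraicClosure ℚ) := ⟨inferInstance, inferInstance⟩
  haveI : Normal ℚ (AlgebraicClosure ℚ) := IsAlgClosure.normal ℚ (AlgebraicClosure ℚ)
  let L' : IntermediateField ℚ (AlgebraicClosure ℚ) :=
    IntermediateField.normalClosure ℚ L (AlgebraicClosure ℚ)
  haveI : FiniteDimensional ℚ L' := normalClosure.is_finiteDimensional ℚ L (AlgebraicClosure ℚ)
  haveI : Normal ℚ L' := normalClosure.normal ℚ L (AlgebraicClosure ℚ)
  haveI : IsGalois ℚ L' := ⟨⟩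
  obtain ⟨ℓ, A, τ, b, hℓ, hℓS, hA, hτ, hg⟩ := FA_S29_FD_main L' g S₀
  obtain ⟨hrel, hdτ⟩ := hES ℓ hℓ hℓS A hA τ hτ
  obtain ⟨t, ht⟩ := FA_S30_QD_dickson (ρ τ) (a ℓ) (ℓ : R) hrel b
  refine ⟨t, fun v => ?_⟩
  set σ : AlgebraicClosure ℚ ≃ₐ[ℚ] AlgebraicClosure ℚ := g⁻¹ * τ ^ b with hσdef
  have hgσ : g * σ = τ ^ b := by rw [hσdef, mul_inv_cancel_left]
  have hσ : ∀ x ∈ L, σ x = x := by
    intro x hx
    have hx' : x ∈ L' := IntermediateField.le_normalClosure L hx
    show g⁻¹ ((τ ^ b) x) = x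
    rw [← hg x hx']
    exact g.symm_apply_apply x
  obtain ⟨h1, h2⟩ := hLσ σ hσ
  have hF : ρ τ ^ b = ρ g * ρ σ := by rw [← map_pow, ← map_mul, hgσ]
  have hd : (ℓ : R) ^ b = ((d g : Rˣ) : R) * ((d σ : Rˣ) : R) := by
    rw [← hdτ, ← Units.val_pow_eq_pow_val, ← map_pow, ← Units.val_mul, ← map_mul, hgσ]
  rw [hF, hd] at ht
  have hv := congrArg (fun f : Module.End R Λ => f v) ht
  simp only [LinearMap.add_apply, LinearMap.sub_apply, LinearMap.smul_apply,
    Module.End.mul_apply, Module.End.one_apply, LinearMap.zero_apply] at hv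
  -- the error terms
  have hE1 : ρ σ (ρ g (ρ σ v)) - ρ g (ρ σ v) ∈ FA_S30_QD_fil R Λ n := h1 _
  have hE2 : ρ σ v - v ∈ FA_S30_QD_fil R Λ n := h1 v
  have e : (ρ g * ρ g - t • ρ g + ((d g : Rˣ) : R) • (1 : Module.End R Λ)) v
      = - ρ g (ρ σ (ρ g (ρ σ v)) - ρ g (ρ σ v)) - ρ g (ρ g (ρ σ v - v))
        + t • ρ g (ρ σ v - v)
        - (((d g : Rˣ) : R) * (((d σ : Rˣ) : R) - 1)) • v := by
    simp only [LinearMap.add_apply, LinearMap.sub_apply, LinearMap.smul_apply,
      Module.End.mul_apply, Module.End.one_apply, map_sub]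
    have hv' : ρ g (ρ σ (ρ g (ρ σ v)))
        = t • ρ g (ρ σ v) - (((d g : Rˣ) : R) * ((d σ : Rˣ) : R)) • v := by
      rw [eq_sub_iff_add_eq, ← sub_eq_zero, ← hv]
      abel
    rw [hv']
    module
  rw [e]
  refine Submodule.sub_mem _ (Submodule.add_mem _ (Submodule.sub_mem _
    (Submodule.neg_mem _ (FA_S30_QD_map_fil _ n hE1))
    (FA_S30_QD_map_fil _ n (FA_S30_QD_map_fil _ n hE2)))
    (Submodule.smul_mem _ _ (FA_S30_QD_map_fil _ n hE2))) ?_
  exact Submodule.smul_mem_smul (Ideal.mul_mem_left _ _ h2) Submodule.mem_top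

end main

end Fermat.Agent.S30

end
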