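import Fermat.Agent.S30.Asm
import Fermat.Agent.S30.QuadDens
import Fermat.Agent.S30.OddLattice
import Fermat.Agent.S30.LatticeJ
import Fermat.Agent.S30.EigCharMain
import Fermat.Agent.S30.CycAdic
import Fermat.Agent.S30.PadicHom

/-!
# S30: final wiring

`FA_S30_WI_main` is the statement S30: the eigen-lattice `Λ` of `χ` in `𝒪' ⊗ T_p J₀(N)`
(`LatticeJ`), the `p`-adic cyclotomic character `d` (`CycAdic`, `PadicHom`), the quadratic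
relations for all `g` (`QuadDens`), the rank-two representation (`OddLattice`) and the abstract
assembly (`Asm`).
-/

set_option autoImplicit false
set_option linter.unusedSectionVars false
set_option linter.unusedVariables false
set_option linter.style.haveILetI false
set_option synthInstance.maxHeartbeats 400000
set_option maxHeartbeats 1000000

noncomputable section

open Polynomial CuspForm IsLocalRing TensorProduct CongruenceSubgroup ModularCurve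
  ModularCurve.Period Fermat.Agent.S29

namespace Fermat.Agent.S30

section pieces

variable (p : ℕ) [Fact p.Prime] (N : ℕ) [NeZero N] (S : Finset ℕ)
    (𝒪' : Type) [CommRing 𝒪'] [IsDomain 𝒪'] [IsDiscreteValuationRing 𝒪']
    (χ : CuspForm.heckeAlgebra N 2 (↑S : Set ℕ) →+* 𝒪')
    [Algebra ℤ_[p] 𝒪']
    (P : Set Nat.Primes) (a : Nat.Primes → 𝒪')

/-- Primes outside `S` are good. -/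
theorem FA_S30_WI_good (hpS : p ∈ S) (hNS : ∀ q : ℕ, q.Prime → q ∣ N → q ∈ S)
    (ℓ : ℕ) (hℓ : ℓ.Prime) (hℓS : ℓ ∉ (↑S : Set ℕ)) :
    ¬ ℓ ∣ N ∧ ℓ ≠ p ∧ ¬ ℓ ∣ N * p := by
  have hpp : p.Prime := Fact.out
  have h1 : ¬ ℓ ∣ N := fun h => hℓS (Finset.mem_coe.mpr (hNS ℓ hℓ h))
  have h2 : ℓ ≠ p := fun h => hℓS (Finset.mem_coe.mpr (h ▸ hpS))
  refine ⟨h1, h2, fun h => ?_⟩
  rcases (Nat.Prime.dvd_mul hℓ).mp h with h | h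
  · exact h1 h
  · exact h2 ((Nat.prime_dvd_prime_iff_eq hℓ hpp).mp h)

theorem FA_S30_WI_not_dvd {q : ℕ} (hq : q.Prime) (hqN : ¬ q ∣ N) (hqp : q ≠ p) :
    ¬ q ∣ N * p := by
  have hpp : p.Prime := Fact.out
  intro h
  rcases (Nat.Prime.dvd_mul hq).mp h with h | h
  · exact hqN h
  · exact hqp ((Nat.prime_dvd_prime_iff_eq hq hpp).mp h)

/-- The eigen-lattice is nonzero. -/
theorem FA_S30_WI_ne_bot (hinj : Function.Injective (algebraMap ℤ_[p] 𝒪'))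
    (hP' : ∀ ℓ ∈ P, ¬ ((ℓ : Nat.Primes) : ℕ) ∣ N ∧ ((ℓ : Nat.Primes) : ℕ) ∉ (↑S : Set ℕ))
    (ha : ∀ (ℓ : ℕ) (hℓ : ℓ.Prime) (hℓN : ¬ ℓ ∣ N) (hℓS : ℓ ∉ (↑S : Set ℕ)),
      a ⟨ℓ, hℓ⟩ = χ (heckeAlgebra.T hℓ hℓN hℓS)) :
    FA_S30_LJ_Lam p N 𝒪' P a ≠ ⊥ := by
  haveI hflat : Module.Flat ℤ_[p] 𝒪' := FA_S30_LT_flat 𝒪' hinj
  refine FA_S30_LJ_Lam_ne_bot p N 𝒪' P a (fun ℓ hℓ => (hP' ℓ hℓ).1) ?_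
  obtain ⟨u, hu0, hu⟩ := FA_S30_EC_main N (↑S : Set ℕ) χ
  refine ⟨u, hu0, fun ℓ hℓ => ?_⟩
  have h1 := hu ℓ.1 ℓ.2 (hP' ℓ hℓ).1 (hP' ℓ hℓ).2
  have h2 := ha ℓ.1 ℓ.2 (hP' ℓ hℓ).1 (hP' ℓ hℓ).2
  rw [← h2] at h1
  exact h1

/-- Eichler–Shimura on the eigen-lattice, with the eigenvalue `χ (T_ℓ)`. -/
theorem FA_S30_WI_hES
    (hP : ∀ (ℓ : ℕ) (hℓ : ℓ.Prime), ¬ ℓ ∣ N → ℓ ∉ (↑S : Set ℕ) → (⟨ℓ, hℓ⟩ : Nat.Primes) ∈ P)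
    (ha : ∀ (ℓ : ℕ) (hℓ : ℓ.Prime) (hℓN : ¬ ℓ ∣ N) (hℓS : ℓ ∉ (↑S : Set ℕ)),
      a ⟨ℓ, hℓ⟩ = χ (heckeAlgebra.T hℓ hℓN hℓS))
    (ℓ : ℕ) (hℓ : ℓ.Prime) (hℓN : ¬ ℓ ∣ N) (hℓS : ℓ ∉ (↑S : Set ℕ)) (hℓNp : ¬ ℓ ∣ N * p)
    (A : ValuationSubring (AlgebraicClosure ℚ)) (hA : A.LiesOverPrime ℓ)
    (τ : AlgebraicClosure ℚ ≃ₐ[ℚ] AlgebraicClosure ℚ) (hτ : A.IsFrobeniusAt τ ℓ) :
    FA_S30_LJ_rho p N 𝒪' P a τ * FA_S30_LJ_rho p N 𝒪' P a τ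
        - χ (CuspForm.heckeAlgebra.T hℓ hℓN hℓS) • FA_S30_LJ_rho p N 𝒪' P a τ
        + (ℓ : 𝒪') • (1 : Module.End 𝒪' ↥(FA_S30_LJ_Lam p N 𝒪' P a)) = 0 := by
  have h := FA_S30_LJ_frob p N 𝒪' P a hℓ (hP ℓ hℓ hℓN hℓS) hℓNp A hA τ hτ
  rw [ha ℓ hℓ hℓN hℓS] at h
  exact h

/-- Continuity of `ρ` and `d`. -/
theorem FA_S30_WI_hcont (hp0 : (p : 𝒪') ≠ 0) (hp𝒪' : (p : 𝒪') ∈ IsLocalRing.maximalIdeal 𝒪')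
    (n : ℕ) :
    ∃ L : IntermediateField ℚ (AlgebraicClosure ℚ), FiniteDimensional ℚ L ∧
      ∀ σ : AlgebraicClosure ℚ ≃ₐ[ℚ] AlgebraicClosure ℚ, (∀ x ∈ L, σ x = x) →
        (∀ v : ↥(FA_S30_LJ_Lam p N 𝒪' P a), FA_S30_LJ_rho p N 𝒪' P a σ v - v ∈
          (maximalIdeal 𝒪' ^ n) • (⊤ : Submodule 𝒪' ↥(FA_S30_LJ_Lam p N 𝒪' P a))) ∧
          (((FA_S30_CY_d p (algebraMap ℤ_[p] 𝒪') σ : 𝒪'ˣ) : 𝒪') - 1 ∈ maximalIdeal 𝒪' ^ n) := by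
  obtain ⟨L1, hL1, -, h1⟩ := FA_S30_LJ_cont_fil p N 𝒪' hp0 hp𝒪' P a n
  obtain ⟨E, hE, h2⟩ := FA_S30_CY_d_cont p (algebraMap ℤ_[p] 𝒪') n
  haveI := hL1
  haveI := hE
  refine ⟨L1 ⊔ E, IntermediateField.finiteDimensional_sup L1 E, fun σ hσ => ⟨?_, ?_⟩⟩
  · exact h1 σ (fun x hx => hσ x ((le_sup_left : L1 ≤ L1 ⊔ E) hx))
  · have hmem : σ ∈ E.fixingSubgroup := by
      rw [IntermediateField.mem_fixingSubgroup_iff]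
      exact fun x hx => hσ x ((le_sup_right : E ≤ L1 ⊔ E) hx)
    have h3 := h2 σ hmem
    have hle : Ideal.span {(p : 𝒪') ^ n} ≤ maximalIdeal 𝒪' ^ n := by
      rw [Ideal.span_singleton_le_iff_mem]
      exact Ideal.pow_mem_pow hp𝒪' n
    exact hle h3

/-- The eigenvalues as a function on `ℕ`. -/
def FA_S30_WI_aN (a : Nat.Primes → 𝒪') : ℕ → 𝒪' :=
  fun ℓ => if h : ℓ.Prime then a ⟨ℓ, h⟩ else 0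

theorem FA_S30_WI_aN_prime (a : Nat.Primes → 𝒪') {ℓ : ℕ} (hℓ : ℓ.Prime) :
    FA_S30_WI_aN 𝒪' a ℓ = a ⟨ℓ, hℓ⟩ := dif_pos hℓ

/-- The quadratic relation for every `g`. -/
theorem FA_S30_WI_hquad (hpS : p ∈ S) (hNS : ∀ q : ℕ, q.Prime → q ∣ N → q ∈ S)
    (hp0 : (p : 𝒪') ≠ 0) (hp𝒪' : (p : 𝒪') ∈ IsLocalRing.maximalIdeal 𝒪')
    (hP : ∀ (ℓ : ℕ) (hℓ : ℓ.Prime), ¬ ℓ ∣ N → ℓ ∉ (↑S : Set ℕ) → (⟨ℓ, hℓ⟩ : Nat.Primes) ∈ P)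
    (ha : ∀ (ℓ : ℕ) (hℓ : ℓ.Prime) (hℓN : ¬ ℓ ∣ N) (hℓS : ℓ ∉ (↑S : Set ℕ)),
      a ⟨ℓ, hℓ⟩ = χ (heckeAlgebra.T hℓ hℓN hℓS))
    (g : AlgebraicClosure ℚ ≃ₐ[ℚ] AlgebraicClosure ℚ) :
    ∃ t : 𝒪',
      FA_S30_LJ_rho p N 𝒪' P a g * FA_S30_LJ_rho p N 𝒪' P a g - t • FA_S30_LJ_rho p N 𝒪' P a g
        + ((FA_S30_CY_d p (algebraMap ℤ_[p] 𝒪') g : 𝒪'ˣ) : 𝒪') •
          (1 : Module.End 𝒪' ↥(FA_S30_LJ_Lam p N 𝒪' P a)) = 0 := by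
  haveI hfin : Module.Finite 𝒪' ↥(FA_S30_LJ_Lam p N 𝒪' P a) := FA_S30_LJ_finite p N 𝒪' P a
  haveI hfree : Module.Free 𝒪' ↥(FA_S30_LJ_Lam p N 𝒪' P a) := FA_S30_LJ_free p N 𝒪' P a
  have hsep : ∀ v : ↥(FA_S30_LJ_Lam p N 𝒪' P a),
      (∀ n : ℕ, v ∈ FA_S30_QD_fil 𝒪' ↥(FA_S30_LJ_Lam p N 𝒪' P a) n) → v = 0 :=
    fun v hv => FA_S30_LJ_sep p N 𝒪' P a v hv
  have hc := FA_S30_WI_hcont p N 𝒪' P a hp0 hp𝒪'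
  have hE : ∀ ℓ : ℕ, ℓ.Prime → ℓ ∉ S → ∀ A : ValuationSubring (AlgebraicClosure ℚ),
      A.LiesOverPrime ℓ → ∀ τ : AlgebraicClosure ℚ ≃ₐ[ℚ] AlgebraicClosure ℚ,
        A.IsFrobeniusAt τ ℓ →
          FA_S30_LJ_rho p N 𝒪' P a τ * FA_S30_LJ_rho p N 𝒪' P a τ
            - FA_S30_WI_aN 𝒪' a ℓ • FA_S30_LJ_rho p N 𝒪' P a τ
            + (ℓ : 𝒪') • (1 : Module.End 𝒪' ↥(FA_S30_LJ_Lam p N 𝒪' P a)) = 0 ∧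
            ((FA_S30_CY_d p (algebraMap ℤ_[p] 𝒪') τ : 𝒪'ˣ) : 𝒪') = (ℓ : 𝒪') := by
    intro ℓ hℓ hℓS A hA τ hτ
    have hℓS' : ℓ ∉ (↑S : Set ℕ) := fun h => hℓS (Finset.mem_coe.mp h)
    obtain ⟨hℓN, hℓp, hℓNp⟩ := FA_S30_WI_good p N S hpS hNS ℓ hℓ hℓS'
    refine ⟨?_, FA_S30_CY_d_frob p (algebraMap ℤ_[p] 𝒪') hℓ hℓp A hA τ hτ⟩
    have h := FA_S30_LJ_frob p N 𝒪' P a hℓ (hP ℓ hℓ hℓN hℓS') hℓNp A hA τ hτ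
    rw [FA_S30_WI_aN_prime 𝒪' a hℓ]
    exact h
  exact FA_S30_QD_main hsep (FA_S30_LJ_rho p N 𝒪' P a) (FA_S30_CY_d p (algebraMap ℤ_[p] 𝒪')) S
    (FA_S30_WI_aN 𝒪' a) hc hE g

/-- The statement S30 from the eigen-lattice, with opaque `P`, `a`. -/
theorem FA_S30_WI_aux [IsAdicComplete (IsLocalRing.maximalIdeal 𝒪') 𝒪']
    [Finite (IsLocalRing.ResidueField 𝒪')] [CharZero 𝒪']
    (hpS : p ∈ S) (hNS : ∀ q : ℕ, q.Prime → q ∣ N → q ∈ S)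
    (hp𝒪' : (p : 𝒪') ∈ IsLocalRing.maximalIdeal 𝒪')
    (hinj : Function.Injective (algebraMap ℤ_[p] 𝒪'))
    (hP : ∀ (ℓ : ℕ) (hℓ : ℓ.Prime), ¬ ℓ ∣ N → ℓ ∉ (↑S : Set ℕ) → (⟨ℓ, hℓ⟩ : Nat.Primes) ∈ P)
    (hP' : ∀ ℓ ∈ P, ¬ ((ℓ : Nat.Primes) : ℕ) ∣ N ∧ ((ℓ : Nat.Primes) : ℕ) ∉ (↑S : Set ℕ))
    (ha : ∀ (ℓ : ℕ) (hℓ : ℓ.Prime) (hℓN : ¬ ℓ ∣ N) (hℓS : ℓ ∉ (↑S : Set ℕ)),
      a ⟨ℓ, hℓ⟩ = χ (heckeAlgebra.T hℓ hℓN hℓS)) :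
    ∃ (𝒪'' : Type) (_ : CommRing 𝒪'') (_ : IsDomain 𝒪'') (_ : IsDiscreteValuationRing 𝒪'')
      (_ : IsAdicComplete (IsLocalRing.maximalIdeal 𝒪'') 𝒪'')
      (_ : Finite (IsLocalRing.ResidueField 𝒪'')) (_ : CharZero 𝒪'')
      (_ : Algebra 𝒪' 𝒪'') (_ : Module.Finite 𝒪' 𝒪'') (_ : IsLocalHom (algebraMap 𝒪' 𝒪'')),
    Function.Injective (algebraMap 𝒪' 𝒪'') ∧
    ∃ ρ : GaloisRepAdic 𝒪'',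
      (∀ (ℓ : ℕ) (hℓ : ℓ.Prime) (hℓN : ¬ ℓ ∣ N) (hℓS : ℓ ∉ (↑S : Set ℕ)),
        ∀ A : ValuationSubring (AlgebraicClosure ℚ), A.LiesOverPrime ℓ →
          ∀ σ : AlgebraicClosure ℚ ≃ₐ[ℚ] AlgebraicClosure ℚ, A.IsFrobeniusAt σ ℓ →
            LinearMap.charpoly (ρ.ρ σ) =
              X ^ 2 - C (algebraMap 𝒪' 𝒪'' (χ (CuspForm.heckeAlgebra.T hℓ hℓN hℓS))) * X
                + C ((ℓ : 𝒪''))) ∧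
      (∀ q : ℕ, q.Prime → ¬ q ∣ N → q ≠ p → ρ.IsUnramifiedAt q) := by
  have hpp : p.Prime := Fact.out
  have hp0 : (p : 𝒪') ≠ 0 := Nat.cast_ne_zero.mpr hpp.ne_zero
  haveI hfin : Module.Finite 𝒪' ↥(FA_S30_LJ_Lam p N 𝒪' P a) := FA_S30_LJ_finite p N 𝒪' P a
  haveI hfree : Module.Free 𝒪' ↥(FA_S30_LJ_Lam p N 𝒪' P a) := FA_S30_LJ_free p N 𝒪' P a
  haveI hnt : Nontrivial ↥(FA_S30_LJ_Lam p N 𝒪' P a) :=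
    Submodule.nontrivial_iff_ne_bot.mpr (FA_S30_WI_ne_bot p N S 𝒪' χ P a hinj hP' ha)
  have hcont := FA_S30_WI_hcont p N 𝒪' P a hp0 hp𝒪'
  have hES : ∀ (ℓ : ℕ) (hℓ : ℓ.Prime) (hℓN : ¬ ℓ ∣ N) (hℓS : ℓ ∉ (↑S : Set ℕ)),
      ∀ A : ValuationSubring (AlgebraicClosure ℚ), A.LiesOverPrime ℓ →
        ∀ τ : AlgebraicClosure ℚ ≃ₐ[ℚ] AlgebraicClosure ℚ, A.IsFrobeniusAt τ ℓ →
          FA_S30_LJ_rho p N 𝒪' P a τ * FA_S30_LJ_rho p N 𝒪' P a τ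
              - χ (CuspForm.heckeAlgebra.T hℓ hℓN hℓS) • FA_S30_LJ_rho p N 𝒪' P a τ
              + (ℓ : 𝒪') • (1 : Module.End 𝒪' ↥(FA_S30_LJ_Lam p N 𝒪' P a)) = 0 ∧
            ((FA_S30_CY_d p (algebraMap ℤ_[p] 𝒪') τ : 𝒪'ˣ) : 𝒪') = (ℓ : 𝒪') := by
    intro ℓ hℓ hℓN hℓS A hA τ hτ
    obtain ⟨-, hℓp, hℓNp⟩ := FA_S30_WI_good p N S hpS hNS ℓ hℓ hℓS
    exact ⟨FA_S30_WI_hES p N S 𝒪' χ P a hP ha ℓ hℓ hℓN hℓS hℓNp A hA τ hτ,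
      FA_S30_CY_d_frob p (algebraMap ℤ_[p] 𝒪') hℓ hℓp A hA τ hτ⟩
  have hin : ∀ q : ℕ, q.Prime → ¬ q ∣ N → q ≠ p →
      ∀ Pv : ValuationSubring (AlgebraicClosure ℚ), Pv.LiesOverPrime q →
        ∀ σ ∈ Pv.inertiaSubgroupIn ℚ, FA_S30_LJ_rho p N 𝒪' P a σ = 1 ∧
          FA_S30_CY_d p (algebraMap ℤ_[p] 𝒪') σ = 1 := by
    intro q hq hqN hqp Pv hPv σ hσ
    exact ⟨FA_S30_LJ_inertia p N 𝒪' P a hq (FA_S30_WI_not_dvd p N hq hqN hqp) Pv hPv σ hσ,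
      FA_S30_CY_d_inertia p (algebraMap ℤ_[p] 𝒪') hq hqp Pv hPv σ hσ⟩
  have hquad : ∀ g : AlgebraicClosure ℚ ≃ₐ[ℚ] AlgebraicClosure ℚ, ∃ t : 𝒪',
      FA_S30_LJ_rho p N 𝒪' P a g * FA_S30_LJ_rho p N 𝒪' P a g - t • FA_S30_LJ_rho p N 𝒪' P a g
        + ((FA_S30_CY_d p (algebraMap ℤ_[p] 𝒪') g : 𝒪'ˣ) : 𝒪') •
          (1 : Module.End 𝒪' ↥(FA_S30_LJ_Lam p N 𝒪' P a)) = 0 :=
    fun g => FA_S30_WI_hquad p N S 𝒪' χ P a hpS hNS hp0 hp𝒪' hP ha g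
  have h2ne : (2 : 𝒪') ≠ 0 := two_ne_zero
  have hdc : FA_S30_CY_d p (algebraMap ℤ_[p] 𝒪') complexConjugation = -1 := by
    apply Units.ext
    rw [Units.val_neg, Units.val_one]
    exact FA_S30_CY_d_conj p (algebraMap ℤ_[p] 𝒪')
  obtain ⟨ρ', h1, h2, h3⟩ := FA_S30_OD_main h2ne (FA_S30_LJ_rho p N 𝒪' P a)
    (FA_S30_CY_d p (algebraMap ℤ_[p] 𝒪')) complexConjugation
    complexConjugation_mul_self hdc hquad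
  exact FA_S30_AS_main p N S 𝒪' χ (FA_S30_LJ_rho p N 𝒪' P a)
    (FA_S30_CY_d p (algebraMap ℤ_[p] 𝒪')) hcont hES hin (Fin 2 → 𝒪')
    (Module.finrank_fin_fun 𝒪') ρ' h1 h2 h3

end pieces

/-- **Statement S30.** -/
theorem FA_S30_WI_main (p : ℕ) [Fact p.Prime] (N : ℕ) [NeZero N] (S : Finset ℕ)
    (hpS : p ∈ S) (hNS : ∀ q : ℕ, q.Prime → q ∣ N → q ∈ S)
    (𝒪' : Type) [CommRing 𝒪'] [IsDomain 𝒪'] [IsDiscreteValuationRing 𝒪']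
    [IsAdicComplete (IsLocalRing.maximalIdeal 𝒪') 𝒪'] [Finite (IsLocalRing.ResidueField 𝒪')]
    [CharZero 𝒪'] (hp𝒪' : (p : 𝒪') ∈ IsLocalRing.maximalIdeal 𝒪')
    (χ : CuspForm.heckeAlgebra N 2 (↑S : Set ℕ) →+* 𝒪') :
    ∃ (𝒪'' : Type) (_ : CommRing 𝒪'') (_ : IsDomain 𝒪'') (_ : IsDiscreteValuationRing 𝒪'')
      (_ : IsAdicComplete (IsLocalRing.maximalIdeal 𝒪'') 𝒪'')
      (_ : Finite (IsLocalRing.ResidueField 𝒪'')) (_ : CharZero 𝒪'')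
      (_ : Algebra 𝒪' 𝒪'') (_ : Module.Finite 𝒪' 𝒪'') (_ : IsLocalHom (algebraMap 𝒪' 𝒪'')),
    Function.Injective (algebraMap 𝒪' 𝒪'') ∧
    ∃ ρ : GaloisRepAdic 𝒪'',
      (∀ (ℓ : ℕ) (hℓ : ℓ.Prime) (hℓN : ¬ ℓ ∣ N) (hℓS : ℓ ∉ (↑S : Set ℕ)),
        ∀ A : ValuationSubring (AlgebraicClosure ℚ), A.LiesOverPrime ℓ →
          ∀ σ : AlgebraicClosure ℚ ≃ₐ[ℚ] AlgebraicClosure ℚ, A.IsFrobeniusAt σ ℓ →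
            LinearMap.charpoly (ρ.ρ σ) =
              X ^ 2 - C (algebraMap 𝒪' 𝒪'' (χ (CuspForm.heckeAlgebra.T hℓ hℓN hℓS))) * X
                + C ((ℓ : 𝒪''))) ∧
      (∀ q : ℕ, q.Prime → ¬ q ∣ N → q ≠ p → ρ.IsUnramifiedAt q) := by
  classical
  letI algZp : Algebra ℤ_[p] 𝒪' := (FA_S30_CY_iota p 𝒪' hp𝒪').toAlgebra
  have hinj : Function.Injective (algebraMap ℤ_[p] 𝒪') := FA_S30_CY_iota_injective p hp𝒪'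
  refine FA_S30_WI_aux p N S 𝒪' χ
    {ℓ : Nat.Primes | ¬ (ℓ : ℕ) ∣ N ∧ (ℓ : ℕ) ∉ (↑S : Set ℕ)}
    (fun ℓ => if h : ¬ (ℓ : ℕ) ∣ N ∧ (ℓ : ℕ) ∉ (↑S : Set ℕ) then
      χ (heckeAlgebra.T ℓ.2 h.1 h.2) else 0) hpS hNS hp𝒪' hinj ?_ ?_ ?_
  · intro ℓ hℓ hℓN hℓS
    exact ⟨hℓN, hℓS⟩
  · intro ℓ hℓ
    exact hℓ
  · intro ℓ hℓ hℓN hℓS
    exact dif_pos (show ¬ ((⟨ℓ, hℓ⟩ : Nat.Primes) : ℕ) ∣ N ∧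
      ((⟨ℓ, hℓ⟩ : Nat.Primes) : ℕ) ∉ (↑S : Set ℕ) from ⟨hℓN, hℓS⟩)

end Fermat.Agent.S30

end
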