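import Mathlib
import Fermat.Prelude.Def_CuspForm_HeckeGaloisRepDatum

/-!
# S30: the abstract final assembly

From a representation `ρ` of `Γ = Gal(ℚ̄/ℚ)` on a module `Λ` over `𝒪'` with the Eichler–Shimura
relation at the Frobenius elements and trivial inertia, a character `d`, and a rank-2 representation
`ρ'` satisfying the conclusions (i)–(iii) of the algebra leaf, we get the exact conclusion of
statement S30 with `𝒪'' := 𝒪'`.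
-/

set_option autoImplicit false
set_option linter.style.haveILetI false
set_option linter.unusedSectionVars false
set_option linter.unusedVariables false

noncomputable section

open Polynomial CuspForm IsLocalRing

namespace Fermat.Agent.S30

/-- **The abstract final assembly of S30.** -/
theorem FA_S30_AS_main (p : ℕ) [Fact p.Prime] (N : ℕ) [NeZero N] (S : Finset ℕ)
    (𝒪' : Type) [CommRing 𝒪'] [IsDomain 𝒪'] [IsDiscreteValuationRing 𝒪']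
    [IsAdicComplete (IsLocalRing.maximalIdeal 𝒪') 𝒪'] [Finite (IsLocalRing.ResidueField 𝒪')]
    [CharZero 𝒪']
    (χ : CuspForm.heckeAlgebra N 2 (↑S : Set ℕ) →+* 𝒪')
    {Λ : Type*} [AddCommGroup Λ] [Module 𝒪' Λ]
    (ρ : (AlgebraicClosure ℚ ≃ₐ[ℚ] AlgebraicClosure ℚ) →* Module.End 𝒪' Λ)
    (d : (AlgebraicClosure ℚ ≃ₐ[ℚ] AlgebraicClosure ℚ) →* 𝒪'ˣ)
    (hcont : ∀ n : ℕ, ∃ L : IntermediateField ℚ (AlgebraicClosure ℚ), FiniteDimensional ℚ L ∧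
      ∀ σ : AlgebraicClosure ℚ ≃ₐ[ℚ] AlgebraicClosure ℚ, (∀ x ∈ L, σ x = x) →
        (∀ v : Λ, ρ σ v - v ∈ (maximalIdeal 𝒪' ^ n) • (⊤ : Submodule 𝒪' Λ)) ∧
          (((d σ : 𝒪'ˣ) : 𝒪') - 1 ∈ maximalIdeal 𝒪' ^ n))
    (hES : ∀ (ℓ : ℕ) (hℓ : ℓ.Prime) (hℓN : ¬ ℓ ∣ N) (hℓS : ℓ ∉ (↑S : Set ℕ)),
      ∀ A : ValuationSubring (AlgebraicClosure ℚ), A.LiesOverPrime ℓ →
        ∀ τ : AlgebraicClosure ℚ ≃ₐ[ℚ] AlgebraicClosure ℚ, A.IsFrobeniusAt τ ℓ →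
          ρ τ * ρ τ - χ (CuspForm.heckeAlgebra.T hℓ hℓN hℓS) • ρ τ
              + (ℓ : 𝒪') • (1 : Module.End 𝒪' Λ) = 0 ∧
            ((d τ : 𝒪'ˣ) : 𝒪') = (ℓ : 𝒪'))
    (hin : ∀ q : ℕ, q.Prime → ¬ q ∣ N → q ≠ p →
      ∀ P : ValuationSubring (AlgebraicClosure ℚ), P.LiesOverPrime q →
        ∀ σ ∈ P.inertiaSubgroupIn ℚ, ρ σ = 1 ∧ d σ = 1)
    (V : Type) [AddCommGroup V] [Module 𝒪' V] [Module.Free 𝒪' V] [Module.Finite 𝒪' V]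
    (hV : Module.finrank 𝒪' V = 2)
    (ρ' : (AlgebraicClosure ℚ ≃ₐ[ℚ] AlgebraicClosure ℚ) →* Module.End 𝒪' V)
    (h1 : ∀ (g : AlgebraicClosure ℚ ≃ₐ[ℚ] AlgebraicClosure ℚ) (t : 𝒪'),
      ρ g * ρ g - t • ρ g + ((d g : 𝒪'ˣ) : 𝒪') • (1 : Module.End 𝒪' Λ) = 0 →
        LinearMap.charpoly (ρ' g) = X ^ 2 - C t * X + C ((d g : 𝒪'ˣ) : 𝒪'))
    (h2 : ∀ (g : AlgebraicClosure ℚ ≃ₐ[ℚ] AlgebraicClosure ℚ) (n : ℕ),
      (∀ v : Λ, ρ g v - v ∈ (maximalIdeal 𝒪' ^ n) • (⊤ : Submodule 𝒪' Λ)) →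
        ((d g : 𝒪'ˣ) : 𝒪') - 1 ∈ maximalIdeal 𝒪' ^ n →
          ∀ v : V, ρ' g v - v ∈ (maximalIdeal 𝒪' ^ n) • (⊤ : Submodule 𝒪' V))
    (h3 : ∀ g : AlgebraicClosure ℚ ≃ₐ[ℚ] AlgebraicClosure ℚ, ρ g = 1 → d g = 1 → ρ' g = 1) :
    ∃ (𝒪'' : Type) (_ : CommRing 𝒪'') (_ : IsDomain 𝒪'') (_ : IsDiscreteValuationRing 𝒪'')
      (_ : IsAdicComplete (IsLocalRing.maximalIdeal 𝒪'') 𝒪'')
      (_ : Finite (IsLocalRing.ResidueField 𝒪'')) (_ : CharZero 𝒪'')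
      (_ : Algebra 𝒪' 𝒪'') (_ : Module.Finite 𝒪' 𝒪'') (_ : IsLocalHom (algebraMap 𝒪' 𝒪'')),
    Function.Injective (algebraMap 𝒪' 𝒪'') ∧
    ∃ ρ₀ : GaloisRepAdic 𝒪'',
      (∀ (ℓ : ℕ) (hℓ : ℓ.Prime) (hℓN : ¬ ℓ ∣ N) (hℓS : ℓ ∉ (↑S : Set ℕ)),
        ∀ A : ValuationSubring (AlgebraicClosure ℚ), A.LiesOverPrime ℓ →
          ∀ σ : AlgebraicClosure ℚ ≃ₐ[ℚ] AlgebraicClosure ℚ, A.IsFrobeniusAt σ ℓ →
            LinearMap.charpoly (ρ₀.ρ σ) =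
              X ^ 2 - C (algebraMap 𝒪' 𝒪'' (χ (CuspForm.heckeAlgebra.T hℓ hℓN hℓS))) * X
                + C ((ℓ : 𝒪''))) ∧
      (∀ q : ℕ, q.Prime → ¬ q ∣ N → q ≠ p → ρ₀.IsUnramifiedAt q) := by
  refine ⟨𝒪', inferInstance, inferInstance, inferInstance, inferInstance, inferInstance,
    inferInstance, Algebra.id 𝒪', inferInstance, ?_, ?_, ?_⟩
  · exact ⟨fun _ ha => ha⟩
  · exact fun x y h => h
  · let ρ₀ : GaloisRepAdic 𝒪' :=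
      { V := V
        finrank_eq := hV
        ρ := ρ'
        isAdicContinuous := by
          intro n
          obtain ⟨L, hL, hLσ⟩ := hcont n
          refine ⟨L, hL, fun σ hσ v => ?_⟩
          obtain ⟨c1, c2⟩ := hLσ σ hσ
          exact h2 σ n c1 c2 v }
    refine ⟨ρ₀, ?_, ?_⟩
    · intro ℓ hℓ hℓN hℓS A hA σ hσ
      obtain ⟨hrel, hd⟩ := hES ℓ hℓ hℓN hℓS A hA σ hσ
      rw [← hd] at hrel
      have := h1 σ _ hrel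
      rw [hd] at this
      exact this
    · intro q hq hqN hqp P hP σ hσ
      obtain ⟨e1, e2⟩ := hin q hq hqN hqp P hP σ hσ
      exact h3 σ e1 e2

end Fermat.Agent.S30

end
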