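import Fermat.Agent.S30.LatticeJ
import Fermat.Agent.S30.EigCharMain

/-!
# S30, glue G2: from a character of the Hecke algebra to a nonzero eigen-lattice

`χ : heckeAlgebra N 2 S →+* R`, `R` a domain, flat over `ℤ_p`.

* `FA_S30_BR_P N S` : the set of primes `ℓ ∤ N`, `ℓ ∉ S`;
* `FA_S30_BR_a N S χ` : the eigenvalues `ℓ ↦ χ(T_ℓ)` (zero outside `P`);
* `FA_S30_BR_hu` : the hypothesis `hu` of `FA_S30_LJ_Lam_ne_bot`;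
* `FA_S30_BR_ne_bot`, `FA_S30_BR_nontrivial` : the eigen-lattice is nonzero.
-/

set_option autoImplicit false
set_option linter.unusedSectionVars false
set_option linter.unusedVariables false
set_option linter.style.haveILetI false
set_option synthInstance.maxHeartbeats 400000
set_option maxHeartbeats 1000000

noncomputable section

open ModularCurve AlgebraicCurve Fermat.Agent.S29 TensorProduct IsLocalRing CongruenceSubgroup Period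
  CuspForm

namespace Fermat.Agent.S30

variable (N : ℕ) [NeZero N] (S : Set ℕ)

/-- The primes `ℓ ∤ N`, `ℓ ∉ S`. -/
def FA_S30_BR_P : Set Nat.Primes := {ℓ | ¬ (ℓ : ℕ) ∣ N ∧ (ℓ : ℕ) ∉ S}

theorem FA_S30_BR_mem_P (ℓ : Nat.Primes) :
    ℓ ∈ FA_S30_BR_P N S ↔ ¬ (ℓ : ℕ) ∣ N ∧ (ℓ : ℕ) ∉ S := Iff.rfl

open Classical in
/-- The eigenvalues `ℓ ↦ χ(T_ℓ)`. -/
def FA_S30_BR_a {R : Type} [CommRing R] (χ : heckeAlgebra N 2 S →+* R) : Nat.Primes → R :=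
  fun ℓ => if h : ¬ (ℓ : ℕ) ∣ N ∧ (ℓ : ℕ) ∉ S then χ (heckeAlgebra.T ℓ.2 h.1 h.2) else 0

theorem FA_S30_BR_a_eq {R : Type} [CommRing R] (χ : heckeAlgebra N 2 S →+* R) {ℓ : ℕ}
    (hℓ : ℓ.Prime) (hℓN : ¬ ℓ ∣ N) (hℓS : ℓ ∉ S) :
    FA_S30_BR_a N S χ ⟨ℓ, hℓ⟩ = χ (heckeAlgebra.T hℓ hℓN hℓS) := by
  unfold FA_S30_BR_a
  rw [dif_pos ⟨hℓN, hℓS⟩]

/-- The hypothesis `hu` of `FA_S30_LJ_Lam_ne_bot`. -/
theorem FA_S30_BR_hu {R : Type} [CommRing R] [IsDomain R] (χ : heckeAlgebra N 2 S →+* R) :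
    ∃ u : R ⊗[ℤ] ↥(parabolicHoms ℤ (Gamma0 N) ℤ), u ≠ 0 ∧
      ∀ ℓ ∈ FA_S30_BR_P N S, (FA_S29_EIG_TH N ℓ).baseChange R u = FA_S30_BR_a N S χ ℓ • u := by
  obtain ⟨u, hu, h⟩ := FA_S30_EC_main N S χ
  refine ⟨u, hu, fun ℓ hℓ => ?_⟩
  obtain ⟨ℓ, hℓp⟩ := ℓ
  rw [FA_S30_BR_a_eq N S χ hℓp hℓ.1 hℓ.2]
  exact h ℓ hℓp hℓ.1 hℓ.2

variable (p : ℕ) [hp : Fact p.Prime]

/-- **The eigen-lattice of `χ` is nonzero.** -/
theorem FA_S30_BR_ne_bot (R : Type) [CommRing R] [IsDomain R] [Algebra ℤ_[p] R]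
    [Module.Flat ℤ_[p] R] (χ : heckeAlgebra N 2 S →+* R) :
    FA_S30_LJ_Lam p N R (FA_S30_BR_P N S) (FA_S30_BR_a N S χ) ≠ ⊥ :=
  FA_S30_LJ_Lam_ne_bot p N R _ _ (fun ℓ hℓ => hℓ.1) (FA_S30_BR_hu N S χ)

theorem FA_S30_BR_nontrivial (R : Type) [CommRing R] [IsDomain R] [Algebra ℤ_[p] R]
    [Module.Flat ℤ_[p] R] (χ : heckeAlgebra N 2 S →+* R) :
    Nontrivial ↥(FA_S30_LJ_Lam p N R (FA_S30_BR_P N S) (FA_S30_BR_a N S χ)) :=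
  (Submodule.nontrivial_iff_ne_bot).mpr (FA_S30_BR_ne_bot N S p R χ)

/-- Eichler–Shimura on the eigen-lattice of `χ`, with `χ(T_ℓ)`. -/
theorem FA_S30_BR_frob (R : Type) [CommRing R] [Algebra ℤ_[p] R]
    (χ : heckeAlgebra N 2 S →+* R) {ℓ : ℕ} (hℓ : ℓ.Prime) (hℓN : ¬ ℓ ∣ N) (hℓS : ℓ ∉ S)
    (hℓp : ℓ ≠ p)
    (A : ValuationSubring (AlgebraicClosure ℚ)) (hA : A.LiesOverPrime ℓ)
    (τ : AlgebraicClosure ℚ ≃ₐ[ℚ] AlgebraicClosure ℚ) (hτ : A.IsFrobeniusAt τ ℓ) :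
    FA_S30_LJ_rho p N R (FA_S30_BR_P N S) (FA_S30_BR_a N S χ) τ
        * FA_S30_LJ_rho p N R (FA_S30_BR_P N S) (FA_S30_BR_a N S χ) τ
      - χ (heckeAlgebra.T hℓ hℓN hℓS) • FA_S30_LJ_rho p N R (FA_S30_BR_P N S) (FA_S30_BR_a N S χ) τ
      + (ℓ : R) • (1 : Module.End R ↥(FA_S30_LJ_Lam p N R (FA_S30_BR_P N S) (FA_S30_BR_a N S χ)))
      = 0 := by
  have hℓNp : ¬ ℓ ∣ N * p := by
    intro h
    rcases (Nat.Prime.dvd_mul hℓ).mp h with h1 | h1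
    · exact hℓN h1
    · exact hℓp ((Nat.prime_dvd_prime_iff_eq hℓ hp.out).mp h1)
  have h := FA_S30_LJ_frob p N R (FA_S30_BR_P N S) (FA_S30_BR_a N S χ) hℓ ⟨hℓN, hℓS⟩ hℓNp A hA τ hτ
  rw [FA_S30_BR_a_eq N S χ hℓ hℓN hℓS] at h
  exact h

end Fermat.Agent.S30

end
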