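import Mathlib

/-!
# S30, leaf T6, abstract part: eigen-functionals on a faithful finite module

`R` a commutative ring, `M` a finite faithful `R`-module generated by `v 1, …, v n`, `𝔭` a prime
ideal of `R`.  Then there is an additive map `lam : M → κ(𝔭)` with `lam (t • m) = t̄ * lam m`
which does not vanish on all `v j`.
-/

set_option autoImplicit false
set_option linter.unusedSectionVars false
set_option linter.unusedVariables false
set_option linter.style.haveILetI false

noncomputable section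

namespace Fermat.Agent.S30

open scoped TensorProduct

theorem FA_S30_EC_abs {R : Type*} [CommRing R] {M : Type*} [AddCommGroup M] [Module R M]
    [Module.Finite R M] (hann : Module.annihilator R M = ⊥) (𝔭 : Ideal R) [h𝔭 : 𝔭.IsPrime]
    {n : ℕ} (v : Fin n → M) (hv : Submodule.span R (Set.range v) = ⊤) :
    ∃ lam : M →+ 𝔭.ResidueField,
      (∀ (t : R) (m : M), lam (t • m) = algebraMap R 𝔭.ResidueField t * lam m) ∧
      (fun j => lam (v j)) ≠ 0 := by
  classical
  set κ := 𝔭.ResidueField with hκ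
  let pt : PrimeSpectrum R := ⟨𝔭, h𝔭⟩
  have hsupp : pt ∈ Module.support R M := by
    rw [Module.support_eq_zeroLocus, hann]
    simp
  haveI hnt : Nontrivial (κ ⊗[R] M) :=
    (Module.mem_support_iff_nontrivial_residueField_tensorProduct pt).mp hsupp
  obtain ⟨x, hx⟩ := exists_ne (0 : κ ⊗[R] M)
  obtain ⟨Λ, hΛ⟩ : ∃ Λ : Module.Dual κ (κ ⊗[R] M), Λ x ≠ 0 := by
    by_contra hcon
    exact hx ((Module.forall_dual_apply_eq_zero_iff κ x).mp fun φ => by
      by_contra hφ
      exact hcon ⟨φ, hφ⟩)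
  let lam : M →+ κ :=
    { toFun := fun m => Λ ((1 : κ) ⊗ₜ[R] m)
      map_zero' := by rw [TensorProduct.tmul_zero, map_zero]
      map_add' := fun a b => by rw [TensorProduct.tmul_add, map_add] }
  have hlam : ∀ (t : R) (m : M), lam (t • m) = algebraMap R κ t * lam m := by
    intro t m
    have e1 : (1 : κ) ⊗ₜ[R] (t • m) = (algebraMap R κ t) • ((1 : κ) ⊗ₜ[R] m) := by
      rw [TensorProduct.tmul_smul, TensorProduct.smul_tmul', TensorProduct.smul_tmul',
        Algebra.smul_def, smul_eq_mul]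
    show Λ ((1 : κ) ⊗ₜ[R] (t • m)) = algebraMap R κ t * Λ ((1 : κ) ⊗ₜ[R] m)
    rw [e1, map_smul, smul_eq_mul]
  refine ⟨lam, hlam, ?_⟩
  intro h0
  apply hΛ
  have h1 : ∀ j, lam (v j) = 0 := fun j => congrFun h0 j
  -- `lam` vanishes on `M`
  have h2 : ∀ m : M, ∀ a : κ, Λ (a ⊗ₜ[R] m) = 0 := by
    intro m
    have hm : m ∈ Submodule.span R (Set.range v) := by
      rw [hv]
      exact Submodule.mem_top
    induction hm using Submodule.span_induction with
    | mem y hy =>
      obtain ⟨j, rfl⟩ := hy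
      intro a
      have e : a ⊗ₜ[R] (v j) = a • ((1 : κ) ⊗ₜ[R] v j) := by
        rw [TensorProduct.smul_tmul', smul_eq_mul, mul_one]
      rw [e, map_smul]
      have := h1 j
      have h3 : Λ ((1 : κ) ⊗ₜ[R] v j) = 0 := this
      rw [h3, smul_zero]
    | zero =>
      intro a
      rw [TensorProduct.tmul_zero, map_zero]
    | add y z _ _ ihy ihz =>
      intro a
      rw [TensorProduct.tmul_add, map_add, ihy a, ihz a, add_zero]
    | smul t y _ ih =>
      intro a
      rw [TensorProduct.tmul_smul, TensorProduct.smul_tmul']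
      exact ih (t • a)
  have h4 : ∀ z : κ ⊗[R] M, Λ z = 0 := by
    intro z
    induction z using TensorProduct.induction_on with
    | zero => exact map_zero Λ
    | tmul a m => exact h2 m a
    | add u w hu hw => rw [map_add, hu, hw, add_zero]
  exact h4 x

/-- **Abstract eigenvector**: for a finite faithful `R`-module `M` generated by `v 1, …, v n` and
a ring homomorphism `χ : R → 𝒪'` to a domain, there is a nonzero vector `w ∈ 𝒪'^n` which is an
eigenvector with eigenvalue `χ t` of every integral matrix `A` describing the action of `t` on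
the generators. -/
theorem FA_S30_EC_abs_dom {R : Type*} [CommRing R] {M : Type*} [AddCommGroup M] [Module R M]
    [Module.Finite R M] (hann : Module.annihilator R M = ⊥)
    {𝒪' : Type*} [CommRing 𝒪'] [IsDomain 𝒪'] (χ : R →+* 𝒪')
    {n : ℕ} (v : Fin n → M) (hv : Submodule.span R (Set.range v) = ⊤) :
    ∃ w : Fin n → 𝒪', w ≠ 0 ∧
      ∀ (t : R) (A : Fin n → Fin n → ℤ), (∀ m, t • v m = ∑ j, A m j • v j) →
        ∀ m, ∑ j, ((A m j : ℤ) : 𝒪') * w j = χ t * w m := by
  classical
  let K := FractionRing 𝒪'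
  let f : R →+* K := (algebraMap 𝒪' K).comp χ
  let 𝔭 : Ideal R := RingHom.ker f
  haveI h𝔭 : 𝔭.IsPrime := RingHom.ker_isPrime f
  obtain ⟨lam, hlam, hne⟩ := FA_S30_EC_abs hann 𝔭 v hv
  have hf₁ : 𝔭 ≤ RingHom.ker f := le_rfl
  have hf₂ : 𝔭.primeCompl ≤ (IsUnit.submonoid K).comap f := by
    intro x hx
    show IsUnit (f x)
    rw [isUnit_iff_ne_zero]
    intro h0
    exact hx (RingHom.mem_ker.mpr h0)
  let ι : 𝔭.ResidueField →+* K := Ideal.ResidueField.lift 𝔭 f hf₁ hf₂
  have hι : ∀ t : R, ι (algebraMap R 𝔭.ResidueField t) = f t :=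
    fun t => Ideal.ResidueField.lift_algebraMap 𝔭 f hf₁ hf₂ t
  have hιinj : Function.Injective ι := ι.injective
  -- the eigenvector over `K`
  let w₀ : Fin n → K := fun j => ι (lam (v j))
  have hw₀ : ∃ j, w₀ j ≠ 0 := by
    by_contra hcon
    apply hne
    funext j
    have h1 : w₀ j = 0 := by
      by_contra h2
      exact hcon ⟨j, h2⟩
    have h3 : ι (lam (v j)) = ι 0 := by
      rw [map_zero]
      exact h1
    exact hιinj h3
  have hEq : ∀ (t : R) (A : Fin n → Fin n → ℤ), (∀ m, t • v m = ∑ j, A m j • v j) →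
      ∀ m, ∑ j, ((A m j : ℤ) : K) * w₀ j = f t * w₀ m := by
    intro t A hA m
    have h1 := congrArg lam (hA m)
    rw [hlam, map_sum] at h1
    have h2 := congrArg ι h1
    rw [map_mul, hι, map_sum] at h2
    rw [h2]
    refine Finset.sum_congr rfl fun j _ => ?_
    rw [map_zsmul, map_zsmul, zsmul_eq_mul]
  -- clear denominators
  obtain ⟨b, hb⟩ := IsLocalization.exist_integer_multiples_of_finite (nonZeroDivisors 𝒪') w₀
  choose w hw using hb
  have hb0 : algebraMap 𝒪' K (b : 𝒪') ≠ 0 := by
    intro h0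
    have : (b : 𝒪') = 0 := IsFractionRing.injective 𝒪' K (by rw [h0, map_zero])
    exact nonZeroDivisors.coe_ne_zero b this
  have hw' : ∀ j, algebraMap 𝒪' K (w j) = algebraMap 𝒪' K (b : 𝒪') * w₀ j := by
    intro j
    rw [hw j, Algebra.smul_def]
  refine ⟨w, ?_, ?_⟩
  · intro h0
    obtain ⟨j, hj⟩ := hw₀
    have h1 := hw' j
    rw [h0, Pi.zero_apply, map_zero] at h1
    rcases mul_eq_zero.mp h1.symm with h | h
    · exact hb0 h
    · exact hj h
  · intro t A hA m
    apply IsFractionRing.injective 𝒪' K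
    rw [map_sum, map_mul, hw' m]
    have h3 := hEq t A hA m
    have e1 : ∀ j, algebraMap 𝒪' K (((A m j : ℤ) : 𝒪') * w j)
        = algebraMap 𝒪' K (b : 𝒪') * (((A m j : ℤ) : K) * w₀ j) := by
      intro j
      rw [map_mul, hw' j, map_intCast]
      ring
    rw [Finset.sum_congr rfl fun j _ => e1 j, ← Finset.mul_sum, h3]
    show _ = algebraMap 𝒪' K (χ t) * _
    show algebraMap 𝒪' K (b : 𝒪') * (algebraMap 𝒪' K (χ t) * w₀ m) = _
    ring

end Fermat.Agent.S30
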