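import Fermat.Agent.S30.EigCoord
import Fermat.Agent.S30.EigCharAbs

/-!
# S30, leaf T6: the eigenvector attached to a character of the Hecke algebra

`𝕋 = heckeAlgebra N 2 S`, `χ : 𝕋 →+* 𝒪'` a ring homomorphism to a domain.

* `FA_S30_EC_matrix` : there is `w ≠ 0` in `𝒪'^r` with `∑ j, A_ℓ m j * w j = χ(T_ℓ) * w m`
  for all primes `ℓ ∤ N`, `ℓ ∉ S` (`A_ℓ = FA_S29_EIG_A N ℓ`, the matrix of `T_ℓ` on
  `H = parabolicHoms ℤ (Gamma0 N) ℤ` in the basis `FA_S29_EIG_basis N`);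
* `FA_S30_EC_main` : there is `u ≠ 0` in `𝒪' ⊗[ℤ] H` with
  `(FA_S29_EIG_TH N ℓ).baseChange 𝒪' u = χ(T_ℓ) • u`.

Proof: the coordinate functionals `v j` of the period map span a finitely generated faithful
`𝕋`-submodule `M` of the dual of `S₂`; so `ker χ` is in the support of `M`, and a nonzero linear
functional on `κ(ker χ) ⊗ M` gives the eigenvector.
-/

set_option autoImplicit false
set_option linter.unusedSectionVars false
set_option linter.unusedVariables false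
set_option linter.style.haveILetI false

noncomputable section

namespace Fermat.Agent.S30

open CuspForm ModularFormClass CongruenceSubgroup ModularCurve ModularCurve.Period
  FA_S16 FA_S22 FA_S21 Fermat.Agent.S29
open scoped MatrixGroups TensorProduct

variable (N : ℕ) [NeZero N] (S : Set ℕ)

/-- The transpose action of the Hecke algebra on the dual of `S₂`. -/
def FA_S30_EC_phi :
    heckeAlgebra N 2 S →+* Module.End ℂ (CuspForm (Gamma0 N) 2 →ₗ[ℂ] ℂ) where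
  toFun t :=
    { toFun := fun P => P.comp (t : Module.End ℂ (CuspForm (Gamma0 N) 2))
      map_add' := fun P Q => rfl
      map_smul' := fun a P => rfl }
  map_one' := by
    refine LinearMap.ext fun P => LinearMap.ext fun f => ?_
    rfl
  map_mul' a b := by
    refine LinearMap.ext fun P => LinearMap.ext fun f => ?_
    show P (((a * b : heckeAlgebra N 2 S) : Module.End ℂ (CuspForm (Gamma0 N) 2)) f)
      = P ((b : Module.End ℂ (CuspForm (Gamma0 N) 2))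
          ((a : Module.End ℂ (CuspForm (Gamma0 N) 2)) f))
    rw [mul_comm a b]
    rfl
  map_zero' := by
    refine LinearMap.ext fun P => LinearMap.ext fun f => ?_
    show P ((0 : Module.End ℂ (CuspForm (Gamma0 N) 2)) f) = 0
    rw [LinearMap.zero_apply, map_zero]
  map_add' a b := by
    refine LinearMap.ext fun P => LinearMap.ext fun f => ?_
    show P (((a : Module.End ℂ (CuspForm (Gamma0 N) 2))
        + (b : Module.End ℂ (CuspForm (Gamma0 N) 2))) f) = _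
    rw [LinearMap.add_apply, map_add]
    rfl

/-- The dual of `S₂`, as a module over the Hecke algebra. -/
def FA_S30_EC_V (N : ℕ) [NeZero N] (S : Set ℕ) : Type := CuspForm (Gamma0 N) 2 →ₗ[ℂ] ℂ

instance FA_S30_EC_V_acg : AddCommGroup (FA_S30_EC_V N S) :=
  inferInstanceAs (AddCommGroup (CuspForm (Gamma0 N) 2 →ₗ[ℂ] ℂ))

instance FA_S30_EC_V_module : Module (heckeAlgebra N 2 S) (FA_S30_EC_V N S) :=
  Module.compHom (CuspForm (Gamma0 N) 2 →ₗ[ℂ] ℂ) (FA_S30_EC_phi N S)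

/-- The evaluation of an element of the dual. -/
def FA_S30_EC_ev (f : CuspForm (Gamma0 N) 2) : FA_S30_EC_V N S →+ ℂ where
  toFun P := (show CuspForm (Gamma0 N) 2 →ₗ[ℂ] ℂ from P) f
  map_zero' := rfl
  map_add' _ _ := rfl

theorem FA_S30_EC_ev_smul (f : CuspForm (Gamma0 N) 2) (t : heckeAlgebra N 2 S)
    (P : FA_S30_EC_V N S) :
    FA_S30_EC_ev N S f (t • P)
      = FA_S30_EC_ev N S ((t : Module.End ℂ (CuspForm (Gamma0 N) 2)) f) P := rfl

theorem FA_S30_EC_ext {P Q : FA_S30_EC_V N S}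
    (h : ∀ f, FA_S30_EC_ev N S f P = FA_S30_EC_ev N S f Q) : P = Q :=
  LinearMap.ext (f := (show CuspForm (Gamma0 N) 2 →ₗ[ℂ] ℂ from P))
    (g := (show CuspForm (Gamma0 N) 2 →ₗ[ℂ] ℂ from Q)) h

/-- The coordinate functionals, as elements of `V`. -/
def FA_S30_EC_vV (j : Fin (FA_S29_EIG_r N)) : FA_S30_EC_V N S := FA_S30_EC_v N j

theorem FA_S30_EC_ev_vV (f : CuspForm (Gamma0 N) 2) (j : Fin (FA_S29_EIG_r N)) :
    FA_S30_EC_ev N S f (FA_S30_EC_vV N S j) = FA_S30_EC_v N j f := rfl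

/-- The Hecke operator `T_ℓ` on the coordinate functionals. -/
theorem FA_S30_EC_T_smul {ℓ : ℕ} (hℓ : ℓ.Prime) (hℓN : ¬ ℓ ∣ N) (hℓS : ℓ ∉ S)
    (m : Fin (FA_S29_EIG_r N)) :
    (heckeAlgebra.T hℓ hℓN hℓS : heckeAlgebra N 2 S) • FA_S30_EC_vV N S m
      = ∑ j, (FA_S29_EIG_A N ⟨ℓ, hℓ⟩ m j : ℤ) • FA_S30_EC_vV N S j := by
  apply FA_S30_EC_ext
  intro f
  rw [FA_S30_EC_ev_smul, map_sum]
  simp only [map_zsmul, FA_S30_EC_ev_vV]
  have h := FA_S30_EC_v_hecke (N := N) ⟨ℓ, hℓ⟩ f m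
  have e : ((heckeFormsGen N 2 ⟨ℓ, hℓ⟩ : heckeAlgebra N 2 ∅) :
      Module.End ℂ (CuspForm (Gamma0 N) 2))
      = ((heckeAlgebra.T hℓ hℓN hℓS : heckeAlgebra N 2 S) :
          Module.End ℂ (CuspForm (Gamma0 N) 2)) := by
    rw [heckeFormsGen_of_not_dvd (N := N) (k := 2) (ℓ := ⟨ℓ, hℓ⟩) hℓN]
    rfl
  rw [e] at h
  rw [h]
  refine Finset.sum_congr rfl fun j _ => ?_
  rw [zsmul_eq_mul]

/-- The submodule of `V` spanned by the coordinate functionals. -/
def FA_S30_EC_M : Submodule (heckeAlgebra N 2 S) (FA_S30_EC_V N S) :=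
  Submodule.span (heckeAlgebra N 2 S) (Set.range (FA_S30_EC_vV N S))

/-- The coordinate functionals, as elements of `M`. -/
def FA_S30_EC_vM (j : Fin (FA_S29_EIG_r N)) : ↥(FA_S30_EC_M N S) :=
  ⟨FA_S30_EC_vV N S j, Submodule.subset_span ⟨j, rfl⟩⟩

instance (priority := 2000) FA_S30_EC_M_acg : AddCommGroup ↥(FA_S30_EC_M N S) :=
  Submodule.addCommGroup (FA_S30_EC_M N S)

instance (priority := 2000) FA_S30_EC_M_module :
    Module (heckeAlgebra N 2 S) ↥(FA_S30_EC_M N S) :=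
  Submodule.module (FA_S30_EC_M N S)

instance (priority := 2000) FA_S30_EC_M_smul :
    SMul (heckeAlgebra N 2 S) ↥(FA_S30_EC_M N S) :=
  (FA_S30_EC_M_module N S).toSMul

instance FA_S30_EC_M_finite : Module.Finite (heckeAlgebra N 2 S) ↥(FA_S30_EC_M N S) :=
  Module.Finite.span_of_finite (heckeAlgebra N 2 S) (Set.finite_range (FA_S30_EC_vV N S))

theorem FA_S30_EC_T_smul_M {ℓ : ℕ} (hℓ : ℓ.Prime) (hℓN : ¬ ℓ ∣ N) (hℓS : ℓ ∉ S)
    (m : Fin (FA_S29_EIG_r N)) :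
    (heckeAlgebra.T hℓ hℓN hℓS : heckeAlgebra N 2 S) • FA_S30_EC_vM N S m
      = ∑ j, (FA_S29_EIG_A N ⟨ℓ, hℓ⟩ m j : ℤ) • FA_S30_EC_vM N S j := by
  apply Subtype.ext
  have h := FA_S30_EC_T_smul N S hℓ hℓN hℓS m
  show (FA_S30_EC_M N S).subtype
      ((heckeAlgebra.T hℓ hℓN hℓS : heckeAlgebra N 2 S) • FA_S30_EC_vM N S m)
    = (FA_S30_EC_M N S).subtype (∑ j, (FA_S29_EIG_A N ⟨ℓ, hℓ⟩ m j : ℤ) • FA_S30_EC_vM N S j)
  rw [map_smul, map_sum]
  simp only [map_zsmul]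
  exact h

/-- `M` is a faithful module. -/
theorem FA_S30_EC_annihilator :
    Module.annihilator (heckeAlgebra N 2 S) ↥(FA_S30_EC_M N S) = ⊥ := by
  rw [eq_bot_iff]
  intro t ht
  rw [Module.mem_annihilator] at ht
  rw [Ideal.mem_bot]
  apply Subtype.ext
  refine LinearMap.ext fun f => ?_
  show (t : Module.End ℂ (CuspForm (Gamma0 N) 2)) f = 0
  apply FA_S30_EC_v_eq_zero
  intro j
  have h1 := ht (FA_S30_EC_vM N S j)
  have h2 := congrArg (fun x : ↥(FA_S30_EC_M N S) => FA_S30_EC_ev N S f x.1) h1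
  exact h2

/-- The coordinate functionals span `M`. -/
theorem FA_S30_EC_vM_span :
    Submodule.span (heckeAlgebra N 2 S) (Set.range (FA_S30_EC_vM N S)) = ⊤ := by
  rw [eq_top_iff]
  rintro ⟨x, hx⟩ -
  have key : ∀ (y : FA_S30_EC_V N S) (hy : y ∈ FA_S30_EC_M N S),
      (⟨y, hy⟩ : ↥(FA_S30_EC_M N S))
        ∈ Submodule.span (heckeAlgebra N 2 S) (Set.range (FA_S30_EC_vM N S)) := by
    intro y hy
    induction hy using Submodule.span_induction with
    | mem y hy =>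
      obtain ⟨j, rfl⟩ := hy
      exact Submodule.subset_span ⟨j, rfl⟩
    | zero => exact Submodule.zero_mem _
    | add y z hy hz ihy ihz => exact Submodule.add_mem _ ihy ihz
    | smul t y hy ih => exact Submodule.smul_mem _ t ih
  exact key x hx

/-- **T6, matrix form**: the eigenvector of a character `χ` of the Hecke algebra with values in
a domain, in the coordinates of the basis `FA_S29_EIG_basis N` of the parabolic lattice. -/
theorem FA_S30_EC_matrix {𝒪' : Type*} [CommRing 𝒪'] [IsDomain 𝒪']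
    (χ : heckeAlgebra N 2 S →+* 𝒪') :
    ∃ w : Fin (FA_S29_EIG_r N) → 𝒪', w ≠ 0 ∧
      ∀ (ℓ : ℕ) (hℓ : ℓ.Prime) (hℓN : ¬ ℓ ∣ N) (hℓS : ℓ ∉ S) (m : Fin (FA_S29_EIG_r N)),
        ∑ j, ((FA_S29_EIG_A N ⟨ℓ, hℓ⟩ m j : ℤ) : 𝒪') * w j
          = χ (heckeAlgebra.T hℓ hℓN hℓS) * w m := by
  obtain ⟨w, hw, h⟩ := FA_S30_EC_abs_dom (FA_S30_EC_annihilator N S) χ (FA_S30_EC_vM N S)
    (FA_S30_EC_vM_span N S)
  refine ⟨w, hw, fun ℓ hℓ hℓN hℓS m => ?_⟩
  exact h (heckeAlgebra.T hℓ hℓN hℓS) (fun m j => FA_S29_EIG_A N ⟨ℓ, hℓ⟩ m j)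
    (fun m => FA_S30_EC_T_smul_M N S hℓ hℓN hℓS m) m

end Fermat.Agent.S30
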