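import Fermat.Agent.S29.EigBridge

/-!
# S30, leaf T6 (eigenvector), part 1: the coordinates of the period map

`H = parabolicHoms ℤ (Gamma0 N) ℤ` with basis `β = FA_S29_EIG_basis N`, `r = FA_S29_EIG_r N`.

* `FA_S30_EC_v N j : S₂(Γ₀(N)) →ₗ[ℂ] ℂ` : the coordinates of the period map,
  `pm f = ∑ j, v j f • β j` (`FA_S30_EC_v_spec`);
* `FA_S30_EC_v_hecke` : `v m (T_ℓ f) = ∑ j, A_ℓ m j * v j f`, `A_ℓ = FA_S29_EIG_A N ℓ` the matrix of
  the Hecke operator on `H`;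
* `FA_S30_EC_v_eq_zero` : `v j f = 0` for all `j` implies `f = 0`.
-/

set_option autoImplicit false
set_option linter.unusedSectionVars false
set_option linter.unusedVariables false
set_option linter.style.haveILetI false

noncomputable section

namespace Fermat.Agent.S30

open CuspForm ModularFormClass CongruenceSubgroup ModularCurve ModularCurve.Period
  FA_S16 FA_S22 FA_S21 Fermat.Agent.S29
open scoped MatrixGroups

variable {N : ℕ} [NeZero N]

theorem FA_S30_EC_coord_exists (f : CuspForm (Gamma0 N) 2) :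
    ∃ v : Fin (FA_S29_EIG_r N) → ℂ, ∀ γ : ↥(Gamma0 N),
      FA_S16_LP_pm N f γ = ∑ j, v j * ((FA_S29_EIG_B N j γ : ℤ) : ℂ) :=
  FA_S29_EIG_span N (periodMap N f) (FA_S21_periodMap_mem_parabolicHoms N f)

/-- The coordinates of the period function of `f`. -/
def FA_S30_EC_coord (f : CuspForm (Gamma0 N) 2) : Fin (FA_S29_EIG_r N) → ℂ :=
  (FA_S30_EC_coord_exists f).choose

theorem FA_S30_EC_coord_spec (f : CuspForm (Gamma0 N) 2) (γ : ↥(Gamma0 N)) :
    FA_S16_LP_pm N f γ = ∑ j, FA_S30_EC_coord f j * ((FA_S29_EIG_B N j γ : ℤ) : ℂ) :=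
  (FA_S30_EC_coord_exists f).choose_spec γ

theorem FA_S30_EC_coord_unique (f : CuspForm (Gamma0 N) 2) (v : Fin (FA_S29_EIG_r N) → ℂ)
    (h : ∀ γ : ↥(Gamma0 N), FA_S16_LP_pm N f γ = ∑ j, v j * ((FA_S29_EIG_B N j γ : ℤ) : ℂ)) :
    v = FA_S30_EC_coord f := by
  have h0 : v - FA_S30_EC_coord f = 0 := by
    apply FA_S29_EIG_indep N
    intro γ
    show ∑ j, (v j - FA_S30_EC_coord f j) * ((FA_S29_EIG_B N j γ : ℤ) : ℂ) = 0
    simp only [sub_mul, Finset.sum_sub_distrib]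
    rw [← h γ, ← FA_S30_EC_coord_spec f γ, sub_self]
  exact sub_eq_zero.mp h0

/-- The coordinate functionals of the period map. -/
def FA_S30_EC_v (N : ℕ) [NeZero N] (j : Fin (FA_S29_EIG_r N)) :
    CuspForm (Gamma0 N) 2 →ₗ[ℂ] ℂ where
  toFun f := FA_S30_EC_coord f j
  map_add' f g := by
    have h := FA_S30_EC_coord_unique (f + g) (FA_S30_EC_coord f + FA_S30_EC_coord g) (by
      intro γ
      have e : FA_S16_LP_pm N (f + g) γ = FA_S16_LP_pm N f γ + FA_S16_LP_pm N g γ := by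
        show FA_S21_pml N (f + g) (Additive.ofMul γ) = _
        rw [map_add]
        rfl
      rw [e, FA_S30_EC_coord_spec f γ, FA_S30_EC_coord_spec g γ, ← Finset.sum_add_distrib]
      refine Finset.sum_congr rfl fun j _ => ?_
      rw [Pi.add_apply, add_mul])
    exact (congrFun h j).symm
  map_smul' a f := by
    have h := FA_S30_EC_coord_unique (a • f) (a • FA_S30_EC_coord f) (by
      intro γ
      have e : FA_S16_LP_pm N (a • f) γ = a * FA_S16_LP_pm N f γ :=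
        congrFun (FA_S29_EIG_pm_smul a f) γ
      rw [e, FA_S30_EC_coord_spec f γ, Finset.mul_sum]
      refine Finset.sum_congr rfl fun j _ => ?_
      rw [Pi.smul_apply, smul_eq_mul, mul_assoc])
    exact (congrFun h j).symm

theorem FA_S30_EC_v_spec (f : CuspForm (Gamma0 N) 2) (γ : ↥(Gamma0 N)) :
    FA_S16_LP_pm N f γ = ∑ j, FA_S30_EC_v N j f * ((FA_S29_EIG_B N j γ : ℤ) : ℂ) :=
  FA_S30_EC_coord_spec f γ

theorem FA_S30_EC_v_eq_zero (f : CuspForm (Gamma0 N) 2) (h : ∀ j, FA_S30_EC_v N j f = 0) :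
    f = 0 := by
  by_contra hf
  apply FA_S29_EIG_pm_ne_zero hf
  funext γ
  rw [FA_S30_EC_v_spec f γ]
  simp [h]

/-- The Hecke operators on complex combinations of the basis of `H`. -/
theorem FA_S30_EC_hecke_sum (ℓ : Nat.Primes) (v : Fin (FA_S29_EIG_r N) → ℂ) :
    FA_S16_LS_hecke N ℂ ℓ (fun γ => ∑ j, v j * ((FA_S29_EIG_B N j γ : ℤ) : ℂ))
      = fun γ => ∑ m, (∑ j, ((FA_S29_EIG_A N ℓ m j : ℤ) : ℂ) * v j) *
          ((FA_S29_EIG_B N m γ : ℤ) : ℂ) := by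
  have e1 : (fun γ : ↥(Gamma0 N) => ∑ j, v j * ((FA_S29_EIG_B N j γ : ℤ) : ℂ))
      = ∑ j, (fun γ => v j * ((FA_S29_EIG_B N j γ : ℤ) : ℂ)) := by
    funext γ
    rw [Finset.sum_apply]
  rw [e1, map_sum]
  funext γ
  rw [Finset.sum_apply]
  have e2 : ∀ j, FA_S16_LS_hecke N ℂ ℓ (fun γ => v j * ((FA_S29_EIG_B N j γ : ℤ) : ℂ)) γ
      = v j * ∑ m, ((FA_S29_EIG_A N ℓ m j : ℤ) : ℂ) * ((FA_S29_EIG_B N m γ : ℤ) : ℂ) := by
    intro j
    have h3 := congrFun (FA_S29_EIG_hecke_natural (N := N)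
      ((AddMonoidHom.mulLeft (v j)).comp (Int.castAddHom ℂ)) ℓ (FA_S29_EIG_B N j)) γ
    simp only [AddMonoidHom.comp_apply, Int.coe_castAddHom, AddMonoidHom.coe_mulLeft] at h3
    rw [h3, FA_S29_EIG_hecke_B]
    push_cast
    rfl
  simp only [e2]
  simp only [Finset.mul_sum, Finset.sum_mul]
  rw [Finset.sum_comm]
  refine Finset.sum_congr rfl fun m _ => Finset.sum_congr rfl fun j _ => ?_
  ring

/-- The coordinates of `T_ℓ f`. -/
theorem FA_S30_EC_v_hecke (ℓ : Nat.Primes) (f : CuspForm (Gamma0 N) 2)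
    (m : Fin (FA_S29_EIG_r N)) :
    FA_S30_EC_v N m (((heckeFormsGen N 2 ℓ : heckeAlgebra N 2 ∅) :
        Module.End ℂ (CuspForm (Gamma0 N) 2)) f)
      = ∑ j, ((FA_S29_EIG_A N ℓ m j : ℤ) : ℂ) * FA_S30_EC_v N j f := by
  have h := FA_S30_EC_coord_unique
    (((heckeFormsGen N 2 ℓ : heckeAlgebra N 2 ∅) : Module.End ℂ (CuspForm (Gamma0 N) 2)) f)
    (fun m => ∑ j, ((FA_S29_EIG_A N ℓ m j : ℤ) : ℂ) * FA_S30_EC_v N j f) (by
      intro γ
      rw [FA_S16_LP_pm_hecke N ℓ f]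
      have e : FA_S16_LP_pm N f
          = fun γ => ∑ j, FA_S30_EC_v N j f * ((FA_S29_EIG_B N j γ : ℤ) : ℂ) := by
        funext γ
        exact FA_S30_EC_v_spec f γ
      rw [e, FA_S30_EC_hecke_sum])
  exact (congrFun h m).symm

end Fermat.Agent.S30
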