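import Fermat.Agent.S30.Bridge
import Fermat.Agent.S30.CycAdic

/-!
# S30, glue G3: the three hypotheses `hcont`, `hES`, `hin` of the final assembly

For `Λ :=` the eigen-lattice of `χ` in `R ⊗ T_p J₀(N)`, `ρ := FA_S30_LJ_rho`, and
`d := FA_S30_CY_d p (algebraMap ℤ_[p] R)`:

* `FA_S30_GL_cont` : joint continuity of `ρ` and `d`;
* `FA_S30_GL_ES` : Eichler–Shimura with `χ(T_ℓ)` and `d(Frob_ℓ) = ℓ`;
* `FA_S30_GL_in` : `ρ` and `d` are trivial on inertia at `q ∤ N p`.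
-/

set_option autoImplicit false
set_option linter.unusedSectionVars false
set_option linter.unusedVariables false
set_option linter.style.haveILetI false
set_option synthInstance.maxHeartbeats 400000
set_option maxHeartbeats 1000000

noncomputable section

open ModularCurve AlgebraicCurve Fermat.Agent.S29 TensorProduct IsLocalRing CongruenceSubgroup Period
  CuspForm

namespace Fermat.Agent.S30

variable (N : ℕ) [NeZero N] (S : Set ℕ) (p : ℕ) [hp : Fact p.Prime]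
variable (R : Type) [CommRing R] [Algebra ℤ_[p] R]

/-- **`hES`**: Eichler–Shimura on the eigen-lattice of `χ`, and `d(Frob_ℓ) = ℓ`. -/
theorem FA_S30_GL_ES (hpS : p ∈ S) (χ : heckeAlgebra N 2 S →+* R) :
    ∀ (ℓ : ℕ) (hℓ : ℓ.Prime) (hℓN : ¬ ℓ ∣ N) (hℓS : ℓ ∉ S),
      ∀ A : ValuationSubring (AlgebraicClosure ℚ), A.LiesOverPrime ℓ →
        ∀ τ : AlgebraicClosure ℚ ≃ₐ[ℚ] AlgebraicClosure ℚ, A.IsFrobeniusAt τ ℓ →
          FA_S30_LJ_rho p N R (FA_S30_BR_P N S) (FA_S30_BR_a N S χ) τ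
              * FA_S30_LJ_rho p N R (FA_S30_BR_P N S) (FA_S30_BR_a N S χ) τ
            - χ (heckeAlgebra.T hℓ hℓN hℓS)
                • FA_S30_LJ_rho p N R (FA_S30_BR_P N S) (FA_S30_BR_a N S χ) τ
            + (ℓ : R) • (1 : Module.End R
                ↥(FA_S30_LJ_Lam p N R (FA_S30_BR_P N S) (FA_S30_BR_a N S χ))) = 0 ∧
          ((FA_S30_CY_d p (algebraMap ℤ_[p] R) τ : Rˣ) : R) = (ℓ : R) := by
  intro ℓ hℓ hℓN hℓS A hA τ hτ
  have hℓp : ℓ ≠ p := fun h => hℓS (h ▸ hpS)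
  exact ⟨FA_S30_BR_frob N S p R χ hℓ hℓN hℓS hℓp A hA τ hτ,
    FA_S30_CY_d_frob p (algebraMap ℤ_[p] R) hℓ hℓp A hA τ hτ⟩

/-- **`hin`**: `ρ` and `d` are trivial on inertia at `q ∤ N`, `q ≠ p`. -/
theorem FA_S30_GL_in (χ : heckeAlgebra N 2 S →+* R) :
    ∀ q : ℕ, q.Prime → ¬ q ∣ N → q ≠ p →
      ∀ P : ValuationSubring (AlgebraicClosure ℚ), P.LiesOverPrime q →
        ∀ σ ∈ P.inertiaSubgroupIn ℚ,
          FA_S30_LJ_rho p N R (FA_S30_BR_P N S) (FA_S30_BR_a N S χ) σ = 1 ∧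
            FA_S30_CY_d p (algebraMap ℤ_[p] R) σ = 1 := by
  intro q hq hqN hqp P hP σ hσ
  have hqNp : ¬ q ∣ N * p := by
    intro h
    rcases (Nat.Prime.dvd_mul hq).mp h with h1 | h1
    · exact hqN h1
    · exact hqp ((Nat.prime_dvd_prime_iff_eq hq hp.out).mp h1)
  exact ⟨FA_S30_LJ_inertia p N R _ _ hq hqNp P hP σ hσ,
    FA_S30_CY_d_inertia p (algebraMap ℤ_[p] R) hq hqp P hP σ hσ⟩

/-- **`hcont`**: joint continuity of `ρ` and `d`. -/
theorem FA_S30_GL_cont [IsDomain R] [IsDiscreteValuationRing R] (hp0 : (p : R) ≠ 0)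
    (hpm : (p : R) ∈ maximalIdeal R) (χ : heckeAlgebra N 2 S →+* R) :
    ∀ n : ℕ, ∃ L : IntermediateField ℚ (AlgebraicClosure ℚ), FiniteDimensional ℚ L ∧
      ∀ σ : AlgebraicClosure ℚ ≃ₐ[ℚ] AlgebraicClosure ℚ, (∀ x ∈ L, σ x = x) →
        (∀ v : ↥(FA_S30_LJ_Lam p N R (FA_S30_BR_P N S) (FA_S30_BR_a N S χ)),
          FA_S30_LJ_rho p N R (FA_S30_BR_P N S) (FA_S30_BR_a N S χ) σ v - v
            ∈ (maximalIdeal R ^ n) • (⊤ : Submodule R
                ↥(FA_S30_LJ_Lam p N R (FA_S30_BR_P N S) (FA_S30_BR_a N S χ)))) ∧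
          (((FA_S30_CY_d p (algebraMap ℤ_[p] R) σ : Rˣ) : R) - 1 ∈ maximalIdeal R ^ n) := by
  intro n
  obtain ⟨L₁, hL₁, -, h₁⟩ := FA_S30_LJ_cont_fil p N R hp0 hpm (FA_S30_BR_P N S)
    (FA_S30_BR_a N S χ) n
  obtain ⟨E, hE, h₂⟩ := FA_S30_CY_d_cont p (algebraMap ℤ_[p] R) n
  refine ⟨L₁ ⊔ E, inferInstance, fun σ hσ => ⟨?_, ?_⟩⟩
  · exact h₁ σ (fun x hx => hσ x ((le_sup_left : L₁ ≤ L₁ ⊔ E) hx))
  · have hmem : σ ∈ E.fixingSubgroup := by
      rw [IntermediateField.mem_fixingSubgroup_iff]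
      exact fun x hx => hσ x ((le_sup_right : E ≤ L₁ ⊔ E) hx)
    have h := h₂ σ hmem
    have hle : Ideal.span {(p : R) ^ n} ≤ maximalIdeal R ^ n := by
      rw [Ideal.span_le, Set.singleton_subset_iff]
      exact Ideal.pow_mem_pow hpm n
    exact hle h

end Fermat.Agent.S30

end
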