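import Mathlib

/-!
# S30, leaf T3 (abstract part): König's lemma for homomorphisms into torsion

`FA_S30_KG_abs` : `H` free of finite rank over `ℤ`, `J` an abelian group with finite
`p^n`-torsion for all `n`, `P` a property of homomorphisms `H →+ J` stable under multiplication
by `p`.  If for every `n` there is `θ : H →+ J` with `p^n θ = 0`, `ker θ ⊆ p^n H` and `P θ`,
then there is a COMPATIBLE system `θ_n` of such homomorphisms: `p • θ_{n+1} = θ_n`.
-/

set_option autoImplicit false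
set_option linter.unusedSectionVars false
set_option linter.unusedVariables false
set_option linter.style.haveILetI false

namespace Fermat.Agent.S30

variable {H J : Type*} [AddCommGroup H] [AddCommGroup J]

/-- The admissible homomorphisms at level `n`. -/
def FA_S30_KG_Adm (p : ℕ) (P : (H →+ J) → Prop) (n : ℕ) (θ : H →+ J) : Prop :=
  (∀ ψ, (p ^ n) • θ ψ = 0) ∧ (∀ ψ, θ ψ = 0 → ∃ ψ', ψ = (p ^ n) • ψ') ∧ P θ

theorem FA_S30_KG_adm_smul {ι : Type*} (b : Module.Basis ι ℤ H) (p : ℕ) (hp : 0 < p)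
    (P : (H →+ J) → Prop) (hP : ∀ θ, P θ → P (p • θ)) {i j : ℕ} (hij : i ≤ j) (θ : H →+ J)
    (h : FA_S30_KG_Adm p P j θ) : FA_S30_KG_Adm p P i (p ^ (j - i) • θ) := by
  have key : ∀ (c : ℤ), c ≠ 0 → ∀ x y : H, c • x = c • y → x = y := by
    intro c hc x y h
    apply b.repr.injective
    ext i
    have := congrArg (fun z => b.repr z i) h
    simp only [map_smul, Finsupp.smul_apply, smul_eq_mul] at this
    exact mul_left_cancel₀ hc this
  obtain ⟨h1, h2, h3⟩ := h
  refine ⟨fun ψ => ?_, fun ψ hψ => ?_, ?_⟩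
  · rw [AddMonoidHom.smul_apply, ← mul_nsmul', ← pow_add, Nat.add_sub_cancel' hij]
    exact h1 ψ
  · rw [AddMonoidHom.smul_apply, ← map_nsmul] at hψ
    obtain ⟨ψ', hψ'⟩ := h2 _ hψ
    refine ⟨ψ', ?_⟩
    have h4 : (p ^ (j - i)) • ψ = (p ^ (j - i)) • ((p ^ i) • ψ') := by
      rw [hψ', ← mul_nsmul', ← pow_add, Nat.sub_add_cancel hij]
    have h5 : ((p ^ (j - i) : ℕ) : ℤ) • ψ = ((p ^ (j - i) : ℕ) : ℤ) • ((p ^ i) • ψ') := by
      rw [natCast_zsmul, natCast_zsmul]
      exact h4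
    have h6 : ((p ^ (j - i) : ℕ) : ℤ) ≠ 0 := by positivity
    exact key _ h6 _ _ h5
  · have : ∀ k : ℕ, P (p ^ k • θ) := by
      intro k
      induction k with
      | zero => rw [pow_zero, one_smul]; exact h3
      | succ k ih =>
        rw [pow_succ', mul_smul]
        exact hP _ ih
    exact this _

/-- The set of admissible homomorphisms at a level is finite. -/
theorem FA_S30_KG_finite {ι : Type*} [Finite ι] (b : Module.Basis ι ℤ H) (p : ℕ)
    (hfin : ∀ n : ℕ, {x : J | (p ^ n) • x = 0}.Finite) (P : (H →+ J) → Prop) (n : ℕ) :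
    Finite {θ : H →+ J // FA_S30_KG_Adm p P n θ} := by
  haveI : Finite {x : J | (p ^ n) • x = 0} := (hfin n).to_subtype
  let F : {θ : H →+ J // FA_S30_KG_Adm p P n θ} → (ι → {x : J | (p ^ n) • x = 0}) :=
    fun θ i => ⟨θ.1 (b i), θ.2.1 (b i)⟩
  have hF : Function.Injective F := by
    intro θ θ' h
    apply Subtype.ext
    apply AddMonoidHom.toIntLinearMap_injective
    apply b.ext
    intro i
    have := congrArg (fun f => ((f i : {x : J | (p ^ n) • x = 0}) : J)) h
    exact this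
  exact Finite.of_injective F hF

/-- **T3, abstract König lemma.** -/
theorem FA_S30_KG_abs {ι : Type*} [Finite ι] (b : Module.Basis ι ℤ H) (p : ℕ) (hp : 0 < p)
    (hfin : ∀ n : ℕ, {x : J | (p ^ n) • x = 0}.Finite)
    (P : (H →+ J) → Prop) (hP : ∀ θ, P θ → P (p • θ))
    (hex : ∀ n : ℕ, ∃ θ : H →+ J, FA_S30_KG_Adm p P n θ) :
    ∃ θ : ℕ → (H →+ J), ∀ n, FA_S30_KG_Adm p P n (θ n) ∧ p • θ (n + 1) = θ n := by
  classical
  haveI : ∀ n, Finite {θ : H →+ J // FA_S30_KG_Adm p P n θ} :=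
    fun n => FA_S30_KG_finite b p hfin P n
  haveI : ∀ n, Nonempty {θ : H →+ J // FA_S30_KG_Adm p P n θ} := fun n => by
    obtain ⟨θ, hθ⟩ := hex n
    exact ⟨⟨θ, hθ⟩⟩
  obtain ⟨f, hf⟩ := exists_seq_forall_proj_of_forall_finite
    (α := fun n => {θ : H →+ J // FA_S30_KG_Adm p P n θ})
    (fun {i j} hij θ => ⟨p ^ (j - i) • θ.1, FA_S30_KG_adm_smul b p hp P hP hij θ.1 θ.2⟩)
    (fun i a => by
      apply Subtype.ext
      show p ^ (i - i) • a.1 = a.1
      rw [Nat.sub_self, pow_zero, one_smul])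
    (fun i j k hij hjk a => by
      apply Subtype.ext
      show p ^ (j - i) • (p ^ (k - j) • a.1) = p ^ (k - i) • a.1
      rw [← mul_smul, ← pow_add]
      congr 2
      omega)
    (fun i a => Set.toFinite _)
  refine ⟨fun n => (f n).1, fun n => ⟨(f n).2, ?_⟩⟩
  have h := hf (Nat.le_add_right n 1)
  have h' := congrArg Subtype.val h
  simp only [Nat.add_sub_cancel_left, pow_one] at h'
  exact h'

end Fermat.Agent.S30
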