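import Fermat.Agent.S30.TateFin

/-!
# S30, leaves T5 + T7 (abstract part): the Tate module with coefficients in `R`

`A` an abelian group, `R` a `ℤ_[p]`-algebra, `M = R ⊗[ℤ_[p]] T_p A`.

* `FA_S30_LT_op f : M →ₗ[R] M` for `f : A →+ A`; multiplicative, additive;
* `FA_S30_LT_op_eq_zero`  : an identity on the `p`-power torsion of `A` is an identity on `M`;
* `FA_S30_LT_op_sub_mem`  : `f = id` on `A[p^n]` ⟹ `op f ≡ 1` modulo `p^n`;
* `FA_S30_LT_rho`         : the representation of a group acting on `A`;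
* `FA_S30_LT_iota`        : `R ⊗[ℤ] H → M` from a compatible system `θ n : H →+ A`; equivariance;
* `FA_S30_LT_iota_injective` : injective if `ker θ_n ⊆ p^n H` (`H` free of finite rank, `R` flat);
* `FA_S30_LT_eig`         : the eigen-submodule; stability, saturation.
-/

set_option autoImplicit false
set_option linter.unusedSectionVars false
set_option linter.unusedVariables false
set_option linter.style.haveILetI false

noncomputable section

open TensorProduct

namespace Fermat.Agent.S30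

variable (p : ℕ) [hp : Fact p.Prime] (A : Type*) [AddCommGroup A]
variable (R : Type*) [CommRing R] [Algebra ℤ_[p] R]

/-- The Tate module with coefficients in `R`. -/
abbrev FA_S30_LT_M : Type _ := R ⊗[ℤ_[p]] FA_S30_TM p A

variable {p A}

/-- The operator on `M` induced by an endomorphism of `A`. -/
def FA_S30_LT_op (f : A →+ A) : Module.End R (FA_S30_LT_M p A R) :=
  (FA_S30_TM_map (p := p) f).baseChange R

theorem FA_S30_LT_op_tmul (f : A →+ A) (r : R) (x : FA_S30_TM p A) :
    FA_S30_LT_op R f (r ⊗ₜ[ℤ_[p]] x) = r ⊗ₜ[ℤ_[p]] FA_S30_TM_map f x := rfl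

theorem FA_S30_LT_op_id : FA_S30_LT_op (p := p) R (AddMonoidHom.id A) = 1 := by
  unfold FA_S30_LT_op
  rw [FA_S30_TM_map_id]
  exact LinearMap.baseChange_id

theorem FA_S30_LT_op_comp (g f : A →+ A) :
    FA_S30_LT_op (p := p) R (g.comp f) = FA_S30_LT_op R g * FA_S30_LT_op R f := by
  unfold FA_S30_LT_op
  rw [FA_S30_TM_map_comp]
  exact LinearMap.baseChange_comp _ _

theorem FA_S30_LT_op_add (f g : A →+ A) :
    FA_S30_LT_op (p := p) R (f + g) = FA_S30_LT_op R f + FA_S30_LT_op R g := by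
  unfold FA_S30_LT_op
  rw [FA_S30_TM_map_add]
  exact LinearMap.baseChange_add _ _

theorem FA_S30_LT_op_sub (f g : A →+ A) :
    FA_S30_LT_op (p := p) R (f - g) = FA_S30_LT_op R f - FA_S30_LT_op R g := by
  unfold FA_S30_LT_op
  rw [FA_S30_TM_map_sub]
  exact LinearMap.baseChange_sub _ _

theorem FA_S30_LT_op_nsmul (k : ℕ) (f : A →+ A) :
    FA_S30_LT_op (p := p) R (k • f) = (k : R) • FA_S30_LT_op R f := by
  unfold FA_S30_LT_op
  rw [FA_S30_TM_map_nsmul, LinearMap.baseChange_smul]
  ext x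
  simp only [TensorProduct.AlgebraTensorModule.curry_apply, TensorProduct.curry_apply,
    LinearMap.coe_restrictScalars, LinearMap.smul_apply]
  rw [Nat.cast_smul_eq_nsmul ℤ_[p] k, Nat.cast_smul_eq_nsmul R k]

/-- **Identities on the `p`-power torsion pass to `M`.** -/
theorem FA_S30_LT_op_eq_zero (f : A →+ A) (hf : ∀ (n : ℕ) (a : A), p ^ n • a = 0 → f a = 0) :
    FA_S30_LT_op (p := p) R f = 0 := by
  unfold FA_S30_LT_op
  rw [FA_S30_TM_map_eq_zero f hf]
  exact LinearMap.baseChange_zero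

theorem FA_S30_LT_op_congr (f g : A →+ A) (h : ∀ (n : ℕ) (a : A), p ^ n • a = 0 → f a = g a) :
    FA_S30_LT_op (p := p) R f = FA_S30_LT_op R g := by
  have := FA_S30_LT_op_eq_zero R (f - g) fun n a ha => by
    show f a - g a = 0
    rw [h n a ha, sub_self]
  rw [FA_S30_LT_op_sub] at this
  exact sub_eq_zero.mp this

/-- **Congruence**: `f = id` on `A[p^n]` ⟹ `op f ≡ 1` modulo `p^n`. -/
theorem FA_S30_LT_op_sub_mem (f : A →+ A) (n : ℕ) (hf : ∀ a : A, p ^ n • a = 0 → f a = a)
    (m : FA_S30_LT_M p A R) :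
    ∃ m' : FA_S30_LT_M p A R, FA_S30_LT_op R f m - m = ((p : R) ^ n) • m' := by
  induction m using TensorProduct.induction_on with
  | zero => exact ⟨0, by simp⟩
  | tmul r x =>
    obtain ⟨y, hy⟩ := FA_S30_TM_map_sub_mem_pow f n hf x
    refine ⟨r ⊗ₜ[ℤ_[p]] y, ?_⟩
    rw [FA_S30_LT_op_tmul, ← TensorProduct.tmul_sub, hy, TensorProduct.tmul_smul,
      ← Nat.cast_pow, ← Nat.cast_pow, Nat.cast_smul_eq_nsmul ℤ_[p], Nat.cast_smul_eq_nsmul R]
  | add m₁ m₂ h₁ h₂ =>
    obtain ⟨m₁', h₁'⟩ := h₁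
    obtain ⟨m₂', h₂'⟩ := h₂
    refine ⟨m₁' + m₂', ?_⟩
    rw [map_add, smul_add, ← h₁', ← h₂']
    abel

/-- The representation on `M` of a group acting on `A`. -/
def FA_S30_LT_rho {G : Type*} [Group G] [DistribMulAction G A] :
    G →* Module.End R (FA_S30_LT_M p A R) where
  toFun g := FA_S30_LT_op R (DistribSMul.toAddMonoidHom A g)
  map_one' := by
    have : DistribSMul.toAddMonoidHom A (1 : G) = AddMonoidHom.id A := by
      ext a
      exact one_smul G a
    rw [this, FA_S30_LT_op_id]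
  map_mul' g h := by
    have : DistribSMul.toAddMonoidHom A (g * h)
        = (DistribSMul.toAddMonoidHom A g).comp (DistribSMul.toAddMonoidHom A h) := by
      ext a
      exact mul_smul g h a
    rw [this, FA_S30_LT_op_comp]

theorem FA_S30_LT_rho_apply {G : Type*} [Group G] [DistribMulAction G A] (g : G) :
    FA_S30_LT_rho (p := p) (A := A) R g = FA_S30_LT_op R (DistribSMul.toAddMonoidHom A g) :=
  rfl

/-! ### Freeness -/

theorem FA_S30_LT_finite (hfin : {a : A | p • a = 0}.Finite) :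
    Module.Finite R (FA_S30_LT_M p A R) := by
  haveI := FA_S30_TM_finite (p := p) hfin
  infer_instance

theorem FA_S30_LT_free (hfin : {a : A | p • a = 0}.Finite) :
    Module.Free R (FA_S30_LT_M p A R) := by
  haveI := FA_S30_TM_free (p := p) hfin
  infer_instance

/-- A torsion-free `ℤ_[p]`-algebra is flat. -/
theorem FA_S30_LT_flat [IsDomain R] (hinj : Function.Injective (algebraMap ℤ_[p] R)) :
    Module.Flat ℤ_[p] R := by
  rw [Module.Flat.flat_iff_torsion_eq_bot_of_isBezout]
  rw [Submodule.eq_bot_iff]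
  rintro x ⟨⟨a, ha⟩, hax⟩
  have ha0 : a ≠ 0 := nonZeroDivisors.ne_zero ha
  have h1 : algebraMap ℤ_[p] R a * x = 0 := by
    rw [← Algebra.smul_def]
    exact hax
  rcases mul_eq_zero.mp h1 with h | h
  · exact absurd (hinj (h.trans (map_zero _).symm)) ha0
  · exact h

end Fermat.Agent.S30

end
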