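import Fermat.Agent.S30.Lattice

/-!
# S30, leaf T7 (abstract part): the eigenvector in `M = R ⊗[ℤ_[p]] T_p A` and the eigen-lattice

* `FA_S30_LT_iota θ : R ⊗[ℤ] H →ₗ[R] M`, `r ⊗ ψ ↦ r ⊗ θ ψ` (`θ : H →+ T_p A`);
* `FA_S30_LT_iota_equiv` : equivariance for operators compatible under `θ`;
* `FA_S30_LT_linearIndependent`, `FA_S30_LT_iota_injective` : if `H` has a finite `ℤ`-basis,
  `(θ ψ) n = 0 → ψ ∈ p^n H`, and `R` is flat over `ℤ_[p]`, then `ι` is injective;
* `FA_S30_LT_eig Tq a` : the submodule of `M` where `op (Tq i) = a i`; `_eig_stable`,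
  `_eig_saturated`;
* `FA_S30_LT_restrict` : restriction of a representation to a stable submodule.
-/

set_option autoImplicit false
set_option linter.unusedSectionVars false
set_option linter.unusedVariables false
set_option linter.style.haveILetI false

noncomputable section

open TensorProduct

namespace Fermat.Agent.S30

variable {p : ℕ} [hp : Fact p.Prime] {A : Type*} [AddCommGroup A]
variable (R : Type*) [CommRing R] [Algebra ℤ_[p] R]
variable {H : Type*} [AddCommGroup H]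

/-- `ι : R ⊗[ℤ] H → M`, `r ⊗ ψ ↦ r ⊗ θ ψ`. -/
def FA_S30_LT_iota (θ : H →+ FA_S30_TM p A) : R ⊗[ℤ] H →ₗ[R] FA_S30_LT_M p A R :=
  LinearMap.liftBaseChange R
    (((TensorProduct.mk ℤ_[p] R (FA_S30_TM p A) 1).restrictScalars ℤ).comp θ.toIntLinearMap)

theorem FA_S30_LT_iota_tmul (θ : H →+ FA_S30_TM p A) (r : R) (ψ : H) :
    FA_S30_LT_iota R θ (r ⊗ₜ[ℤ] ψ) = r ⊗ₜ[ℤ_[p]] θ ψ := by
  unfold FA_S30_LT_iota
  rw [LinearMap.liftBaseChange_tmul]
  show r • ((1 : R) ⊗ₜ[ℤ_[p]] θ ψ) = r ⊗ₜ[ℤ_[p]] θ ψ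
  rw [TensorProduct.smul_tmul', smul_eq_mul, mul_one]

/-- **Equivariance** of `ι`. -/
theorem FA_S30_LT_iota_equiv (θ : H →+ FA_S30_TM p A) (TH : H →+ H) (f : A →+ A)
    (h : ∀ ψ, θ (TH ψ) = FA_S30_TM_map f (θ ψ)) (u : R ⊗[ℤ] H) :
    FA_S30_LT_iota R θ (TH.toIntLinearMap.baseChange R u)
      = FA_S30_LT_op R f (FA_S30_LT_iota R θ u) := by
  induction u using TensorProduct.induction_on with
  | zero => simp
  | tmul r ψ =>
    rw [LinearMap.baseChange_tmul, FA_S30_LT_iota_tmul, FA_S30_LT_iota_tmul, FA_S30_LT_op_tmul]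
    show r ⊗ₜ[ℤ_[p]] θ (TH ψ) = _
    rw [h]
  | add u v hu hv => rw [map_add, map_add, map_add, map_add, hu, hv]

/-- The images of a `ℤ`-basis of `H` are linearly independent over `ℤ_[p]`. -/
theorem FA_S30_LT_linearIndependent {r : ℕ} (b : Module.Basis (Fin r) ℤ H)
    (θ : H →+ FA_S30_TM p A)
    (hker : ∀ (n : ℕ) (ψ : H), (θ ψ).1 n = 0 → ∃ ψ' : H, ψ = ((p : ℤ) ^ n) • ψ') :
    LinearIndependent ℤ_[p] fun j => θ (b j) := by
  rw [Fintype.linearIndependent_iff]
  intro g hg j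
  rw [← PadicInt.ext_of_toZModPow]
  intro n
  rw [map_zero]
  -- evaluate at level `n`
  have h1 : (θ (∑ i, (g i).appr n • b i)).1 n = 0 := by
    have h2 := congrArg (fun z : FA_S30_TM p A => z.1 n) hg
    change (∑ i, g i • θ (b i)).1 n = 0 at h2
    have h3 : (∑ i, g i • θ (b i)).1 n = ∑ i, (g i • θ (b i)).1 n :=
      map_sum (FA_S30_TM_ev n) _ _
    rw [h3] at h2
    rw [map_sum]
    have h4 : (∑ i, θ ((g i).appr n • b i)).1 n = ∑ i, (θ ((g i).appr n • b i)).1 n :=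
      map_sum (FA_S30_TM_ev n) _ _
    rw [h4, ← h2]
    refine Finset.sum_congr rfl fun i _ => ?_
    rw [map_nsmul, FA_S30_TM_smul_apply]
    rfl
  obtain ⟨ψ', hψ'⟩ := hker n _ h1
  have h5 := congrArg (fun z => b.repr z j) hψ'
  simp only [map_sum, map_nsmul, map_smul, Module.Basis.repr_self, Finsupp.coe_finsetSum,
    Finsupp.coe_smul, Finset.sum_apply, Pi.smul_apply, Finsupp.single_apply, smul_eq_mul] at h5
  rw [Finset.sum_eq_single j (fun i _ hij => by simp [hij]) (fun h => absurd (Finset.mem_univ j) h)]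
    at h5
  simp only [if_true] at h5
  -- `p^n ∣ appr`, and `appr < p^n`
  have h6 : ((p ^ n : ℕ) : ℤ) ∣ (((g j).appr n : ℕ) : ℤ) := by
    refine ⟨b.repr ψ' j, ?_⟩
    push_cast
    have : (((g j).appr n : ℕ) : ℤ) = (g j).appr n • (1 : ℤ) := by simp
    rw [this, h5]
  have h7 : p ^ n ∣ (g j).appr n := Int.natCast_dvd_natCast.mp h6
  have h8 : (g j).appr n = 0 := Nat.eq_zero_of_dvd_of_lt h7 (PadicInt.appr_lt _ _)
  rw [← FA_S30_TM_appr_cast, h8, Nat.cast_zero]

/-- **`ι` is injective.** -/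
theorem FA_S30_LT_iota_injective [Module.Flat ℤ_[p] R] {r : ℕ} (b : Module.Basis (Fin r) ℤ H)
    (θ : H →+ FA_S30_TM p A)
    (hker : ∀ (n : ℕ) (ψ : H), (θ ψ).1 n = 0 → ∃ ψ' : H, ψ = ((p : ℤ) ^ n) • ψ') :
    Function.Injective (FA_S30_LT_iota R θ) := by
  have hli := Module.Flat.linearIndependent_one_tmul (S := R)
    (FA_S30_LT_linearIndependent b θ hker)
  rw [Fintype.linearIndependent_iff] at hli
  let B := Algebra.TensorProduct.basis R b
  rw [injective_iff_map_eq_zero]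
  intro u hu
  have hsum := B.sum_repr u
  rw [← hsum, map_sum] at hu
  have hc : ∀ j, B.repr u j = 0 := by
    apply hli
    rw [← hu]
    refine Finset.sum_congr rfl fun j _ => ?_
    rw [map_smul]
    congr 1
    show (1 : R) ⊗ₜ[ℤ_[p]] θ (b j) = FA_S30_LT_iota R θ (B j)
    rw [Algebra.TensorProduct.basis_apply, FA_S30_LT_iota_tmul]
  rw [← hsum]
  exact Finset.sum_eq_zero fun j _ => by rw [hc j, zero_smul]

/-! ### The eigen-lattice -/

variable {I : Type*}

/-- The submodule of `M` on which `op (Tq i)` acts as `a i`. -/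
def FA_S30_LT_eig (Tq : I → A →+ A) (a : I → R) : Submodule R (FA_S30_LT_M p A R) :=
  ⨅ i, LinearMap.ker (FA_S30_LT_op R (Tq i) - a i • (1 : Module.End R (FA_S30_LT_M p A R)))

theorem FA_S30_LT_mem_eig (Tq : I → A →+ A) (a : I → R) (m : FA_S30_LT_M p A R) :
    m ∈ FA_S30_LT_eig R Tq a ↔ ∀ i, FA_S30_LT_op R (Tq i) m = a i • m := by
  unfold FA_S30_LT_eig
  rw [Submodule.mem_iInf]
  refine forall_congr' fun i => ?_
  rw [LinearMap.mem_ker, LinearMap.sub_apply, LinearMap.smul_apply, Module.End.one_apply,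
    sub_eq_zero]

/-- an endomorphism commuting with the `op (Tq i)` preserves the eigen-lattice -/
theorem FA_S30_LT_eig_stable (Tq : I → A →+ A) (a : I → R) (g : Module.End R (FA_S30_LT_M p A R))
    (hg : ∀ i, g * FA_S30_LT_op R (Tq i) = FA_S30_LT_op R (Tq i) * g)
    {m : FA_S30_LT_M p A R} (hm : m ∈ FA_S30_LT_eig R Tq a) : g m ∈ FA_S30_LT_eig R Tq a := by
  rw [FA_S30_LT_mem_eig] at hm ⊢
  intro i
  have := congrArg (fun F : Module.End R (FA_S30_LT_M p A R) => F m) (hg i)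
  simp only [Module.End.mul_apply] at this
  rw [← this, hm i, map_smul]

/-- the eigen-lattice is saturated -/
theorem FA_S30_LT_eig_saturated [NoZeroSMulDivisors R (FA_S30_LT_M p A R)]
    (Tq : I → A →+ A) (a : I → R) (c : R) (hc : c ≠ 0) {m : FA_S30_LT_M p A R}
    (hm : c • m ∈ FA_S30_LT_eig R Tq a) : m ∈ FA_S30_LT_eig R Tq a := by
  rw [FA_S30_LT_mem_eig] at hm ⊢
  intro i
  have h1 := hm i
  rw [map_smul, smul_comm (a i) c m] at h1
  have h2 : c • (FA_S30_LT_op R (Tq i) m - a i • m) = 0 := by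
    rw [smul_sub]
    exact sub_eq_zero.mpr h1
  rcases NoZeroSMulDivisors.eq_zero_or_eq_zero_of_smul_eq_zero h2 with h | h
  · exact absurd h hc
  · exact sub_eq_zero.mp h

/-- the image of an eigenvector is in the eigen-lattice -/
theorem FA_S30_LT_iota_mem_eig (θ : H →+ FA_S30_TM p A) (TH : I → H →+ H) (Tq : I → A →+ A)
    (h : ∀ i ψ, θ (TH i ψ) = FA_S30_TM_map (Tq i) (θ ψ)) (a : I → R) (u : R ⊗[ℤ] H)
    (hu : ∀ i, (TH i).toIntLinearMap.baseChange R u = a i • u) :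
    FA_S30_LT_iota R θ u ∈ FA_S30_LT_eig R Tq a := by
  rw [FA_S30_LT_mem_eig]
  intro i
  rw [← FA_S30_LT_iota_equiv R θ (TH i) (Tq i) (h i), hu i, map_smul]

/-! ### Restriction to a stable submodule -/

section restrict

variable {R}
variable {M : Type*} [AddCommGroup M] [Module R M] {G : Type*} [Group G]

/-- Restriction of a representation to a stable submodule. -/
def FA_S30_LT_restrict (ρ : G →* Module.End R M) (Λ : Submodule R M)
    (hΛ : ∀ g, ∀ m ∈ Λ, ρ g m ∈ Λ) : G →* Module.End R Λ where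
  toFun g := (ρ g).restrict (hΛ g)
  map_one' := by
    ext m
    show ρ 1 (m : M) = m
    rw [map_one, Module.End.one_apply]
  map_mul' g h := by
    ext m
    show ρ (g * h) (m : M) = ρ g (ρ h m)
    rw [map_mul, Module.End.mul_apply]

@[simp] theorem FA_S30_LT_restrict_apply (ρ : G →* Module.End R M) (Λ : Submodule R M)
    (hΛ : ∀ g, ∀ m ∈ Λ, ρ g m ∈ Λ) (g : G) (m : Λ) :
    ((FA_S30_LT_restrict ρ Λ hΛ g m : Λ) : M) = ρ g (m : M) := rfl

end restrict

end Fermat.Agent.S30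

end
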