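import Fermat.Agent.S29.AlgMain

/-!
# S30, leaf T10 (file OddField): quadratic relations + oddness over a field of char ≠ 2

`k` a field with `2 ≠ 0`, `V ≠ 0` finite-dimensional, `ρ : G →* End_k V`, `d : G →* kˣ`,
`c ∈ G` with `c * c = 1`, `d c = -1`, and every `ρ g` satisfies a quadratic relation
`ρ g ^ 2 - t ρ g + d g = 0`.  Then a minimal stable subspace `W` has dimension `1`, or dimension
`2` with `ρ_W c` not scalar (no algebraic closedness needed).
-/

set_option autoImplicit false
set_option linter.unusedSectionVars false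
set_option linter.unusedVariables false

noncomputable section

namespace Fermat.Agent.S30

open Fermat.Agent.S29

section Corner

variable {k : Type*} [Field k] {V : Type*} [AddCommGroup V] [Module k V]
variable {A : Subalgebra k (Module.End k V)}

/-- An element `y` of a quadratic algebra killed on the right by `1 - e` (`e ≠ 1` idempotent)
satisfies `y * y = T • y`. -/
theorem FA_S30_OD_key (hq : FA_S29_ALG_Quad A) {e : Module.End k V}
    (he1 : e ≠ 1) (y : Module.End k V) (hy : y ∈ A) (hye : y * e = y) :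
    ∃ T : k, y * y = T • y := by
  obtain ⟨T, N, hTN⟩ := hq y hy
  refine ⟨T, ?_⟩
  have e1 : y * (1 - e) = 0 := by rw [mul_sub, mul_one, hye, sub_self]
  have h1 : (y * y - T • y + N • (1 : Module.End k V)) * (1 - e) = 0 := by rw [hTN, zero_mul]
  have h3 : (y * y - T • y + N • (1 : Module.End k V)) * (1 - e)
      = y * (y * (1 - e)) - T • (y * (1 - e)) + N • (1 - e) := by
    rw [add_mul, sub_mul, mul_assoc, smul_mul_assoc, smul_mul_assoc, one_mul]
  rw [h3, e1, mul_zero, smul_zero, sub_zero, zero_add] at h1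
  have hN : N = 0 := by
    rcases smul_eq_zero.mp h1 with h | h
    · exact h
    · exact absurd (sub_eq_zero.mp h).symm he1
  rw [hN, zero_smul, add_zero] at hTN
  exact sub_eq_zero.mp hTN

/-- For an idempotent `e ≠ 1` of a quadratic algebra `A` over a field with `2 ≠ 0`, the corner
`e A e` is scalar. -/
theorem FA_S30_OD_corner (h2 : (2 : k) ≠ 0) (hq : FA_S29_ALG_Quad A) {e : Module.End k V}
    (he : e ∈ A) (hee : e * e = e) (he1 : e ≠ 1) (x : Module.End k V) (hx : x ∈ A) :
    ∃ μ : k, e * x * e = μ • e := by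
  set b := e * x * e with hb
  have hbA : b ∈ A := A.mul_mem (A.mul_mem he hx) he
  have hbe : b * e = b := by rw [hb, mul_assoc, hee]
  have heb : e * b = b := by rw [hb, ← mul_assoc, ← mul_assoc, hee]
  obtain ⟨T, hT⟩ := FA_S30_OD_key hq he1 b hbA hbe
  obtain ⟨T₁, hT₁⟩ := FA_S30_OD_key hq he1 (b + e) (A.add_mem hbA he) (by rw [add_mul, hbe, hee])
  obtain ⟨T₂, hT₂⟩ := FA_S30_OD_key hq he1 (b - e) (A.sub_mem hbA he) (by rw [sub_mul, hbe, hee])
  have e1 : (b + e) * (b + e) = b * b + (2 : k) • b + e := by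
    rw [add_mul, mul_add, mul_add, hbe, heb, hee, two_smul]; abel
  have e2 : (b - e) * (b - e) = b * b - (2 : k) • b + e := by
    rw [sub_mul, mul_sub, mul_sub, hbe, heb, hee, two_smul]; abel
  rw [e1, hT] at hT₁
  rw [e2, hT] at hT₂
  have l1 : (T + 2 - T₁) • b = (T₁ - 1) • e := by
    have : (T + 2 - T₁) • b - (T₁ - 1) • e = (T • b + (2 : k) • b + e) - T₁ • (b + e) := by
      module
    rw [hT₁, sub_self] at this
    exact sub_eq_zero.mp this
  have l2 : (T - 2 - T₂) • b = (-(T₂ + 1)) • e := by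
    have : (T - 2 - T₂) • b - (-(T₂ + 1)) • e = (T • b - (2 : k) • b + e) - T₂ • (b - e) := by
      module
    rw [hT₂, sub_self] at this
    exact sub_eq_zero.mp this
  by_cases hd1 : T + 2 - T₁ = 0
  · by_cases hd2 : T - 2 - T₂ = 0
    · by_cases he0 : e = 0
      · refine ⟨0, ?_⟩
        rw [zero_smul, ← hbe, he0, mul_zero]
      · exfalso
        rw [hd1, zero_smul] at l1
        rw [hd2, zero_smul] at l2
        have h3 : T₁ - 1 = 0 := by
          rcases smul_eq_zero.mp l1.symm with h | h
          · exact h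
          · exact absurd h he0
        have h4 : -(T₂ + 1) = 0 := by
          rcases smul_eq_zero.mp l2.symm with h | h
          · exact h
          · exact absurd h he0
        have h5 : (2 : k) = 0 := by linear_combination hd1 - hd2 + h3 + h4
        exact h2 h5
    · refine ⟨(T - 2 - T₂)⁻¹ * (-(T₂ + 1)), ?_⟩
      rw [mul_smul, ← l2, smul_smul, inv_mul_cancel₀ hd2, one_smul]
  · refine ⟨(T + 2 - T₁)⁻¹ * (T₁ - 1), ?_⟩
    rw [mul_smul, ← l1, smul_smul, inv_mul_cancel₀ hd1, one_smul]

/-- For an idempotent `e ≠ 0, 1` of `A` the image of `e` is a line (`2 ≠ 0`). -/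
theorem FA_S30_OD_idem_line (h2 : (2 : k) ≠ 0) (hirr : FA_S29_ALG_Irr A)
    (hq : FA_S29_ALG_Quad A)
    {e : Module.End k V} (he : e ∈ A) (hee : e * e = e) (he0 : e ≠ 0) (he1 : e ≠ 1) :
    ∃ v : V, ∀ w : V, ∃ c : k, e w = c • v := by
  have : ∃ v₀ : V, e v₀ ≠ 0 := by
    by_contra hcon
    push Not at hcon
    exact he0 (LinearMap.ext fun w => by rw [hcon w, LinearMap.zero_apply])
  obtain ⟨v₀, hv₀⟩ := this
  refine ⟨e v₀, fun w => ?_⟩
  have hev : e (e v₀) = e v₀ := by rw [← Module.End.mul_apply, hee]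
  by_cases hw : e w = 0
  · exact ⟨0, by rw [hw, zero_smul]⟩
  obtain ⟨a, ha, hav⟩ := FA_S29_ALG_orbit hirr hv₀ (e w)
  obtain ⟨μ, hμ⟩ := FA_S30_OD_corner h2 hq he hee he1 a ha
  refine ⟨μ, ?_⟩
  have h1 : e w = e (e w) := by rw [← Module.End.mul_apply, hee]
  rw [h1, ← hav]
  have h2' : e (a (e v₀)) = (e * a * e) v₀ := rfl
  rw [h2', hμ, LinearMap.smul_apply]

end Corner

variable {k : Type*} [Field k] {G : Type*} [Group G] {V : Type*} [AddCommGroup V] [Module k V]

/-- **Field-level theorem of leaf T10**: a minimal stable subspace has dimension `1`, or dimension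
`2` with `ρ_W c` not scalar. -/
theorem FA_S30_OD_field (h2 : (2 : k) ≠ 0) [Module.Finite k V] [Nontrivial V]
    (ρ : G →* Module.End k V) (d : G →* kˣ) (c : G) (hc : c * c = 1) (hdc : d c = -1)
    (hquad : ∀ g : G, ∃ t : k,
      ρ g * ρ g - t • ρ g + ((d g : kˣ) : k) • (1 : Module.End k V) = 0) :
    ∃ (W : Submodule k V) (hW : FA_S29_ALG_Inv ρ W), W ≠ ⊥ ∧
      ((Module.finrank k W = 2 ∧
          ∀ s : k, FA_S29_ALG_restrict ρ W hW c ≠ s • (1 : Module.End k W)) ∨
        Module.finrank k W = 1) := by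
  classical
  obtain ⟨W, hW, hW0, hmin⟩ := FA_S29_ALG_exists_min ρ
  refine ⟨W, hW, hW0, ?_⟩
  have : Nontrivial W := Submodule.nontrivial_iff_ne_bot.mpr hW0
  set σ := FA_S29_ALG_restrict ρ W hW with hσ
  have hirr : FA_S29_ALG_Irr (Algebra.adjoin k (Set.range σ)) :=
    FA_S29_ALG_irr_of_min ρ W hW hmin
  have hquadσ : ∀ g, ∃ t : k,
      σ g * σ g - t • σ g + ((d g : kˣ) : k) • (1 : Module.End k W) = 0 := fun g => by
    obtain ⟨t, ht⟩ := hquad g
    exact ⟨t, FA_S29_ALG_restrict_rel ρ W hW g t _ ht⟩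
  have hq : FA_S29_ALG_Quad (Algebra.adjoin k (Set.range σ)) :=
    fun a ha => FA_S29_ALG_quadratic_adjoin σ d hquadσ a ha
  have hCC : σ c * σ c = 1 := by rw [← map_mul, hc, map_one]
  have hCA : σ c ∈ Algebra.adjoin k (Set.range σ) := Algebra.subset_adjoin ⟨c, rfl⟩
  obtain ⟨w₀, hw₀⟩ := exists_ne (0 : W)
  have hone : ∀ r : k, r • (1 : Module.End k W) = 0 → r = 0 := by
    intro r hr
    have := congrArg (fun f : Module.End k W => f w₀) hr
    simp only [LinearMap.smul_apply, Module.End.one_apply, LinearMap.zero_apply] at this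
    rcases smul_eq_zero.mp this with h | h
    · exact h
    · exact absurd h hw₀
  by_cases hsc : ∃ s : k, σ c = s • (1 : Module.End k W)
  · right
    obtain ⟨s, hs⟩ := hsc
    have hss : s * s = 1 := by
      rw [hs, smul_mul_smul_comm, mul_one] at hCC
      have : (s * s - 1) • (1 : Module.End k W) = 0 := by
        rw [sub_smul (s * s) 1 (1 : Module.End k W), one_smul, hCC, sub_self]
      exact sub_eq_zero.mp (hone _ this)
    -- every `σ g` is scalar
    have hscal : ∀ g, ∃ r : k, σ g = r • (1 : Module.End k W) := by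
      intro g
      obtain ⟨t, ht⟩ := hquadσ g
      obtain ⟨t', ht'⟩ := hquadσ (g * c)
      have hd' : ((d (g * c) : kˣ) : k) = -((d g : kˣ) : k) := by
        rw [map_mul, hdc]; simp
      have hgc : σ (g * c) = s • σ g := by
        rw [map_mul, hs, mul_smul_comm, mul_one]
      rw [hgc, hd', smul_mul_smul_comm, hss, one_smul, smul_smul] at ht'
      have h3 : (t' * s - t) • σ g = (-((2 : k) * ((d g : kˣ) : k))) • (1 : Module.End k W) := by
        have : (t' * s - t) • σ g - (-((2 : k) * ((d g : kˣ) : k))) • (1 : Module.End k W)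
            = (σ g * σ g - t • σ g + ((d g : kˣ) : k) • (1 : Module.End k W))
              - (σ g * σ g - (t' * s) • σ g + (-((d g : kˣ) : k)) • (1 : Module.End k W)) := by
          module
        rw [ht, ht', sub_self] at this
        exact sub_eq_zero.mp this
      have hne : t' * s - t ≠ 0 := by
        intro h0
        rw [h0, zero_smul] at h3
        have := hone _ h3.symm
        exact (mul_ne_zero h2 (d g).ne_zero) (neg_eq_zero.mp this)
      refine ⟨(t' * s - t)⁻¹ * -((2 : k) * ((d g : kˣ) : k)), ?_⟩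
      rw [mul_smul, ← h3, smul_smul, inv_mul_cancel₀ hne, one_smul]
    have hle : Algebra.adjoin k (Set.range σ) ≤ ⊥ := Algebra.adjoin_le (by
      rintro _ ⟨g, rfl⟩
      obtain ⟨r, hr⟩ := hscal g
      rw [SetLike.mem_coe, Algebra.mem_bot]
      exact ⟨r, by rw [hr, Algebra.algebraMap_eq_smul_one]⟩)
    rw [finrank_eq_one_iff']
    refine ⟨w₀, hw₀, fun w' => ?_⟩
    obtain ⟨a, ha, haw⟩ := FA_S29_ALG_orbit hirr hw₀ w'
    obtain ⟨r, hr⟩ := Algebra.mem_bot.mp (hle ha)
    refine ⟨r, ?_⟩
    rw [← haw, ← hr, Algebra.algebraMap_eq_smul_one, LinearMap.smul_apply, Module.End.one_apply]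
  · left
    push Not at hsc
    refine ⟨?_, hsc⟩
    set e : Module.End k W := (2 : k)⁻¹ • (1 + σ c) with he
    have heA : e ∈ Algebra.adjoin k (Set.range σ) :=
      Subalgebra.smul_mem _ (Subalgebra.add_mem _ (Subalgebra.one_mem _) hCA) _
    have hsq : (1 + σ c) * (1 + σ c) = (2 : k) • (1 + σ c) := by
      have h0 : (1 + σ c) * (1 + σ c) = 1 + σ c + σ c + σ c * σ c := by noncomm_ring
      rw [h0, hCC, two_smul (R := k)]; abel
    have hee : e * e = e := by
      rw [he, smul_mul_smul_comm, hsq, smul_smul, mul_assoc, inv_mul_cancel₀ h2, mul_one]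
    have he0 : e ≠ 0 := by
      intro h
      rcases smul_eq_zero.mp h with h | h
      · exact inv_ne_zero h2 h
      · exact hsc (-1) (by
          rw [eq_neg_of_add_eq_zero_right h]
          module)
    have he1 : e ≠ 1 := by
      intro h
      apply hsc 1
      have h3 : (2 : k) • e = (2 : k) • (1 : Module.End k W) := by rw [h]
      rw [he, smul_smul, mul_inv_cancel₀ h2, one_smul, two_smul] at h3
      rw [one_smul]
      exact add_left_cancel h3
    set e' : Module.End k W := 1 - e with he'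
    have he'A : e' ∈ Algebra.adjoin k (Set.range σ) :=
      Subalgebra.sub_mem _ (Subalgebra.one_mem _) heA
    have he'e' : e' * e' = e' := by
      rw [he', sub_mul, mul_sub, mul_sub, one_mul, mul_one, hee]; abel
    have he'0 : e' ≠ 0 := fun h => he1 (sub_eq_zero.mp h).symm
    have he'1 : e' ≠ 1 := by
      intro h
      apply he0
      have : (1 : Module.End k W) - e = 1 := h
      rw [sub_eq_self] at this
      exact this
    obtain ⟨v₁, hv₁⟩ := FA_S30_OD_idem_line h2 hirr hq heA hee he0 he1
    obtain ⟨v₂, hv₂⟩ := FA_S30_OD_idem_line h2 hirr hq he'A he'e' he'0 he'1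
    have hspan : Submodule.span k ({v₁, v₂} : Set W) = ⊤ := by
      rw [eq_top_iff]
      intro x _
      obtain ⟨c₁, h₁⟩ := hv₁ x
      obtain ⟨c₂, h₂⟩ := hv₂ x
      have hx : x = c₁ • v₁ + c₂ • v₂ := by
        rw [← h₁, ← h₂, he', LinearMap.sub_apply, Module.End.one_apply]; abel
      rw [hx]
      exact Submodule.add_mem _
        (Submodule.smul_mem _ _ (Submodule.subset_span (by simp)))
        (Submodule.smul_mem _ _ (Submodule.subset_span (by simp)))
    have hle : Module.finrank k W ≤ 2 := by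
      have h1 := finrank_span_le_card (R := k) ({v₁, v₂} : Set W)
      rw [hspan, finrank_top] at h1
      refine h1.trans ?_
      rw [Set.toFinset_card]
      exact (Fintype.card_le_of_surjective (fun b : Bool => (⟨if b then v₁ else v₂, by
        cases b <;> simp⟩ : ({v₁, v₂} : Set W))) (by
          rintro ⟨x, hx⟩
          rcases hx with rfl | hx
          · exact ⟨true, rfl⟩
          · rw [Set.mem_singleton_iff] at hx
            subst hx
            exact ⟨false, rfl⟩)).trans (by simp)
    have hpos : 0 < Module.finrank k W := Module.finrank_pos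
    have hne1 : Module.finrank k W ≠ 1 := by
      intro h1
      obtain ⟨v, hv0, hv⟩ := finrank_eq_one_iff'.mp h1
      obtain ⟨s, hs⟩ := hv (σ c v)
      apply hsc s
      ext w
      obtain ⟨r, hr⟩ := hv w
      rw [LinearMap.smul_apply, Module.End.one_apply, ← hr, map_smul, ← hs, smul_comm]
    omega

end Fermat.Agent.S30
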