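import Mathlib

/-!
# S30, leaf T4: the `p`-adic Tate module of an abelian group (abstract; Mathlib only)

`A` an abelian group, `p` a prime.  `T_p A = {x : ℕ → A | x 0 = 0, p • x (n + 1) = x n}`.

* `FA_S30_TM p A` : the Tate module, a module over `ℤ_[p]`;
* `FA_S30_TM_ev` : the evaluations `T → A`, `x ↦ x n` (values in `A[p^n]`);
* `FA_S30_TM_ev_eq_zero_iff` : `x n = 0 ↔ x ∈ p^n T`;
* `FA_S30_TM_torsionFree` : `a • x = 0 → a = 0 ∨ x = 0`;
* `FA_S30_TM_map f` : functoriality in additive maps;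
* `FA_S30_TM_ofCompat` : a compatible system `θ n : H →+ A` gives `H →+ T`.
-/

set_option autoImplicit false
set_option linter.unusedSectionVars false
set_option linter.unusedVariables false
set_option linter.style.haveILetI false

noncomputable section

namespace Fermat.Agent.S30

variable (p : ℕ) [hp : Fact p.Prime] (A : Type*) [AddCommGroup A]

/-- The Tate module as a subgroup of the sequences. -/
def FA_S30_TM_sub : AddSubgroup (ℕ → A) where
  carrier := {x | x 0 = 0 ∧ ∀ n, p • x (n + 1) = x n}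
  zero_mem' := ⟨rfl, fun n => by simp⟩
  add_mem' := by
    rintro x y ⟨hx0, hx⟩ ⟨hy0, hy⟩
    refine ⟨by simp [hx0, hy0], fun n => ?_⟩
    simp only [Pi.add_apply, smul_add, hx n, hy n]
  neg_mem' := by
    rintro x ⟨hx0, hx⟩
    refine ⟨by simp [hx0], fun n => ?_⟩
    simp only [Pi.neg_apply, smul_neg, hx n]

/-- The `p`-adic Tate module of `A`. -/
abbrev FA_S30_TM : Type _ := ↥(FA_S30_TM_sub p A)

variable {p A}

omit hp in
theorem FA_S30_TM_zero (x : FA_S30_TM p A) : x.1 0 = 0 := x.2.1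

omit hp in
theorem FA_S30_TM_succ (x : FA_S30_TM p A) (n : ℕ) : p • x.1 (n + 1) = x.1 n := x.2.2 n

omit hp in
theorem FA_S30_TM_pow_shift (x : FA_S30_TM p A) (k n : ℕ) : p ^ k • x.1 (n + k) = x.1 n := by
  induction k with
  | zero => simp
  | succ k ih =>
    rw [pow_succ, mul_smul, ← add_assoc, FA_S30_TM_succ, ih]

omit hp in
theorem FA_S30_TM_pow_smul (x : FA_S30_TM p A) (n : ℕ) : p ^ n • x.1 n = 0 := by
  have := FA_S30_TM_pow_shift x n 0
  rw [zero_add] at this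
  rw [this, FA_S30_TM_zero]

omit hp in
theorem FA_S30_TM_ext {x y : FA_S30_TM p A} (h : ∀ n, x.1 n = y.1 n) : x = y :=
  Subtype.ext (funext h)

omit hp in
/-- congruent integers act in the same way on `p^n`-torsion -/
theorem FA_S30_TM_nsmul_congr {y : A} {n : ℕ} (hy : p ^ n • y = 0) {k k' : ℕ}
    (h : (k : ZMod (p ^ n)) = (k' : ZMod (p ^ n))) : k • y = k' • y := by
  rw [ZMod.natCast_eq_natCast_iff] at h
  have key : ∀ a b : ℕ, a ≤ b → a ≡ b [MOD p ^ n] → a • y = b • y := by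
    intro a b hab hmod
    obtain ⟨c, hc⟩ := (Nat.modEq_iff_dvd' hab).mp hmod
    have hb : b = a + p ^ n * c := by omega
    rw [hb, add_smul, mul_comm, mul_smul, hy, smul_zero, add_zero]
  rcases le_total k k' with h1 | h1
  · exact key k k' h1 h
  · exact (key k' k h1 h.symm).symm

theorem FA_S30_TM_appr_cast (a : ℤ_[p]) (n : ℕ) :
    ((a.appr n : ℕ) : ZMod (p ^ n)) = PadicInt.toZModPow n a := rfl

instance FA_S30_TM_instSMul : SMul ℤ_[p] (FA_S30_TM p A) where
  smul a x := ⟨fun n => (a.appr n) • x.1 n, by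
    refine ⟨by simp [FA_S30_TM_zero x], fun n => ?_⟩
    show p • ((a.appr (n + 1)) • x.1 (n + 1)) = (a.appr n) • x.1 n
    rw [smul_comm, FA_S30_TM_succ]
    refine FA_S30_TM_nsmul_congr (FA_S30_TM_pow_smul x n) ?_
    rw [FA_S30_TM_appr_cast, ← PadicInt.cast_toZModPow n (n + 1) (Nat.le_succ n) a,
      ← FA_S30_TM_appr_cast a (n + 1)]
    exact (ZMod.cast_natCast (pow_dvd_pow p (Nat.le_succ n)) _).symm⟩

theorem FA_S30_TM_smul_apply (a : ℤ_[p]) (x : FA_S30_TM p A) (n : ℕ) :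
    (a • x).1 n = (a.appr n) • x.1 n := rfl

/-- the action at level `n` only depends on `a` modulo `p^n` -/
theorem FA_S30_TM_smul_eq (a : ℤ_[p]) (x : FA_S30_TM p A) (n : ℕ) (k : ℕ)
    (hk : (k : ZMod (p ^ n)) = PadicInt.toZModPow n a) : (a • x).1 n = k • x.1 n := by
  rw [FA_S30_TM_smul_apply]
  exact FA_S30_TM_nsmul_congr (FA_S30_TM_pow_smul x n) (by rw [FA_S30_TM_appr_cast, hk])

instance FA_S30_TM_instModule : Module ℤ_[p] (FA_S30_TM p A) where
  one_smul x := FA_S30_TM_ext fun n => by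
    rw [FA_S30_TM_smul_eq 1 x n 1 (by simp), one_smul]
  mul_smul a b x := FA_S30_TM_ext fun n => by
    rw [FA_S30_TM_smul_eq (a * b) x n (a.appr n * b.appr n)
      (by rw [map_mul, Nat.cast_mul, FA_S30_TM_appr_cast, FA_S30_TM_appr_cast]),
      FA_S30_TM_smul_apply, FA_S30_TM_smul_apply, mul_smul]
  smul_zero a := FA_S30_TM_ext fun n => by
    rw [FA_S30_TM_smul_apply]
    exact smul_zero _
  smul_add a x y := FA_S30_TM_ext fun n => by
    show (a.appr n) • (x.1 n + y.1 n) = (a.appr n) • x.1 n + (a.appr n) • y.1 n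
    rw [smul_add]
  add_smul a b x := FA_S30_TM_ext fun n => by
    show ((a + b) • x).1 n = (a • x).1 n + (b • x).1 n
    rw [FA_S30_TM_smul_eq (a + b) x n (a.appr n + b.appr n)
      (by rw [map_add, Nat.cast_add, FA_S30_TM_appr_cast, FA_S30_TM_appr_cast]),
      FA_S30_TM_smul_apply, FA_S30_TM_smul_apply, add_smul]
  zero_smul x := FA_S30_TM_ext fun n => by
    rw [FA_S30_TM_smul_eq 0 x n 0 (by simp), zero_smul]
    rfl

/-- evaluation at level `n` -/
def FA_S30_TM_ev (n : ℕ) : FA_S30_TM p A →+ A where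
  toFun x := x.1 n
  map_zero' := rfl
  map_add' _ _ := rfl

omit hp in
@[simp] theorem FA_S30_TM_ev_apply (n : ℕ) (x : FA_S30_TM p A) : FA_S30_TM_ev n x = x.1 n := rfl

theorem FA_S30_TM_natCast_smul (k : ℕ) (x : FA_S30_TM p A) (n : ℕ) :
    ((k : ℤ_[p]) • x).1 n = k • x.1 n :=
  FA_S30_TM_smul_eq _ x n k (by simp)

theorem FA_S30_TM_ppow_smul_apply (k : ℕ) (x : FA_S30_TM p A) (n : ℕ) :
    (((p : ℤ_[p]) ^ k) • x).1 n = p ^ k • x.1 n := by
  have := FA_S30_TM_natCast_smul (p ^ k) x n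
  rwa [Nat.cast_pow] at this

/-- the shift: `y n = x (n + k)` -/
def FA_S30_TM_shift (k : ℕ) (x : FA_S30_TM p A) (hk : x.1 k = 0) : FA_S30_TM p A :=
  ⟨fun n => x.1 (n + k), by
    refine ⟨by simpa using hk, fun n => ?_⟩
    show p • x.1 (n + 1 + k) = x.1 (n + k)
    rw [show n + 1 + k = (n + k) + 1 by ring, FA_S30_TM_succ]⟩

/-- **`ker (ev n) = p^n T`.** -/
theorem FA_S30_TM_ev_eq_zero_iff (n : ℕ) (x : FA_S30_TM p A) :
    x.1 n = 0 ↔ ∃ y : FA_S30_TM p A, x = ((p : ℤ_[p]) ^ n) • y := by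
  constructor
  · intro h
    refine ⟨FA_S30_TM_shift n x h, FA_S30_TM_ext fun m => ?_⟩
    rw [FA_S30_TM_ppow_smul_apply]
    exact (FA_S30_TM_pow_shift x n m).symm
  · rintro ⟨y, rfl⟩
    rw [FA_S30_TM_ppow_smul_apply, FA_S30_TM_pow_smul]

/-- `p^k • x = 0 → x = 0`. -/
theorem FA_S30_TM_ppow_smul_eq_zero (k : ℕ) (x : FA_S30_TM p A)
    (h : ((p : ℤ_[p]) ^ k) • x = 0) : x = 0 := by
  refine FA_S30_TM_ext fun n => ?_
  have h1 := congrArg (fun z : FA_S30_TM p A => z.1 (n + k)) h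
  simp only [FA_S30_TM_ppow_smul_apply] at h1
  rw [FA_S30_TM_pow_shift] at h1
  exact h1

/-- **The Tate module is torsion-free.** -/
theorem FA_S30_TM_torsionFree (a : ℤ_[p]) (x : FA_S30_TM p A) (h : a • x = 0) :
    a = 0 ∨ x = 0 := by
  by_cases ha : a = 0
  · exact Or.inl ha
  · right
    have h1 := PadicInt.unitCoeff_spec ha
    rw [h1, mul_smul] at h
    have h2 : ((p : ℤ_[p]) ^ a.valuation) • x = 0 := by
      have := congrArg (fun z => ((PadicInt.unitCoeff ha)⁻¹ : ℤ_[p]ˣ) • z) h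
      simpa [Units.smul_def, smul_smul] using this
    exact FA_S30_TM_ppow_smul_eq_zero _ x h2

instance FA_S30_TM_instNoZeroSMulDivisors : NoZeroSMulDivisors ℤ_[p] (FA_S30_TM p A) :=
  ⟨fun {a x} h => FA_S30_TM_torsionFree a x h⟩

end Fermat.Agent.S30

end
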