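import Fermat.Agent.S30.Tate

/-!
# S30, leaf T4 (part 2): functoriality and finiteness of the Tate module

* `FA_S30_TM_map f : T_p A →ₗ[ℤ_[p]] T_p B` for `f : A →+ B` (pointwise), with `_map_id`, `_map_comp`;
* `FA_S30_TM_ofCompat` : a compatible system `θ n : H →+ A` gives `H →+ T_p A`;
* `FA_S30_TM_finite` : if `A[p]` is finite then `T_p A` is a finitely generated `ℤ_[p]`-module;
* `FA_S30_TM_free` : ... and free.
-/

set_option autoImplicit false
set_option linter.unusedSectionVars false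
set_option linter.unusedVariables false
set_option linter.style.haveILetI false

noncomputable section

namespace Fermat.Agent.S30

variable {p : ℕ} [hp : Fact p.Prime] {A : Type*} [AddCommGroup A] {B : Type*} [AddCommGroup B]
  {C : Type*} [AddCommGroup C]

/-- Functoriality of the Tate module. -/
def FA_S30_TM_map (f : A →+ B) : FA_S30_TM p A →ₗ[ℤ_[p]] FA_S30_TM p B where
  toFun x := ⟨fun n => f (x.1 n), by
    refine ⟨by simp [FA_S30_TM_zero x], fun n => ?_⟩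
    show p • f (x.1 (n + 1)) = f (x.1 n)
    rw [← map_nsmul, FA_S30_TM_succ]⟩
  map_add' x y := FA_S30_TM_ext fun n => by
    show f (x.1 n + y.1 n) = f (x.1 n) + f (y.1 n)
    rw [map_add]
  map_smul' a x := FA_S30_TM_ext fun n => by
    show f ((a.appr n) • x.1 n) = (a.appr n) • f (x.1 n)
    rw [map_nsmul]

@[simp] theorem FA_S30_TM_map_apply (f : A →+ B) (x : FA_S30_TM p A) (n : ℕ) :
    (FA_S30_TM_map f x).1 n = f (x.1 n) := rfl

theorem FA_S30_TM_map_id : FA_S30_TM_map (AddMonoidHom.id A) = (LinearMap.id : FA_S30_TM p A →ₗ[ℤ_[p]] _) :=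
  LinearMap.ext fun x => FA_S30_TM_ext fun n => rfl

theorem FA_S30_TM_map_comp (g : B →+ C) (f : A →+ B) :
    (FA_S30_TM_map (g.comp f) : FA_S30_TM p A →ₗ[ℤ_[p]] _) = (FA_S30_TM_map g).comp (FA_S30_TM_map f) :=
  LinearMap.ext fun x => FA_S30_TM_ext fun n => rfl

theorem FA_S30_TM_map_add (f g : A →+ B) :
    (FA_S30_TM_map (f + g) : FA_S30_TM p A →ₗ[ℤ_[p]] _) = FA_S30_TM_map f + FA_S30_TM_map g :=
  LinearMap.ext fun x => FA_S30_TM_ext fun n => rfl

theorem FA_S30_TM_map_sub (f g : A →+ B) :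
    (FA_S30_TM_map (f - g) : FA_S30_TM p A →ₗ[ℤ_[p]] _) = FA_S30_TM_map f - FA_S30_TM_map g :=
  LinearMap.ext fun x => FA_S30_TM_ext fun n => rfl

theorem FA_S30_TM_map_nsmul (k : ℕ) (f : A →+ B) :
    (FA_S30_TM_map (k • f) : FA_S30_TM p A →ₗ[ℤ_[p]] _) = (k : ℤ_[p]) • FA_S30_TM_map f :=
  LinearMap.ext fun x => FA_S30_TM_ext fun n => by
    show k • f (x.1 n) = (((k : ℤ_[p]) • FA_S30_TM_map f x)).1 n
    rw [FA_S30_TM_natCast_smul]
    rfl

theorem FA_S30_TM_map_zero :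
    (FA_S30_TM_map (0 : A →+ B) : FA_S30_TM p A →ₗ[ℤ_[p]] _) = 0 :=
  LinearMap.ext fun x => FA_S30_TM_ext fun n => rfl

/-- if `f` kills the `p^n`-torsion of `A`, then `T f` maps `T` into `p^n T` -/
theorem FA_S30_TM_map_mem_pow (f : A →+ A) (n : ℕ) (hf : ∀ a : A, p ^ n • a = 0 → f a = 0)
    (x : FA_S30_TM p A) : ∃ y : FA_S30_TM p A, FA_S30_TM_map f x = ((p : ℤ_[p]) ^ n) • y :=
  (FA_S30_TM_ev_eq_zero_iff n _).mp (hf _ (FA_S30_TM_pow_smul x n))

/-- if `f` is the identity on the `p^n`-torsion of `A`, then `T f ≡ 1` modulo `p^n` -/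
theorem FA_S30_TM_map_sub_mem_pow (f : A →+ A) (n : ℕ) (hf : ∀ a : A, p ^ n • a = 0 → f a = a)
    (x : FA_S30_TM p A) : ∃ y : FA_S30_TM p A, FA_S30_TM_map f x - x = ((p : ℤ_[p]) ^ n) • y := by
  refine (FA_S30_TM_ev_eq_zero_iff n _).mp ?_
  show f (x.1 n) - x.1 n = 0
  rw [hf _ (FA_S30_TM_pow_smul x n), sub_self]

/-- an operator identity on all `p`-power torsion gives the identity on the Tate module -/
theorem FA_S30_TM_map_eq_zero (f : A →+ B) (hf : ∀ (n : ℕ) (a : A), p ^ n • a = 0 → f a = 0) :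
    (FA_S30_TM_map f : FA_S30_TM p A →ₗ[ℤ_[p]] _) = 0 :=
  LinearMap.ext fun x => FA_S30_TM_ext fun n => hf n _ (FA_S30_TM_pow_smul x n)

/-- A compatible system of homomorphisms into `A` is a homomorphism into the Tate module. -/
def FA_S30_TM_ofCompat {H : Type*} [AddCommGroup H] (θ : ℕ → H →+ A) (h0 : ∀ ψ, θ 0 ψ = 0)
    (hc : ∀ n ψ, p • θ (n + 1) ψ = θ n ψ) : H →+ FA_S30_TM p A where
  toFun ψ := ⟨fun n => θ n ψ, ⟨h0 ψ, fun n => hc n ψ⟩⟩
  map_zero' := FA_S30_TM_ext fun n => map_zero _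
  map_add' ψ ψ' := FA_S30_TM_ext fun n => map_add _ _ _

@[simp] theorem FA_S30_TM_ofCompat_apply {H : Type*} [AddCommGroup H] (θ : ℕ → H →+ A)
    (h0 : ∀ ψ, θ 0 ψ = 0) (hc : ∀ n ψ, p • θ (n + 1) ψ = θ n ψ) (ψ : H) (n : ℕ) :
    (FA_S30_TM_ofCompat θ h0 hc ψ).1 n = θ n ψ := rfl

/-! ### Finiteness -/

section finite

variable (hfin : {a : A | p • a = 0}.Finite)

omit hp in
include hfin in
theorem FA_S30_TM_range_ev_one_finite :
    (Set.range fun x : FA_S30_TM p A => x.1 1).Finite := by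
  refine hfin.subset ?_
  rintro _ ⟨x, rfl⟩
  show p • x.1 1 = 0
  have := FA_S30_TM_succ x 0
  rw [zero_add] at this
  rw [this, FA_S30_TM_zero]

include hfin in
/-- a finite set of representatives of `T / p T` -/
theorem FA_S30_TM_exists_reps :
    ∃ S : Finset (FA_S30_TM p A), ∀ y : FA_S30_TM p A, ∃ s ∈ S, ∃ y' : FA_S30_TM p A,
      y = s + (p : ℤ_[p]) • y' := by
  classical
  have hW := FA_S30_TM_range_ev_one_finite (p := p) hfin
  choose sec hsec using fun w : (Set.range fun x : FA_S30_TM p A => x.1 1) => w.2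
  haveI : Fintype (Set.range fun x : FA_S30_TM p A => x.1 1) := hW.fintype
  refine ⟨Finset.univ.image sec, fun y => ?_⟩
  refine ⟨sec ⟨y.1 1, ⟨y, rfl⟩⟩, Finset.mem_image.mpr ⟨_, Finset.mem_univ _, rfl⟩, ?_⟩
  have h1 : (y - sec ⟨y.1 1, ⟨y, rfl⟩⟩).1 1 = 0 := by
    have := hsec ⟨y.1 1, ⟨y, rfl⟩⟩
    exact sub_eq_zero.mpr this.symm
  obtain ⟨y', hy'⟩ := (FA_S30_TM_ev_eq_zero_iff 1 _).mp h1
  refine ⟨y', ?_⟩
  rw [pow_one] at hy'
  rw [← hy']
  abel

theorem FA_S30_TM_summable (c : ℕ → ℤ_[p]) (hc : ∀ j, ‖c j‖ ≤ 1) :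
    Summable fun j => c j * (p : ℤ_[p]) ^ j := by
  have hp1 : (p : ℝ)⁻¹ < 1 := inv_lt_one_of_one_lt₀ (by exact_mod_cast hp.out.one_lt)
  have hp0 : (0 : ℝ) ≤ (p : ℝ)⁻¹ := by positivity
  refine Summable.of_norm_bounded (summable_geometric_of_lt_one hp0 hp1) fun j => ?_
  rw [norm_mul, norm_pow, PadicInt.norm_p, inv_pow]
  calc ‖c j‖ * ((p : ℝ) ^ j)⁻¹ ≤ 1 * ((p : ℝ) ^ j)⁻¹ :=
        mul_le_mul_of_nonneg_right (hc j) (by positivity)
    _ = ((p : ℝ) ^ j)⁻¹ := one_mul _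

/-- the partial sums of a `p`-adic series `∑ c_j p^j` with `c_j ∈ {0, 1}` compute it modulo `p^n` -/
theorem FA_S30_TM_toZModPow_tsum (c : ℕ → ℕ) (hc : ∀ j, c j ≤ 1) (n : ℕ) :
    PadicInt.toZModPow n (∑' j, (c j : ℤ_[p]) * (p : ℤ_[p]) ^ j)
      = ((∑ j ∈ Finset.range n, c j * p ^ j : ℕ) : ZMod (p ^ n)) := by
  have hc' : ∀ j, ‖(c j : ℤ_[p])‖ ≤ 1 := fun j => PadicInt.norm_le_one _
  have hs := FA_S30_TM_summable (p := p) (fun j => (c j : ℤ_[p])) hc'
  have hs' : Summable fun j => (c (j + n) : ℤ_[p]) * (p : ℤ_[p]) ^ j :=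
    FA_S30_TM_summable (p := p) (fun j => (c (j + n) : ℤ_[p])) fun j => PadicInt.norm_le_one _
  have h1 := hs.sum_add_tsum_nat_add n
  have h2 : (∑' j, (c (j + n) : ℤ_[p]) * (p : ℤ_[p]) ^ (j + n))
      = (p : ℤ_[p]) ^ n * ∑' j, (c (j + n) : ℤ_[p]) * (p : ℤ_[p]) ^ j := by
    rw [← hs'.tsum_mul_left]
    congr 1
    funext j
    ring
  rw [← h1, h2, map_add, map_mul, map_pow]
  have h3 : PadicInt.toZModPow n (p : ℤ_[p]) ^ n = 0 := by
    rw [← map_pow]
    have : ((p : ℤ_[p]) ^ n) ∈ RingHom.ker (PadicInt.toZModPow (p := p) n) := by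
      rw [PadicInt.ker_toZModPow]
      exact Ideal.mem_span_singleton_self _
    exact this
  rw [h3, zero_mul, add_zero, map_sum]
  push_cast
  refine Finset.sum_congr rfl fun j _ => ?_
  rw [map_mul, map_pow, map_natCast, map_natCast]

include hfin in
/-- **Finiteness of the Tate module.** -/
theorem FA_S30_TM_finite : Module.Finite ℤ_[p] (FA_S30_TM p A) := by
  classical
  obtain ⟨S, hS⟩ := FA_S30_TM_exists_reps (p := p) hfin
  choose s hsS nxt hnxt using hS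
  refine ⟨⟨S, ?_⟩⟩
  rw [eq_top_iff]
  intro y _
  -- the sequences
  let yseq : ℕ → FA_S30_TM p A := fun j => nxt^[j] y
  have hy0 : yseq 0 = y := rfl
  have hystep : ∀ j, yseq j = s (yseq j) + (p : ℤ_[p]) • yseq (j + 1) := by
    intro j
    have : yseq (j + 1) = nxt (yseq j) := Function.iterate_succ_apply' nxt j y
    rw [this]
    exact hnxt (yseq j)
  have hexp : ∀ n, y = ∑ j ∈ Finset.range n, ((p : ℤ_[p]) ^ j) • s (yseq j)
      + ((p : ℤ_[p]) ^ n) • yseq n := by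
    intro n
    induction n with
    | zero => simp [hy0]
    | succ n ih =>
      rw [Finset.sum_range_succ, add_assoc]
      have e : ((p : ℤ_[p]) ^ n) • yseq n
          = ((p : ℤ_[p]) ^ n) • s (yseq n) + ((p : ℤ_[p]) ^ (n + 1)) • yseq (n + 1) := by
        conv_lhs => rw [hystep n]
        rw [smul_add, pow_succ, mul_smul]
      rw [← e]
      exact ih
  -- the coefficients
  let c : FA_S30_TM p A → ℕ → ℕ := fun t j => if s (yseq j) = t then 1 else 0
  have hc : ∀ t j, c t j ≤ 1 := fun t j => by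
    dsimp only [c]
    split_ifs <;> simp
  let a : FA_S30_TM p A → ℤ_[p] := fun t => ∑' j, (c t j : ℤ_[p]) * (p : ℤ_[p]) ^ j
  have hev_sum : ∀ (n : ℕ) (I : Finset ℕ) (f : ℕ → FA_S30_TM p A),
      (∑ j ∈ I, f j).1 n = ∑ j ∈ I, (f j).1 n := fun n I f => map_sum (FA_S30_TM_ev n) f I
  have hev_sum' : ∀ (n : ℕ) (I : Finset (FA_S30_TM p A)) (f : FA_S30_TM p A → FA_S30_TM p A),
      (∑ j ∈ I, f j).1 n = ∑ j ∈ I, (f j).1 n := fun n I f => map_sum (FA_S30_TM_ev n) f I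
  have hya : y = ∑ t ∈ S, a t • t := by
    refine FA_S30_TM_ext fun n => ?_
    rw [hev_sum']
    have hterm : ∀ t ∈ S, (a t • t).1 n = (∑ j ∈ Finset.range n, c t j * p ^ j) • t.1 n :=
      fun t _ => FA_S30_TM_smul_eq (a t) t n _ (FA_S30_TM_toZModPow_tsum (c t) (hc t) n).symm
    rw [Finset.sum_congr rfl hterm]
    have h2 : ∀ t ∈ S, (∑ j ∈ Finset.range n, c t j * p ^ j) • t.1 n
        = ∑ j ∈ Finset.range n, (c t j * p ^ j) • t.1 n := fun t _ => Finset.sum_smul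
    rw [Finset.sum_congr rfl h2, Finset.sum_comm]
    have h3 : ∀ j ∈ Finset.range n, ∑ t ∈ S, (c t j * p ^ j) • t.1 n
        = p ^ j • (s (yseq j)).1 n := by
      intro j _
      rw [Finset.sum_eq_single (s (yseq j))]
      · simp [c]
      · intro t _ hne
        have : c t j = 0 := by
          dsimp only [c]
          rw [if_neg (Ne.symm hne)]
        rw [this, zero_mul, zero_smul]
      · intro h
        exact absurd (hsS _) h
    rw [Finset.sum_congr rfl h3]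
    have h4 := congrArg (fun z : FA_S30_TM p A => z.1 n) (hexp n)
    have h5 : (∑ j ∈ Finset.range n, ((p : ℤ_[p]) ^ j) • s (yseq j)
        + ((p : ℤ_[p]) ^ n) • yseq n).1 n
        = (∑ j ∈ Finset.range n, ((p : ℤ_[p]) ^ j) • s (yseq j)).1 n
          + (((p : ℤ_[p]) ^ n) • yseq n).1 n := rfl
    change y.1 n = _ at h4
    rw [h5, hev_sum, FA_S30_TM_ppow_smul_apply, FA_S30_TM_pow_smul, add_zero] at h4
    rw [h4]
    exact Finset.sum_congr rfl fun j _ => FA_S30_TM_ppow_smul_apply j _ n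
  rw [hya]
  exact Submodule.sum_mem _ fun t ht => Submodule.smul_mem _ _ (Submodule.subset_span ht)

include hfin in
/-- **The Tate module is free of finite rank.** -/
theorem FA_S30_TM_free : Module.Free ℤ_[p] (FA_S30_TM p A) := by
  haveI := FA_S30_TM_finite (p := p) hfin
  exact Module.free_of_finite_type_torsion_free'

end finite

end Fermat.Agent.S30

end
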