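import Mathlib
import Fermat.Agent.S30.TorsFin
import Fermat.Agent.S29.StabBOrb

/-!
# S30, concrete inputs on the torsion of `J₀(N)`

* `FA_S30_TL_level` : `J₀(N)[m]` is fixed pointwise by `Gal(ℚ̄ / E)` for a number field `E`
  (`E` can be taken normal: `FA_S30_TL_level_normal`);
* `FA_S30_TL_level_pow` : the same for `J₀(N)[p ^ n]`, in the form used by the continuity
  hypotheses (`∀ x ∈ E, σ x = x`);
* `FA_S30_TL_congr_pow` : agreement of `σ`, `τ` on a normal number field implies agreement on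
  `J₀(N)[p ^ n]`.
-/

set_option autoImplicit false
set_option linter.unusedSectionVars false
set_option linter.unusedVariables false
set_option linter.style.haveILetI false
set_option synthInstance.maxHeartbeats 400000
set_option maxHeartbeats 1000000

noncomputable section

namespace Fermat.Agent.S30

open ModularCurve AlgebraicCurve Fermat.Agent.S29

local notation "Qb" => AlgebraicClosure ℚ
local notation "Γ" => (AlgebraicClosure ℚ ≃ₐ[ℚ] AlgebraicClosure ℚ)

/-- `J₀(N)[m]` is fixed pointwise by `Gal(ℚ̄ / E)` for a number field `E`. -/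
theorem FA_S30_TL_level (N : ℕ) [NeZero N] (m : ℕ) (hm : 0 < m) :
    ∃ E : IntermediateField ℚ Qb, FiniteDimensional ℚ E ∧
      ∀ σ : Γ, σ ∈ E.fixingSubgroup → ∀ x : JZero N, m • x = 0 → σ • x = x := by
  classical
  have hfin := FA_S30_TF_finite N m hm
  obtain ⟨E, hE, h⟩ := FA_S29_STB_finset N hfin.toFinset
  exact ⟨E, hE, fun σ hσ x hx => h σ hσ x (hfin.mem_toFinset.mpr hx)⟩

/-- The same with `E / ℚ` normal. -/
theorem FA_S30_TL_level_normal (N : ℕ) [NeZero N] (m : ℕ) (hm : 0 < m) :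
    ∃ E : IntermediateField ℚ Qb, FiniteDimensional ℚ E ∧ Normal ℚ E ∧
      ∀ σ : Γ, σ ∈ E.fixingSubgroup → ∀ x : JZero N, m • x = 0 → σ • x = x := by
  classical
  have hfin := FA_S30_TF_finite N m hm
  obtain ⟨E, hE, hn, h⟩ := FA_S29_STB_finset_normal N hfin.toFinset
  exact ⟨E, hE, hn, fun σ hσ x hx => h σ hσ x (hfin.mem_toFinset.mpr hx)⟩

/-- The form used in the continuity hypotheses. -/
theorem FA_S30_TL_level_pow (N : ℕ) [NeZero N] (p : ℕ) (hp : 0 < p) (n : ℕ) :
    ∃ E : IntermediateField ℚ Qb, FiniteDimensional ℚ E ∧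
      ∀ σ : Γ, (∀ x ∈ E, σ x = x) → ∀ a : JZero N, p ^ n • a = 0 → σ • a = a := by
  obtain ⟨E, hE, h⟩ := FA_S30_TL_level N (p ^ n) (pow_pos hp n)
  exact ⟨E, hE, fun σ hσ a ha =>
    h σ ((IntermediateField.mem_fixingSubgroup_iff _ _).mpr hσ) a ha⟩

/-- Agreement on a number field implies agreement on `J₀(N)[p ^ n]`. -/
theorem FA_S30_TL_congr_pow (N : ℕ) [NeZero N] (p : ℕ) (hp : 0 < p) (n : ℕ) :
    ∃ E : IntermediateField ℚ Qb, FiniteDimensional ℚ E ∧ Normal ℚ E ∧
      ∀ σ τ : Γ, (∀ x ∈ E, σ x = τ x) → ∀ a : JZero N, p ^ n • a = 0 → σ • a = τ • a := by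
  obtain ⟨E, hE, hn, h⟩ := FA_S30_TL_level_normal N (p ^ n) (pow_pos hp n)
  refine ⟨E, hE, hn, fun σ τ hστ a ha => ?_⟩
  have hmem : τ⁻¹ * σ ∈ E.fixingSubgroup := by
    rw [IntermediateField.mem_fixingSubgroup_iff]
    intro x hx
    show τ⁻¹ (σ x) = x
    rw [hστ x hx]
    exact τ.symm_apply_apply x
  have h2 := h _ hmem a ha
  rw [mul_smul] at h2
  calc σ • a = τ • (τ⁻¹ • (σ • a)) := (smul_inv_smul τ _).symm
    _ = τ • a := by rw [h2]

end Fermat.Agent.S30

end
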